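import Fermat.Agent.Red.Lattice
import Mathlib.RingTheory.Norm.Basic
import Mathlib.RingTheory.Trace.Basic

/-!
# Norms are compatible with reduction
-/

set_option autoImplicit false
set_option linter.style.haveILetI false
set_option linter.unusedSectionVars false

namespace Fermat.Agent.Spec

open Module Fermat.Agent.Red

variable {A K F k R F' R' : Type*} [CommRing A] [IsDomain A] [ValuationRing A]
  [Field K] [Algebra A K] [IsFractionRing A K]
  [Field F] [Algebra K F] [Algebra A F] [IsScalarTower A K F]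
  [Field F'] [Algebra K F'] [Algebra A F'] [IsScalarTower A K F']
  [Field k] [Algebra A k]
  [Field R] [Algebra k R] [Algebra A R] [IsScalarTower A k R]
  [Field R'] [Algebra k R'] [Algebra A R'] [IsScalarTower A k R']
  [Algebra F F'] [IsScalarTower K F F'] [Algebra R R'] [IsScalarTower k R R']

/-- compatibility of reduction models with field extensions -/
def Compat (M : RedModel A K F k R) (M' : RedModel A K F' k R') : Prop :=
  ∀ x (hx : x ∈ M.W), ∃ h : algebraMap F F' x ∈ M'.W,
    M'.π ⟨algebraMap F F' x, h⟩ = algebraMap R R' (M.π ⟨x, hx⟩)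

/-- the nonzero scaling of one element -/
theorem exists_scaled' (M : RedModel A K F k R) (hk : Function.Surjective (algebraMap A k))
    {f : F} (hf : f ≠ 0) :
    ∃ a : K, a ≠ 0 ∧ ∃ h : a • f ∈ M.W, M.π ⟨a • f, h⟩ ≠ 0 := by
  have h1 := M.finrank_rd hk (Submodule.span K {f})
  rw [finrank_span_singleton hf] at h1
  obtain ⟨y, hy⟩ : ∃ y : M.rd hk (Submodule.span K {f}), y ≠ 0 := by
    haveI : Nontrivial (M.rd hk (Submodule.span K {f})) := by
      apply Module.nontrivial_of_finrank_pos (R := k)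
      rw [h1]; exact one_pos
    exact exists_ne 0
  obtain ⟨x, hx, hxy⟩ := y.2
  obtain ⟨a, rfl⟩ := Submodule.mem_span_singleton.1 hx.2
  have hy' : M.π ⟨a • f, hx.1⟩ ≠ 0 := by
    rw [hxy]
    intro h
    exact hy (Subtype.ext h)
  refine ⟨a, ?_, hx.1, hy'⟩
  rintro rfl
  apply hy'
  have : (⟨(0 : K) • f, hx.1⟩ : M.W) = 0 := Subtype.ext (zero_smul K f)
  rw [this, map_zero]

/-- elements of `K` are ordered by divisibility -/
theorem exists_max_scale {ι : Type*} (s : Finset ι) (hs : s.Nonempty) (c : ι → K)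
    (hc : ∀ i ∈ s, c i ≠ 0) : ∃ i ∈ s, ∀ j ∈ s, ∃ a : A, c i = algebraMap A K a * c j := by
  classical
  induction hs using Finset.Nonempty.cons_induction with
  | singleton i =>
    refine ⟨i, Finset.mem_singleton_self i, ?_⟩
    intro j hj
    rw [Finset.mem_singleton] at hj
    subst hj
    exact ⟨1, by rw [map_one, one_mul]⟩
  | cons i0 s hi0 hs ih =>
    obtain ⟨i, hi, h⟩ := ih (fun j hj => hc j (Finset.mem_cons_of_mem hj))
    have h0 := hc i0 (Finset.mem_cons_self i0 s)
    have hi' := hc i (Finset.mem_cons_of_mem hi)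
    rcases ValuationRing.isInteger_or_isInteger A (c i / c i0) with ⟨a, ha⟩ | ⟨a, ha⟩
    · refine ⟨i, Finset.mem_cons_of_mem hi, ?_⟩
      intro j hj
      rcases Finset.mem_cons.1 hj with rfl | hj
      · exact ⟨a, by rw [ha, div_mul_cancel₀ _ h0]⟩
      · exact h j hj
    · refine ⟨i0, Finset.mem_cons_self i0 s, ?_⟩
      intro j hj
      rcases Finset.mem_cons.1 hj with rfl | hj
      · exact ⟨1, by rw [map_one, one_mul]⟩
      · obtain ⟨b, hb⟩ := h j hj
        refine ⟨a * b, ?_⟩
        rw [map_mul, mul_assoc, ← hb, ha, inv_div, div_mul_cancel₀ _ hi']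

/-- scale a family -/
theorem exists_scaled_family (M : RedModel A K F k R) (hk : Function.Surjective (algebraMap A k))
    {ι : Type*} [Fintype ι] (a : ι → F) (ha : a ≠ 0) :
    ∃ c : K, c ≠ 0 ∧ ∃ h : ∀ i, c • a i ∈ M.W, ∃ i, M.π ⟨c • a i, h i⟩ ≠ 0 := by
  classical
  have h1 : ∀ i, ∃ c : K, a i ≠ 0 → c ≠ 0 ∧ ∃ h : c • a i ∈ M.W, M.π ⟨c • a i, h⟩ ≠ 0 := by
    intro i
    by_cases hi : a i = 0
    · exact ⟨0, fun h => absurd hi h⟩
    · obtain ⟨c, hc⟩ := exists_scaled' M hk hi
      exact ⟨c, fun _ => hc⟩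
  choose c hc using h1
  let s : Finset ι := Finset.univ.filter fun i => a i ≠ 0
  have hs : s.Nonempty := by
    obtain ⟨i, hi⟩ := Function.ne_iff.1 ha
    exact ⟨i, Finset.mem_filter.2 ⟨Finset.mem_univ i, hi⟩⟩
  obtain ⟨i, hi, h⟩ := exists_max_scale (A := A) s hs c
    (fun i hi => (hc i (Finset.mem_filter.1 hi).2).1)
  have hi' := (Finset.mem_filter.1 hi).2
  have hmem : ∀ j, c i • a j ∈ M.W := by
    intro j
    by_cases hj : a j = 0
    · rw [hj, smul_zero]; exact zero_mem _
    · obtain ⟨b, hb⟩ := h j (Finset.mem_filter.2 ⟨Finset.mem_univ j, hj⟩)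
      obtain ⟨-, h2, -⟩ := hc j hj
      rw [hb, mul_smul, algebraMap_smul]
      exact M.W.smul_mem h2 b
  exact ⟨c i, (hc i hi').1, hmem, i, (hc i hi').2.choose_spec⟩

section Basis

variable (M : RedModel A K F k R) (M' : RedModel A K F' k R')
  (hk : Function.Surjective (algebraMap A k)) (hc : Compat M M')
  {ι : Type*} [Fintype ι] (b : Basis ι R R') (e : ι → F') (he : ∀ i, e i ∈ M'.W)
  (heb : ∀ i, M'.π ⟨e i, he i⟩ = b i)

include hc in
theorem combo_mem (he : ∀ i, e i ∈ M'.W) (a : ι → F) (ha : ∀ i, a i ∈ M.W) :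
    ∑ i, a i • e i ∈ M'.W := by
  refine sum_mem fun i _ => ?_
  rw [Algebra.smul_def]
  obtain ⟨h1, -⟩ := hc (a i) (ha i)
  exact mul_mem h1 (he i)

include heb in
theorem π_combo (hc : Compat M M') (a : ι → F) (ha : ∀ i, a i ∈ M.W) :
    M'.π ⟨∑ i, a i • e i, combo_mem M M' hc e he a ha⟩ = ∑ i, M.π ⟨a i, ha i⟩ • b i := by
  have h1 : (⟨∑ i, a i • e i, combo_mem M M' hc e he a ha⟩ : M'.W) =
      ∑ i, ⟨algebraMap F F' (a i), (hc (a i) (ha i)).choose⟩ * ⟨e i, he i⟩ := by
    apply Subtype.ext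
    push_cast
    exact Finset.sum_congr rfl fun i _ => Algebra.smul_def _ _
  rw [h1, map_sum]
  refine Finset.sum_congr rfl fun i _ => ?_
  rw [map_mul, heb, (hc (a i) (ha i)).choose_spec, Algebra.smul_def]

include hc heb hk in
theorem combo_ne (a : ι → F) (ha : a ≠ 0) :
    ∃ c : K, c ≠ 0 ∧ (∀ i, c • a i ∈ M.W) ∧ ∃ h : c • ∑ i, a i • e i ∈ M'.W,
      M'.π ⟨c • ∑ i, a i • e i, h⟩ ≠ 0 := by
  obtain ⟨c, hc0, hca, i0, hi0⟩ := exists_scaled_family M hk a ha
  have h1 : c • ∑ i, a i • e i = ∑ i, (c • a i) • e i := by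
    rw [Finset.smul_sum]
    exact Finset.sum_congr rfl fun i _ => (smul_assoc c (a i) (e i)).symm
  refine ⟨c, hc0, hca, ?_⟩
  rw [h1]
  refine ⟨combo_mem M M' hc e he _ hca, ?_⟩
  rw [π_combo M M' b e he heb hc _ hca]
  intro h0
  have h2 := (Fintype.linearIndependent_iff.1 b.linearIndependent) _ h0 i0
  exact hi0 h2

include hc heb hk in
/-- coordinates of integral elements are integral -/
theorem coord_mem (a : ι → F) (h : ∑ i, a i • e i ∈ M'.W) (i : ι) : a i ∈ M.W := by
  by_cases ha : a = 0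
  · rw [ha]; exact zero_mem _
  obtain ⟨c, hc0, hca, h1, h2⟩ := combo_ne M M' hk hc b e he heb a ha
  obtain ⟨u, hu⟩ : ∃ u : A, algebraMap A K u = c⁻¹ := by
    rcases ValuationRing.isInteger_or_isInteger A c with ⟨u, hu⟩ | ⟨u, hu⟩
    · -- `c = u`, must be a unit
      by_cases hu0 : algebraMap A k u = 0
      · exfalso
        apply h2
        have h3 : (⟨c • ∑ i, a i • e i, h1⟩ : M'.W) = u • ⟨∑ i, a i • e i, h⟩ := by
          apply Subtype.ext
          change c • ∑ i, a i • e i = u • ∑ i, a i • e i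
          rw [← hu, algebraMap_smul]
        rw [h3, map_smul, ← algebraMap_smul k u, hu0, zero_smul]
      · have hunit : IsUnit u := by
          by_contra hn
          have h3 : u ∈ IsLocalRing.maximalIdeal A := (IsLocalRing.mem_maximalIdeal u).2 hn
          have h4 : RingHom.ker (algebraMap A k) = IsLocalRing.maximalIdeal A := by
            apply IsLocalRing.eq_maximalIdeal
            exact RingHom.ker_isMaximal_of_surjective _ hk
          rw [← h4] at h3
          exact hu0 h3
        obtain ⟨v, rfl⟩ := hunit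
        refine ⟨((v⁻¹ : Aˣ) : A), ?_⟩
        rw [← hu]
        apply eq_inv_of_mul_eq_one_right
        rw [← map_mul, Units.mul_inv, map_one]
    · exact ⟨u, hu⟩
  have h5 : a i = u • (c • a i) := by
    rw [← algebraMap_smul K u, hu, smul_smul, inv_mul_cancel₀ hc0, one_smul]
  rw [h5]
  exact M.W.smul_mem (hca i) u

include hc heb hk in
theorem linearIndependent_lift : LinearIndependent F e := by
  rw [Fintype.linearIndependent_iff]
  intro a ha
  by_contra hcon
  push Not at hcon
  obtain ⟨i, hi⟩ := hcon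
  have ha0 : a ≠ 0 := fun h => hi (by rw [h]; rfl)
  obtain ⟨c, -, -, h1, h2⟩ := combo_ne M M' hk hc b e he heb a ha0
  apply h2
  have : (⟨c • ∑ i, a i • e i, h1⟩ : M'.W) = 0 := Subtype.ext (by
    change c • ∑ i, a i • e i = 0
    rw [ha, smul_zero])
  rw [this, map_zero]

/-- the lifted basis -/
noncomputable def liftBasis [Nonempty ι] (hrank : finrank F F' = finrank R R') :
    Basis ι F F' :=
  basisOfLinearIndependentOfCardEqFinrank (linearIndependent_lift M M' hk hc b e he heb)
    (by rw [hrank, Module.finrank_eq_card_basis b])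

theorem liftBasis_apply [Nonempty ι] (hrank : finrank F F' = finrank R R') (i : ι) :
    liftBasis M M' hk hc b e he heb hrank i = e i := by
  rw [liftBasis, coe_basisOfLinearIndependentOfCardEqFinrank]

include hc heb hk in
/-- matrices of multiplication reduce correctly -/
theorem leftMulMatrix_mem [DecidableEq ι] [Nonempty ι] (hrank : finrank F F' = finrank R R') {y : F'}
    (hy : y ∈ M'.W) (i j : ι) :
    ∃ h : Algebra.leftMulMatrix (liftBasis M M' hk hc b e he heb hrank) y i j ∈ M.W,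
      M.π ⟨_, h⟩ = Algebra.leftMulMatrix b (M'.π ⟨y, hy⟩) i j := by
  set B := liftBasis M M' hk hc b e he heb hrank with hB
  have h1 : ∑ i, Algebra.leftMulMatrix B y i j • e i = y * e j := by
    have h2 := B.sum_repr (y * B j)
    rw [hB, liftBasis_apply, ← hB] at h2
    rw [← h2]
    refine Finset.sum_congr rfl fun i _ => ?_
    rw [Algebra.leftMulMatrix_eq_repr_mul, hB, liftBasis_apply, liftBasis_apply, ← hB]
  have hmem : ∑ i, Algebra.leftMulMatrix B y i j • e i ∈ M'.W := by
    rw [h1]; exact mul_mem hy (he j)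
  have hcoord := coord_mem M M' hk hc b e he heb _ hmem
  refine ⟨hcoord i, ?_⟩
  have h3 := π_combo M M' b e he heb hc _ hcoord
  have h4 : (⟨∑ i, Algebra.leftMulMatrix B y i j • e i, combo_mem M M' hc e he _ hcoord⟩ : M'.W) =
      ⟨y, hy⟩ * ⟨e j, he j⟩ := Subtype.ext h1
  rw [h4, map_mul, heb] at h3
  have h5 := Algebra.leftMulMatrix_eq_repr_mul b (M'.π ⟨y, hy⟩) i j
  rw [h5, h3]
  symm
  rw [map_sum, Finsupp.finsetSum_apply, Finset.sum_eq_single i]
  · rw [map_smul, Finsupp.smul_apply, b.repr_self, Finsupp.single_eq_same, smul_eq_mul, mul_one]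
  · intro l _ hl
    rw [map_smul, Finsupp.smul_apply, b.repr_self, Finsupp.single_eq_of_ne (Ne.symm hl), smul_zero]
  · intro h; exact absurd (Finset.mem_univ i) h

end Basis

/-- **The norm reduces to the norm.** -/
theorem norm_red (M : RedModel A K F k R) (M' : RedModel A K F' k R')
    (hk : Function.Surjective (algebraMap A k)) (hc : Compat M M')
    (hsurj : Function.Surjective M'.π) [FiniteDimensional R R']
    (hrank : finrank F F' = finrank R R') {y : F'} (hy : y ∈ M'.W) :
    ∃ h : Algebra.norm F y ∈ M.W, M.π ⟨Algebra.norm F y, h⟩ = Algebra.norm R (M'.π ⟨y, hy⟩) := by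
  classical
  let b := Module.finBasis R R'
  have h0 : ∀ i, ∃ x : F', ∃ hx : x ∈ M'.W, M'.π ⟨x, hx⟩ = b i := by
    intro i
    obtain ⟨x, hx⟩ := hsurj (b i)
    exact ⟨x, x.2, hx⟩
  choose e he heb using h0
  haveI : Nonempty (Fin (finrank R R')) := Fin.pos_iff_nonempty.1 finrank_pos
  have key := leftMulMatrix_mem M M' hk hc b e he heb hrank hy
  choose hmem hπ using key
  let m : Matrix (Fin (finrank R R')) (Fin (finrank R R')) M.W := fun i j => ⟨_, hmem i j⟩
  have e1 : Algebra.norm F y = (m.det : M.W) := by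
    rw [Algebra.norm_eq_matrix_det (liftBasis M M' hk hc b e he heb hrank)]
    have : ((m.det : M.W) : F) = M.W.val m.det := rfl
    rw [this, AlgHom.map_det]
    rfl
  refine ⟨by rw [e1]; exact m.det.2, ?_⟩
  have e2 : (⟨Algebra.norm F y, by rw [e1]; exact m.det.2⟩ : M.W) = m.det := Subtype.ext e1
  rw [e2, AlgHom.map_det, Algebra.norm_eq_matrix_det b]
  congr 1
  ext i j
  exact hπ i j

end Fermat.Agent.Spec
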