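import Fermat.Agent.Spec.Ext
import Fermat.Agent.Spec.NormRed
import Fermat.Prelude.Def_AlgebraicCurve_BaseChangeGalois

/-!
# Functoriality of the reduction of divisors
-/

set_option autoImplicit false
set_option linter.style.haveILetI false
set_option linter.unusedSectionVars false

namespace Fermat.Agent.Spec

open AlgebraicCurve Fermat.Agent.RR Fermat.Agent.Curve Fermat.Agent.Red Module

variable {A K F k R : Type*} [CommRing A] [IsDomain A] [ValuationRing A]
  [Field K] [Algebra A K] [IsFractionRing A K] [Field F] [Algebra K F] [Algebra A F]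
  [IsScalarTower A K F] [Field k] [Algebra A k] [Field R] [Algebra k R] [Algebra A R]
  [IsScalarTower A k R]
  [IsAlgClosed K] [IsAlgClosed k] [FunField K F] [FunField k R]
  {M : RedModel A K F k R} {hk : Function.Surjective (algebraMap A k)}

namespace DivRed

variable (𝓓 : DivRed A K F k R M hk)

include 𝓓 in
/-- the reduction map of functions is surjective -/
theorem π_surjective : Function.Surjective M.π := by
  intro y
  obtain ⟨c, hc⟩ := 𝓓.rd_eq
  obtain ⟨v⟩ := exists_place K F
  obtain ⟨D, hD⟩ := 𝓓.r_surjective (poleDiv k y)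
  let m : ℤ := max 0 (c - Divisor.degree D)
  have hm : 0 ≤ m := le_max_left _ _
  have h1 := hc (D + Finsupp.single v m) (by
    rw [map_add, degree_single']
    have := le_max_right 0 (c - Divisor.degree D)
    change c ≤ _ + max 0 (c - Divisor.degree D)
    linarith)
  have h2 : y ∈ riemannRochSpace (𝓓.r (D + Finsupp.single v m)) := by
    rw [map_add, hD]
    refine L_mono (le_add_of_nonneg_right ?_) (mem_L_poleDiv y)
    exact 𝓓.r_nonneg (Finsupp.single_nonneg.2 hm)
  rw [← h1] at h2
  obtain ⟨x, hx, hxy⟩ := h2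
  exact ⟨⟨x, hx.1⟩, hxy⟩

end DivRed

section Ext

variable {F' R' : Type*} [Field F'] [Algebra K F'] [Algebra A F'] [IsScalarTower A K F']
  [Field R'] [Algebra k R'] [Algebra A R'] [IsScalarTower A k R']
  [FunField K F'] [FunField k R']
  {M' : RedModel A K F' k R'}
  (𝓓 : DivRed A K F k R M hk) (𝓓' : DivRed A K F' k R' M' hk)
  [Algebra F F'] [IsScalarTower K F F'] [Algebra R R'] [IsScalarTower k R R']
  [FiniteDimensional F F'] [FiniteDimensional R R']
  [Algebra.IsIntegral F F'] [Algebra.IsIntegral R R']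
  [HasPrincipalDivisors K F'] [HasPrincipalDivisors k R']

/-- Reduction commutes with pullback. -/
theorem DivRed.r_pullback (hc : Compat M M') (hrank : finrank F F' = finrank R R')
    (D : Divisor K F) : 𝓓'.r (Divisor.pullback F' D) = Divisor.pullback R' (𝓓.r D) := by
  classical
  refine 𝓓.transport 𝓓' (Divisor.pullback F') (Divisor.pullback R') (algebraMap F F')
    (algebraMap R R') (finrank F F') degree_pullback' ?_ hc (fun D x _ hx => map_mem_L hx) ?_ D
  · intro D
    rw [hrank]
    exact degree_pullback' D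
  · intro w
    refine ⟨{w.restrict R}, fun E y hy hE => ⟨?_, ?_⟩⟩
    · simpa using hy
    · rw [w.ord_restrict, hE _ (Finset.mem_singleton_self _), Divisor.pullback_apply]
      ring

/-- Reduction commutes with pushforward. -/
theorem DivRed.r_pushforward (hc : Compat M M') (hrank : finrank F F' = finrank R R')
    [Algebra.IsSeparable F F'] [Algebra.IsSeparable R R']
    (D : Divisor K F') : 𝓓.r (Divisor.pushforward F D) = Divisor.pushforward R (𝓓'.r D) := by
  classical
  refine 𝓓'.transport 𝓓 (Divisor.pushforward F) (Divisor.pushforward R) (Algebra.norm F)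
    (Algebra.norm R) 1 ?_ ?_ (fun x hx => norm_red M M' hk hc 𝓓'.π_surjective hrank hx)
    (fun D x hx0 hx => norm_mem_L hx0 hx) ?_ D
  · intro D
    rw [Divisor.degree_pushforward, one_mul]
  · intro D
    rw [Divisor.degree_pushforward, one_mul]
  · intro v
    refine ⟨v.fiber R', fun E y hy hE => ⟨Algebra.norm_ne_zero_iff.2 hy, ?_⟩⟩
    rw [ord_norm v hy, pushforward_apply', ← Finset.sum_neg_distrib]
    exact Finset.sum_congr rfl hE

end Ext

section Semilinear

variable (𝓓 : DivRed A K F k R M hk)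

theorem smul_mem_L {K F : Type*} [Field K] [IsAlgClosed K] [Field F] [Algebra K F] [FunField K F]
    (σ : SemilinearAut K F) {D : Divisor K F} {x : F} (hx : x ∈ riemannRochSpace D) :
    σ • x ∈ riemannRochSpace (σ • D) := by
  rcases eq_or_ne x 0 with rfl | hx0
  · have : σ • (0 : F) = 0 := smul_zero σ
    rw [this]; exact zero_mem _
  rw [mem_L] at hx ⊢
  intro w
  refine Ge.of_le ?_
  have h1 := (hx (σ⁻¹ • w)).le_ord hx0
  have h2 := SemilinearAut.ord_smul σ (σ⁻¹ • w) x
  rw [smul_inv_smul] at h2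
  rw [SemilinearAut.divisor_smul_apply, h2]
  exact h1

/-- Reduction commutes with semilinear automorphisms. -/
theorem DivRed.r_smul (σ : SemilinearAut K F) (Φ : SemilinearAut k R)
    (h : ∀ x (hx : x ∈ M.W), ∃ h : σ • x ∈ M.W, M.π ⟨σ • x, h⟩ = Φ • M.π ⟨x, hx⟩)
    (D : Divisor K F) : 𝓓.r (σ • D) = Φ • 𝓓.r D := by
  classical
  refine 𝓓.transport 𝓓 (DistribSMul.toAddMonoidHom (Divisor K F) σ)
    (DistribSMul.toAddMonoidHom (Divisor k R) Φ) (fun x => σ • x) (fun y => Φ • y) 1 ?_ ?_
    h (fun D x _ hx => smul_mem_L σ hx) ?_ D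
  · intro D
    rw [one_mul]
    exact SemilinearAut.degree_smul σ D
  · intro D
    rw [one_mul]
    exact SemilinearAut.degree_smul Φ D
  · intro w
    refine ⟨{Φ⁻¹ • w}, fun E y hy hE => ⟨?_, ?_⟩⟩
    · intro h0
      apply hy
      have := congrArg (fun z => Φ⁻¹ • z) h0
      simp only [inv_smul_smul, smul_zero] at this
      exact this
    · have h2 := SemilinearAut.ord_smul Φ (Φ⁻¹ • w) y
      rw [smul_inv_smul] at h2
      rw [h2, hE _ (Finset.mem_singleton_self _)]
      change _ = - (Φ • E) w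
      rw [SemilinearAut.divisor_smul_apply]

end Semilinear

section Pic

namespace DivRed

variable (𝓓 : DivRed A K F k R M hk)

/-- reduction on degree zero divisors -/
noncomputable def degZeroHom : Divisor.degZero (K := K) (F := F) →+ Divisor.degZero (K := k) (F := R) :=
  ((𝓓.r).domRestrict (Divisor.degZero (K := K) (F := F))).codRestrict _ (fun D => by
    rw [Divisor.mem_degZero]
    change Divisor.degree (𝓓.r D) = 0
    rw [𝓓.degree_r]
    exact Divisor.mem_degZero.1 D.2)

theorem coe_degZeroHom (D : Divisor.degZero (K := K) (F := F)) :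
    (𝓓.degZeroHom D : Divisor k R) = 𝓓.r D := rfl

/-- **The specialization map** on divisor class groups. -/
noncomputable def sp : Pic0 K F →+ Pic0 k R :=
  QuotientAddGroup.map _ _ 𝓓.degZeroHom (by
    rintro ⟨D, hD0⟩ hD
    simp only [AddSubgroup.mem_addSubgroupOf] at hD ⊢
    exact 𝓓.r_isPrincipal hD)

theorem sp_mk (D : Divisor.degZero (K := K) (F := F)) :
    𝓓.sp (Pic0.mk D) = Pic0.mk (𝓓.degZeroHom D) := rfl

theorem _root_.Fermat.Agent.Spec.pic0_mk_eq_zero {K F : Type*} [Field K] [Field F] [Algebra K F]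
    {D : Divisor.degZero (K := K) (F := F)} :
    Pic0.mk D = 0 ↔ (D : Divisor K F).IsPrincipal := by
  rw [Pic0.mk, QuotientAddGroup.eq_zero_iff, AddSubgroup.mem_addSubgroupOf]
  rfl

theorem sp_mk_eq_zero {D : Divisor.degZero (K := K) (F := F)} :
    𝓓.sp (Pic0.mk D) = 0 ↔ (𝓓.r D).IsPrincipal := by
  rw [sp_mk, pic0_mk_eq_zero]
  rfl

theorem sp_surjective : Function.Surjective 𝓓.sp := by
  intro y
  obtain ⟨E, rfl⟩ := Pic0.mk_surjective y
  obtain ⟨D, hD⟩ := 𝓓.r_surjective E
  have hD0 : D ∈ Divisor.degZero (K := K) (F := F) := by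
    rw [Divisor.mem_degZero, ← 𝓓.degree_r, hD]
    exact Divisor.mem_degZero.1 E.2
  refine ⟨Pic0.mk ⟨D, hD0⟩, ?_⟩
  rw [sp_mk]
  congr 1
  exact Subtype.ext hD

theorem sp_smul (σ : SemilinearAut K F) (Φ : SemilinearAut k R)
    (h : ∀ x (hx : x ∈ M.W), ∃ h : σ • x ∈ M.W, M.π ⟨σ • x, h⟩ = Φ • M.π ⟨x, hx⟩)
    (x : Pic0 K F) : 𝓓.sp (σ • x) = Φ • 𝓓.sp x := by
  obtain ⟨D, rfl⟩ := Pic0.mk_surjective x
  rw [sp_mk, SemilinearAut.pic0_smul_mk, SemilinearAut.pic0_smul_mk, sp_mk]
  congr 1
  exact Subtype.ext (𝓓.r_smul σ Φ h D)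

end DivRed

end Pic

end Fermat.Agent.Spec
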