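import Fermat.Agent.Spec.GenusEq
import Fermat.Agent.Spec.Functor
import Fermat.Agent.RedMod.Rigidity

/-!
# Good reduction of the modular function field at every level prime to the characteristic
-/

set_option autoImplicit false
set_option linter.style.haveILetI false
set_option linter.unusedSectionVars false

noncomputable section

namespace Fermat.Agent.Spec

open ModularCurve Polynomial IntermediateField Fermat.Agent.ModPoly Fermat.Agent.Red AlgebraicCurve
open Fermat.Agent.RR Fermat.Agent.Cusp Fermat.Agent.RedMod

/-- The algebra structure over the valuation ring. -/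
@[reducible] def algFF (A K : Type*) [CommRing A] [Field K] [Algebra A K] (N : ℕ) :
    Algebra A (FF K N) := ((algebraMap K (FF K N)).comp (algebraMap A K)).toAlgebra

attribute [local instance] algFF

instance isScalarTower_algFF (A K : Type*) [CommRing A] [Field K] [Algebra A K] (N : ℕ) :
    IsScalarTower A K (FF K N) := IsScalarTower.of_algebraMap_eq fun _ => rfl

variable {A K k : Type*} [CommRing A] [IsDomain A] [ValuationRing A]
  [Field K] [IsAlgClosed K] [Algebra A K] [IsFractionRing A K] [Field k] [IsAlgClosed k]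
  [Algebra A k] {N : ℕ} [NeZero N]

theorem exists_p23 (k : Type*) [Field k] : ∃ p : ℕ, p.Prime ∧ (p : k) ≠ 0 ∧ (p = 2 ∨ p = 3) := by
  by_cases h2 : ((2 : ℕ) : k) = 0
  · refine ⟨3, Nat.prime_three, ?_, Or.inr rfl⟩
    intro h3
    apply one_ne_zero (α := k)
    have : (1 : k) = ((3 : ℕ) : k) - ((2 : ℕ) : k) := by push_cast; ring
    rw [this, h2, h3, sub_zero]
  · exact ⟨2, Nat.prime_two, h2, Or.inl rfl⟩

/-- **Good reduction**: the genus of the modular function field is the same in characteristic zero
and in every characteristic prime to the level. -/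
theorem rrGenus_eq_level [CharZero K] [Algebra ℚ K] (ι : K →+* ℂ)
    (hk : Function.Surjective (algebraMap A k)) (hN : (N : k) ≠ 0)
    [FunField k (FF k N)] [FunField K (FF K N)] :
    rrGenus k (FF k N) = rrGenus K (FF K N) := by
  obtain ⟨p, hp, hpk, hp23⟩ := exists_p23 k
  obtain ⟨M, hM⟩ : ∃ M, M = N * p * p := ⟨_, rfl⟩
  haveI : NeZero M := ⟨by rw [hM]; exact mul_ne_zero (mul_ne_zero (NeZero.ne N) hp.ne_zero) hp.ne_zero⟩
  have hMk : (M : k) ≠ 0 := by
    rw [hM]; push_cast
    exact mul_ne_zero (mul_ne_zero hN hpk) hpk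
  have hNM : N ∣ M := ⟨p * p, by rw [hM]; ring⟩
  have h49 : 4 ∣ M ∨ 9 ∣ M := by
    rcases hp23 with rfl | rfl
    · exact Or.inl ⟨N, by rw [hM]; ring⟩
    · exact Or.inr ⟨N, by rw [hM]; ring⟩
  have hMK := natCast_K (A := A) (K := K) hMk
  haveI := funField_FF (k := k) (M := M) hMk
  haveI := funField_FF (k := K) (M := M) hMK
  letI := inclAlg (k := K) hNM
  letI := inclAlg (k := k) hNM
  haveI := isScalarTower_incl (k := K) hNM
  haveI := isScalarTower_incl (k := k) hNM
  haveI := finiteDimensional_incl (k := K) hNM hMK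
  haveI := isSeparable_incl (k := K) hNM hMK
  haveI := finiteDimensional_incl (k := k) hNM hMk
  haveI := isSeparable_incl (k := k) hNM hMk
  have H := fibreHyp (K := K) (N := N) hk hN
  have H' := fibreHyp (K := K) (N := M) hk hMk
  rw [rrGenus_eq (A := A) (K := K) (k := k) (N := M) ι hk hMk h49] at H'
  have hrank : Module.finrank (FF K N) (FF K M) = Module.finrank (FF k N) (FF k M) := by
    have h1 := finrank_incl (k := K) hNM hMK
    have h2 := finrank_incl (k := k) hNM hMk
    rw [← h2] at h1
    exact Nat.eq_of_mul_eq_mul_left (psi_pos N) h1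
  have hc : Compat H.M H'.M := by
    intro x hx
    refine ⟨hx, ?_⟩
    apply Subtype.ext
    rfl
  have := genus_eq_of_descent H H' hc hrank (incl_jF hNM) (by
    rw [gaussFF_πt, gaussFF_πt]
    exact incl_jF hNM)
  exact_mod_cast this

end Fermat.Agent.Spec
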