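import Fermat.Agent.Spec.DivRed

/-!
# Properties of the reduction of divisors
-/

set_option autoImplicit false
set_option linter.style.haveILetI false
set_option linter.unusedSectionVars false

namespace Fermat.Agent.Spec

open AlgebraicCurve Fermat.Agent.RR Fermat.Agent.Curve Fermat.Agent.Red

section

variable {K F : Type*} [Field K] [IsAlgClosed K] [Field F] [Algebra K F] [hF : FunField K F]

theorem exists_place (K F : Type*) [Field K] [IsAlgClosed K] [Field F] [Algebra K F]
    [hF : FunField K F] : Nonempty (Place K F) := by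
  obtain ⟨t, ht, _⟩ := hF.out
  obtain ⟨v, -⟩ := exists_pole ht
  exact ⟨v⟩

/-- Homomorphisms on divisors which agree on divisors of large degree agree. -/
theorem eq_of_large {B : Type*} [AddCommGroup B] {f g : Divisor K F →+ B} {c : ℤ}
    (h : ∀ D : Divisor K F, c ≤ Divisor.degree D → f D = g D) (D : Divisor K F) : f D = g D := by
  obtain ⟨v⟩ := exists_place K F
  let m : ℤ := max c (c - Divisor.degree D)
  have h1 := h (Finsupp.single v m) (by rw [degree_single']; exact le_max_left _ _)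
  have h2 := h (D + Finsupp.single v m) (by
    rw [map_add, degree_single']
    have := le_max_right c (c - Divisor.degree D)
    change c ≤ _ + max c (c - Divisor.degree D)
    linarith)
  rw [map_add, map_add, h1] at h2
  exact add_right_cancel h2

/-- effective divisors of degree one are places -/
theorem eq_single_of_degree_one {D : Divisor K F} (h0 : 0 ≤ D) (h1 : Divisor.degree D = 1) :
    ∃ v : Place K F, D = Finsupp.single v 1 := by
  classical
  have hne : D ≠ 0 := by rintro rfl; rw [map_zero] at h1; exact zero_ne_one h1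
  obtain ⟨v, hv⟩ := Finsupp.support_nonempty_iff.2 hne
  refine ⟨v, (eq_of_le_of_degree ?_ (by rw [degree_single', h1])).symm⟩
  intro w
  rw [Finsupp.single_apply]
  split_ifs with h
  · subst h
    have h2 := h0 v
    have h3 : D v ≠ 0 := Finsupp.mem_support_iff.1 hv
    have h4 : (0 : ℤ) ≤ D v := h2
    omega
  · exact h0 w

theorem isPrincipal_divisor {f : F} (hf : f ≠ 0) : (divisor K f).IsPrincipal :=
  ⟨f, hf, fun v => divisor_apply f v⟩

theorem isPrincipal_iff {D : Divisor K F} : D.IsPrincipal ↔ ∃ f : F, f ≠ 0 ∧ D = divisor K f := by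
  constructor
  · rintro ⟨f, hf, h⟩
    exact ⟨f, hf, Finsupp.ext fun v => by rw [h, divisor_apply]⟩
  · rintro ⟨f, hf, rfl⟩
    exact isPrincipal_divisor hf

theorem divisor_mul {f g : F} (hf : f ≠ 0) (hg : g ≠ 0) :
    divisor K (f * g) = divisor K f + divisor K g := by
  ext v
  rw [Finsupp.add_apply, divisor_apply, divisor_apply, divisor_apply, v.ord_mul hf hg]

theorem divisor_pow (f : F) (n : ℕ) : divisor K (f ^ n) = n • divisor K f := by
  ext v
  rw [Finsupp.smul_apply, divisor_apply, divisor_apply, ord_pow, nsmul_eq_mul]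

theorem divisor_smul {a : K} (ha : a ≠ 0) (f : F) : divisor K (a • f) = divisor K f := by
  rcases eq_or_ne f 0 with rfl | hf
  · rw [smul_zero]
  rw [Algebra.smul_def, divisor_mul (by simpa using ha) hf]
  ext v
  rw [Finsupp.add_apply, divisor_apply, ord_algebraMap, zero_add]

theorem mem_L_of_divisor {D : Divisor K F} {f : F} (hf : f ≠ 0) :
    f ∈ riemannRochSpace D ↔ 0 ≤ D + divisor K f := by
  rw [mem_L]
  constructor
  · intro h v
    have := (h v).le_ord hf
    rw [Finsupp.add_apply, divisor_apply]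
    simp only [Finsupp.coe_zero, Pi.zero_apply]
    omega
  · intro h v
    have := h v
    rw [Finsupp.add_apply, divisor_apply] at this
    simp only [Finsupp.coe_zero, Pi.zero_apply] at this
    exact Ge.of_le (by omega)

end

variable {A K F k R : Type*} [CommRing A] [IsDomain A] [ValuationRing A]
  [Field K] [Algebra A K] [IsFractionRing A K] [Field F] [Algebra K F] [Algebra A F]
  [IsScalarTower A K F] [Field k] [Algebra A k] [Field R] [Algebra k R] [Algebra A R]
  [IsScalarTower A k R]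

/-- every nonzero element can be scaled to have nonzero reduction -/
theorem exists_scaled (M : RedModel A K F k R) (hk : Function.Surjective (algebraMap A k))
    {f : F} (hf : f ≠ 0) :
    ∃ a : K, a ≠ 0 ∧ ∃ h : a • f ∈ M.W, M.π ⟨a • f, h⟩ ≠ 0 := by
  have h1 := M.finrank_rd hk (Submodule.span K {f})
  rw [finrank_span_singleton hf] at h1
  obtain ⟨y, hy⟩ : ∃ y : M.rd hk (Submodule.span K {f}), y ≠ 0 := by
    haveI : Nontrivial (M.rd hk (Submodule.span K {f})) := by
      apply Module.nontrivial_of_finrank_pos (R := k)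
      rw [h1]; exact one_pos
    exact exists_ne 0
  obtain ⟨x, hx, hxy⟩ := y.2
  obtain ⟨a, rfl⟩ := Submodule.mem_span_singleton.1 hx.2
  have hy' : M.π ⟨a • f, hx.1⟩ ≠ 0 := by
    rw [hxy]
    intro h
    exact hy (Subtype.ext h)
  refine ⟨a, ?_, hx.1, hy'⟩
  rintro rfl
  apply hy'
  have : (⟨(0 : K) • f, hx.1⟩ : M.W) = 0 := Subtype.ext (zero_smul K f)
  rw [this, map_zero]

namespace DivRed

variable [IsAlgClosed K] [IsAlgClosed k] [FunField K F] [FunField k R]
  {M : RedModel A K F k R} {hk : Function.Surjective (algebraMap A k)}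
  (𝓓 : DivRed A K F k R M hk)

include 𝓓 in
theorem π_mem {D : Divisor K F} {x : F} (hx : x ∈ M.W) (hxD : x ∈ riemannRochSpace D) :
    M.π ⟨x, hx⟩ ∈ riemannRochSpace (𝓓.r D) :=
  𝓓.rd_le D ⟨x, ⟨hx, hxD⟩, rfl⟩

include 𝓓 in
theorem rd_eq : ∃ c : ℤ, ∀ D : Divisor K F, c ≤ Divisor.degree D →
    M.rd hk (riemannRochSpace D) = riemannRochSpace (𝓓.r D) := by
  obtain ⟨c, hc⟩ := exists_riemann (K := K) (F := F)
  obtain ⟨ck, hck⟩ := exists_riemann (K := k) (F := R)
  refine ⟨max c ck, fun D hD => ?_⟩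
  apply Submodule.eq_of_le_of_finrank_eq (𝓓.rd_le D)
  rw [M.finrank_rd hk]
  have h1 := hc D ((le_max_left _ _).trans hD)
  have h2 := hck (𝓓.r D) (by rw [𝓓.degree_r]; exact (le_max_right _ _).trans hD)
  rw [𝓓.degree_r] at h2
  have h3 := 𝓓.genus_eq
  have : (ell D : ℤ) = ell (𝓓.r D) := by rw [h1, h2, h3]
  exact_mod_cast this

/-- elements with exact pole orders in the reduction -/
theorem exists_lift_tight : ∃ c : ℤ, ∀ D : Divisor K F, c ≤ Divisor.degree D →
    ∀ S : Finset (Place k R), ∃ x : F, ∃ hx : x ∈ M.W, x ∈ riemannRochSpace D ∧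
      M.π ⟨x, hx⟩ ≠ 0 ∧ ∀ v ∈ S, v.ord (M.π ⟨x, hx⟩) = - 𝓓.r D v := by
  obtain ⟨c, hc⟩ := 𝓓.rd_eq
  obtain ⟨c', hc'⟩ := exists_tight k R
  refine ⟨max c c', fun D hD S => ?_⟩
  obtain ⟨y, hy, hy0, hyS⟩ := hc' (𝓓.r D) (by
    rw [𝓓.degree_r]; exact (le_max_right _ _).trans hD) S
  rw [← hc D ((le_max_left _ _).trans hD)] at hy
  obtain ⟨x, hx, rfl⟩ := hy
  exact ⟨x, hx.1, hx.2, hy0, hyS⟩

theorem one_mem_L {K F : Type*} [Field K] [IsAlgClosed K] [Field F] [Algebra K F] [FunField K F]
    {D : Divisor K F} : (1 : F) ∈ riemannRochSpace D ↔ 0 ≤ D := by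
  rw [mem_L_of_divisor one_ne_zero]
  have : divisor K (1 : F) = 0 := by ext v; simp
  rw [this, add_zero]

theorem r_nonneg {D : Divisor K F} (hD : 0 ≤ D) : 0 ≤ 𝓓.r D := by
  have h1 := 𝓓.π_mem (one_mem M.W) (one_mem_L.2 hD)
  have h2 : M.π ⟨1, one_mem M.W⟩ = 1 := map_one M.π
  rw [h2] at h1
  exact one_mem_L.1 h1

theorem r_mono {D E : Divisor K F} (h : D ≤ E) : 𝓓.r D ≤ 𝓓.r E := by
  have := 𝓓.r_nonneg (sub_nonneg.2 h)
  rwa [map_sub, sub_nonneg] at this

theorem r_divisor {f : F} (hf : f ∈ M.W) (h0 : M.π ⟨f, hf⟩ ≠ 0) :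
    𝓓.r (divisor K f) = divisor k (M.π ⟨f, hf⟩) := by
  have hf0 : f ≠ 0 := by
    rintro rfl
    exact h0 (by
      have : (⟨0, hf⟩ : M.W) = 0 := rfl
      rw [this, map_zero])
  have h1 : f ∈ riemannRochSpace (-divisor K f) := by
    rw [mem_L_of_divisor hf0, neg_add_cancel]
  have h2 := 𝓓.π_mem hf h1
  rw [mem_L_of_divisor h0, map_neg] at h2
  apply eq_of_le_of_degree
  · rwa [neg_add_eq_sub, sub_nonneg] at h2
  · rw [𝓓.degree_r, degree_divisor, degree_divisor]

theorem r_isPrincipal {D : Divisor K F} (hD : D.IsPrincipal) : (𝓓.r D).IsPrincipal := by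
  obtain ⟨f, hf, rfl⟩ := isPrincipal_iff.1 hD
  obtain ⟨a, ha, h, h0⟩ := exists_scaled M hk hf
  rw [← divisor_smul ha, 𝓓.r_divisor h h0]
  exact isPrincipal_divisor h0

theorem r_single (v : Place K F) : ∃ w : Place k R, 𝓓.r (Finsupp.single v 1) = Finsupp.single w 1 :=
  eq_single_of_degree_one (𝓓.r_nonneg (single_le_of_nonneg v)) (by
    rw [𝓓.degree_r, degree_single'])

/-- every place of the special fibre is a reduction -/
theorem exists_place_lift (w : Place k R) :
    ∃ v : Place K F, 𝓓.r (Finsupp.single v 1) = Finsupp.single w 1 := by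
  classical
  obtain ⟨c, hc⟩ := 𝓓.rd_eq
  obtain ⟨c', hc'⟩ := exists_tight k R
  obtain ⟨v0⟩ := exists_place K F
  let D : Divisor K F := Finsupp.single v0 (max c (c' + 1))
  have hD : Divisor.degree D = max c (c' + 1) := degree_single' _ _
  obtain ⟨y, hy, hy0, -⟩ := hc' (𝓓.r D - Finsupp.single w 1) (by
    rw [map_sub, 𝓓.degree_r, hD, degree_single']
    have := le_max_right c (c' + 1)
    omega) ∅
  have hyD : y ∈ riemannRochSpace (𝓓.r D) :=
    L_mono (sub_le_self _ (single_le_of_nonneg w)) hy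
  rw [← hc D (by rw [hD]; exact le_max_left _ _)] at hyD
  obtain ⟨x, hx, rfl⟩ := hyD
  have hx0 : x ≠ 0 := by
    rintro rfl
    exact hy0 (by
      have : (⟨0, hx.1⟩ : M.W) = 0 := rfl
      rw [this, map_zero])
  have hE : 0 ≤ D + divisor K x := (mem_L_of_divisor hx0).1 hx.2
  have hrE : 𝓓.r (D + divisor K x) w > 0 := by
    rw [map_add, 𝓓.r_divisor hx.1 hy0]
    have := (mem_L_of_divisor hy0).1 hy w
    simp only [Finsupp.add_apply, Finsupp.sub_apply, Finsupp.coe_zero, Pi.zero_apply,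
      Finsupp.single_eq_same] at this ⊢
    omega
  by_contra hcon
  push Not at hcon
  have h1 : 𝓓.r (D + divisor K x) = ∑ v ∈ (D + divisor K x).support,
      (D + divisor K x) v • 𝓓.r (Finsupp.single v 1) := by
    conv_lhs => rw [← Finsupp.sum_single (D + divisor K x), Finsupp.sum, map_sum]
    refine Finset.sum_congr rfl fun v _ => ?_
    rw [← map_zsmul]
    congr 1
    rw [Finsupp.smul_single, smul_eq_mul, mul_one]
  rw [h1, Finsupp.finsetSum_apply] at hrE
  apply absurd hrE
  rw [not_lt]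
  apply le_of_eq
  refine Finset.sum_eq_zero fun v _ => ?_
  obtain ⟨w', hw'⟩ := 𝓓.r_single v
  rw [Finsupp.smul_apply, hw', Finsupp.single_apply, if_neg, smul_zero]
  rintro rfl
  exact hcon v hw'

theorem r_surjective : Function.Surjective 𝓓.r := by
  intro E
  induction E using Finsupp.induction with
  | zero => exact ⟨0, map_zero _⟩
  | single_add w n E _ _ ih =>
    obtain ⟨D, hD⟩ := ih
    obtain ⟨v, hv⟩ := 𝓓.exists_place_lift w
    refine ⟨n • Finsupp.single v 1 + D, ?_⟩
    rw [map_add, map_zsmul, hv, hD, Finsupp.smul_single, smul_eq_mul, mul_one]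

end DivRed

section Transport

variable {F' R' : Type*} [Field F'] [Algebra K F'] [Algebra A F'] [IsScalarTower A K F']
  [Field R'] [Algebra k R'] [Algebra A R'] [IsScalarTower A k R']
variable [IsAlgClosed K] [IsAlgClosed k] [FunField K F] [FunField k R]
  [FunField K F'] [FunField k R']
  {M : RedModel A K F k R} {M' : RedModel A K F' k R'}
  {hk : Function.Surjective (algebraMap A k)}
  (𝓓 : DivRed A K F k R M hk) (𝓓' : DivRed A K F' k R' M' hk)

/-- **Transport of structure**: reduction commutes with operations on divisors which come from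
operations on functions compatible with reduction. -/
theorem DivRed.transport (T : Divisor K F →+ Divisor K F') (Ψ : Divisor k R →+ Divisor k R')
    (τ : F → F') (ψ : R → R') (n : ℤ)
    (hT : ∀ D, Divisor.degree (T D) = n * Divisor.degree D)
    (hΨ : ∀ D, Divisor.degree (Ψ D) = n * Divisor.degree D)
    (h1 : ∀ x (hx : x ∈ M.W), ∃ h : τ x ∈ M'.W, M'.π ⟨τ x, h⟩ = ψ (M.π ⟨x, hx⟩))
    (h2 : ∀ D x, x ≠ 0 → x ∈ riemannRochSpace D → τ x ∈ riemannRochSpace (T D))
    (h3 : ∀ w : Place k R', ∃ S : Finset (Place k R), ∀ (E : Divisor k R) (y : R), y ≠ 0 →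
      (∀ v ∈ S, v.ord y = - E v) → ψ y ≠ 0 ∧ w.ord (ψ y) = - Ψ E w) (D : Divisor K F) :
    𝓓'.r (T D) = Ψ (𝓓.r D) := by
  obtain ⟨c, hc⟩ := 𝓓.exists_lift_tight
  refine eq_of_large (f := 𝓓'.r.comp T) (g := Ψ.comp 𝓓.r) (c := c) (fun D hD => ?_) D
  rw [AddMonoidHom.comp_apply, AddMonoidHom.comp_apply]
  symm
  apply eq_of_le_of_degree
  · intro w
    obtain ⟨S, hS⟩ := h3 w
    obtain ⟨x, hx, hxD, hx0, hxS⟩ := hc D hD S
    obtain ⟨h4, h5⟩ := hS (𝓓.r D) _ hx0 hxS
    have hx00 : x ≠ 0 := by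
      rintro rfl
      exact hx0 (by
        have : (⟨0, hx⟩ : M.W) = 0 := rfl
        rw [this, map_zero])
    obtain ⟨h6, h7⟩ := h1 x hx
    have h8 := 𝓓'.π_mem h6 (h2 D x hx00 hxD)
    rw [h7] at h8
    have h9 := (mem_L.1 h8 w).le_ord h4
    rw [h5] at h9
    omega
  · rw [𝓓'.degree_r, hT, hΨ, 𝓓.degree_r]

end Transport

end Fermat.Agent.Spec
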