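import Fermat.Agent.Spec.PlacesAbove
import Fermat.Agent.Spec.Transport
import Fermat.Agent.RR.TowerDeg

/-!
# Divisors in finite extensions of function fields, any characteristic
-/

set_option autoImplicit false
set_option linter.style.haveILetI false
set_option linter.unusedSectionVars false

namespace Fermat.Agent.Spec

open AlgebraicCurve Fermat.Agent.RR Fermat.Agent.Curve IntermediateField

section

variable {K F F' : Type*} [Field K] [IsAlgClosed K] [Field F] [Field F'] [Algebra K F]
  [Algebra K F'] [Algebra F F'] [IsScalarTower K F F'] [FunField K F] [FunField K F']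

theorem transcendental_map {t : F} (h : Transcendental K t) :
    Transcendental K (algebraMap F F' t) := by
  intro h1
  exact h ((isAlgebraic_algebraMap_iff (algebraMap F F').injective).1 h1)

theorem ord_nonneg_or (v : Place K F) (f : F) : max (-v.ord f) 0 = -v.ord f ∨ max (-v.ord f) 0 = 0 :=
  max_choice _ _

variable [Algebra.IsIntegral F F']

theorem inertiaDeg_one (w : Place K F') : w.inertiaDeg F = 1 := by
  have h1 := place_deg (K := K) w
  have h2 := place_deg (K := K) (w.restrict F)
  have h3 := w.deg_restrict_mul_inertiaDeg (F := F)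
  rw [h1, h2, one_mul] at h3
  exact h3

variable [HasPrincipalDivisors K F']

theorem poleDiv_map (t : F) :
    poleDiv K (algebraMap F F' t) = Divisor.pullback F' (poleDiv K t) := by
  ext w
  rw [poleDiv_apply, Divisor.pullback_apply, poleDiv_apply, w.ord_restrict]
  have h : (0 : ℤ) ≤ (w.ramificationIndex F : ℤ) := Int.natCast_nonneg _
  rw [← mul_neg, mul_max_of_nonneg _ _ h, mul_zero]

theorem divisor_map (t : F) :
    divisor K (algebraMap F F' t) = Divisor.pullback F' (divisor K t) := by
  ext w
  rw [divisor_apply, Divisor.pullback_apply, divisor_apply, w.ord_restrict]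

theorem map_mem_L {D : Divisor K F} {x : F} (hx : x ∈ riemannRochSpace D) :
    algebraMap F F' x ∈ riemannRochSpace (Divisor.pullback F' D) := by
  rcases eq_or_ne x 0 with rfl | hx0
  · rw [map_zero]; exact zero_mem _
  rw [mem_L] at hx ⊢
  intro w
  refine Ge.of_le ?_
  have h1 := (hx (w.restrict F)).le_ord hx0
  rw [Divisor.pullback_apply, w.ord_restrict, ← mul_neg]
  exact mul_le_mul_of_nonneg_left h1 (Int.natCast_nonneg _)

/-- the fundamental identity -/
theorem sum_ramificationIndex [FiniteDimensional F F'] (v : Place K F) :
    ∑ w ∈ v.fiber F', (w.ramificationIndex F : ℤ) = Module.finrank F F' := by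
  classical
  obtain ⟨c, hc⟩ := exists_tight K F
  let m : ℤ := max c 1
  have hm : 0 < m := lt_of_lt_of_le one_pos (le_max_right _ _)
  obtain ⟨x, hx, hx0, hxe⟩ := hc (Finsupp.single v m) (by
    rw [degree_single']; exact le_max_left _ _) {v}
  have hxv := hxe v (Finset.mem_singleton_self v)
  rw [Finsupp.single_eq_same] at hxv
  have hp : poleDiv K x = Finsupp.single v m := by
    ext w
    rw [poleDiv_apply, Finsupp.single_apply]
    split_ifs with h
    · subst h
      rw [hxv, neg_neg]
      exact max_eq_left hm.le
    · have h1 := (mem_L.1 hx w).le_ord hx0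
      rw [Finsupp.single_eq_of_ne (Ne.symm h), neg_zero] at h1
      exact max_eq_right (by omega)
  have hxt : Transcendental K x := by
    intro halg
    obtain ⟨a, rfl⟩ := mem_range_of_isAlgebraic halg
    rw [ord_algebraMap] at hxv
    omega
  have hxt' : Transcendental K (algebraMap F F' x) := transcendental_map hxt
  haveI := fd (K := K) hxt
  haveI := fd (K := K) hxt'
  have e1 := degree_poleDiv hxt
  have e2 := degree_poleDiv hxt'
  rw [poleDiv_map, hp, Divisor.pullback_single, map_sum, finrank_tower] at e2
  rw [hp, degree_single'] at e1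
  simp only [degree_single'] at e2
  rw [← Finset.mul_sum, Nat.cast_mul, ← e1] at e2
  exact mul_left_cancel₀ hm.ne' e2

theorem fundamentalIdentity' [FiniteDimensional F F'] : FundamentalIdentity K F F' := by
  constructor
  intro v
  rw [place_deg, Nat.cast_one, mul_one, ← sum_ramificationIndex v]
  refine Finset.sum_congr rfl fun w _ => ?_
  rw [place_deg, Nat.cast_one, mul_one]

theorem degree_pullback' [FiniteDimensional F F'] (D : Divisor K F) :
    Divisor.degree (Divisor.pullback F' D) = (Module.finrank F F' : ℤ) * Divisor.degree D := by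
  haveI := fundamentalIdentity' (K := K) (F := F) (F' := F')
  exact Divisor.degree_pullback D

theorem pushforward_apply' (D : Divisor K F') (v : Place K F) :
    Divisor.pushforward F D v = ∑ w ∈ v.fiber F', D w := by
  classical
  rw [Divisor.pushforward_apply, ← Finset.sum_filter]
  trans ∑ w ∈ D.support.filter (fun w => w.restrict F = v), D w
  · exact Finset.sum_congr rfl fun w _ => by rw [inertiaDeg_one w]; simp
  · apply Finset.sum_subset
    · intro w hw
      rw [Finset.mem_filter] at hw
      exact Place.mem_fiber.2 hw.2
    · intro w hw1 hw2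
      rw [Place.mem_fiber] at hw1
      rw [Finset.mem_filter, not_and_or, Finsupp.notMem_support_iff] at hw2
      rcases hw2 with h | h
      · exact h
      · exact absurd hw1 h

theorem ord_norm [FiniteDimensional F F'] [Algebra.IsSeparable F F'] (v : Place K F) {x : F'}
    (hx : x ≠ 0) : v.ord (Algebra.norm F x) = ∑ w ∈ v.fiber F', w.ord x := by
  obtain ⟨hfin, -, h1⟩ := places_above (F' := F') v (by
    intro r
    obtain ⟨a, ha⟩ := exists_const' v r.2
    refine ⟨a, ?_⟩
    rw [mem_nonunits_iff_ord_pos]
    exact ha.imp id fun h => by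
      change (1 : ℤ) ≤ v.ord ((r : F) - algebraMap K F a) at h
      change 0 < v.ord ((r : F) - algebraMap K F a)
      omega)
  rw [← h1 x hx]
  apply Finset.sum_congr
  · ext w
    rw [Place.mem_fiber, Set.Finite.mem_toFinset]
    rfl
  · intro w _
    rfl

theorem divisor_norm [FiniteDimensional F F'] [Algebra.IsSeparable F F'] (x : F') :
    divisor K (Algebra.norm F x) = Divisor.pushforward F (divisor K x) := by
  rcases eq_or_ne x 0 with rfl | hx
  · have h0 : divisor K (0 : F') = 0 := by ext v; simp
    have h0' : divisor K (0 : F) = 0 := by ext v; simp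
    rw [Algebra.norm_zero, h0, h0', map_zero]
  ext v
  rw [divisor_apply, ord_norm v hx, pushforward_apply']
  exact Finset.sum_congr rfl fun w _ => (divisor_apply x w).symm

theorem pushforwardNormFormula' [FiniteDimensional F F'] [Algebra.IsSeparable F F'] :
    Divisor.PushforwardNormFormula K F F' := by
  intro f hf D hD v
  rw [ord_norm v hf, pushforward_apply']
  exact Finset.sum_congr rfl fun w _ => hD w

theorem norm_mem_L [FiniteDimensional F F'] [Algebra.IsSeparable F F'] {D : Divisor K F'} {x : F'}
    (hx0 : x ≠ 0) (hx : x ∈ riemannRochSpace D) :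
    Algebra.norm F x ∈ riemannRochSpace (Divisor.pushforward F D) := by
  rw [mem_L] at hx ⊢
  intro v
  refine Ge.of_le ?_
  rw [ord_norm v hx0, pushforward_apply', ← Finset.sum_neg_distrib]
  exact Finset.sum_le_sum fun w _ => (hx w).le_ord hx0

end

end Fermat.Agent.Spec
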