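import Fermat.Agent.Spec.Model
import Fermat.Agent.HeckeProd.Congr

/-!
# Automorphisms of the modular function field given by automorphisms of the constants
-/

set_option autoImplicit false
set_option linter.style.haveILetI false
set_option linter.unusedSectionVars false

noncomputable section

namespace Fermat.Agent.Spec

open ModularCurve Polynomial IntermediateField Fermat.Agent.ModPoly AlgebraicCurve
open Fermat.Agent.Cusp Fermat.Agent.RedMod Fermat.Agent.HeckeProd LevelRed

section CoeffAut

variable {k : Type*} [Field k] (N : ℕ)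

theorem coeffMap_Jc_one (σ : k →+* k) (m : ℕ+) : coeffMap σ (Jc 1 m : LaurentSeries k) = Jc 1 m := by
  haveI : NeZero (m : ℕ) := ⟨m.ne_zero⟩
  rw [Jc_one_eq, ModularCurve.coeffMap_qExpand, coeffMap_jqModC]

variable {N} [NeZero N] in
theorem coeffMap_mem_FF (σ : k →+* k) (x : FF k N) : coeffMap σ (x : LaurentSeries k) ∈ FF k N := by
  have h4 : x ∈ IntermediateField.adjoin k
      {x : FF k N | ∃ (m : ℕ+) (hm : (m : ℕ) ∣ N), x = jm k m hm} := by
    rw [adjoin_jm_eq_top]; exact IntermediateField.mem_top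
  induction h4 using IntermediateField.adjoin_induction with
  | mem x hx =>
    obtain ⟨m, hm, rfl⟩ := hx
    change coeffMap σ (Jc 1 m) ∈ _
    rw [coeffMap_Jc_one]
    exact Jc_one_mem hm
  | algebraMap x =>
    have : coeffMap σ ((algebraMap k (FF k N) x : FF k N) : LaurentSeries k) =
        algebraMap k (LaurentSeries k) (σ x) := coeffMap_algebraMap σ x
    rw [this]
    exact (FF k N).algebraMap_mem _
  | add x y _ _ hx hy =>
    have : coeffMap σ ((x + y : FF k N) : LaurentSeries k) =
      coeffMap σ (x : LaurentSeries k) + coeffMap σ (y : LaurentSeries k) := map_add _ _ _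
    rw [this]
    exact add_mem hx hy
  | inv x _ hx =>
    have : coeffMap σ ((x⁻¹ : FF k N) : LaurentSeries k) =
      (coeffMap σ (x : LaurentSeries k))⁻¹ := map_inv₀ _ _
    rw [this]
    exact inv_mem hx
  | mul x y _ _ hx hy =>
    have : coeffMap σ ((x * y : FF k N) : LaurentSeries k) =
      coeffMap σ (x : LaurentSeries k) * coeffMap σ (y : LaurentSeries k) := map_mul _ _ _
    rw [this]
    exact mul_mem hx hy

theorem coeffMap_symm_apply (σ : k ≃+* k) (x : LaurentSeries k) :
    coeffMap (σ.symm : k →+* k) (coeffMap (σ : k →+* k) x) = x := by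
  ext n
  simp [coeffMap_coeff]

theorem coeffMap_apply_symm (σ : k ≃+* k) (x : LaurentSeries k) :
    coeffMap (σ : k →+* k) (coeffMap (σ.symm : k →+* k) x) = x := by
  ext n
  simp [coeffMap_coeff]

variable [NeZero N]

/-- the action on coefficients -/
def coeffRingAut (σ : k ≃+* k) : FF k N ≃+* FF k N where
  toFun x := ⟨coeffMap (σ : k →+* k) (x : LaurentSeries k), coeffMap_mem_FF _ x⟩
  invFun x := ⟨coeffMap (σ.symm : k →+* k) (x : LaurentSeries k), coeffMap_mem_FF _ x⟩
  left_inv x := Subtype.ext (coeffMap_symm_apply σ x)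
  right_inv x := Subtype.ext (coeffMap_apply_symm σ x)
  map_mul' _ _ := Subtype.ext (map_mul (coeffMap (σ : k →+* k)) _ _)
  map_add' _ _ := Subtype.ext (map_add (coeffMap (σ : k →+* k)) _ _)

/-- the action on coefficients, as a semilinear automorphism -/
def coeffAut (σ : k ≃+* k) : SemilinearAut k (FF k N) :=
  ⟨(coeffRingAut N σ, σ), fun a => Subtype.ext (coeffMap_algebraMap (σ : k →+* k) a)⟩

theorem coe_coeffAut_smul (σ : k ≃+* k) (x : FF k N) :
    ((coeffAut N σ • x : FF k N) : LaurentSeries k) = coeffMap (σ : k →+* k) x := rfl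

theorem coe_coeffAut_inv_smul (σ : k ≃+* k) (x : FF k N) :
    (((coeffAut N σ)⁻¹ • x : FF k N) : LaurentSeries k) = coeffMap (σ.symm : k →+* k) x := rfl

end CoeffAut

section Frob

variable (k : Type*) [Field k] (N : ℕ) [NeZero N] (ℓ : ℕ) [hℓ : Fact ℓ.Prime] [CharP k ℓ]
  [PerfectRing k ℓ]

/-- the Frobenius on coefficients -/
def frobAut : SemilinearAut k (FF k N) := coeffAut N (frobeniusEquiv k ℓ)

variable {k N}

theorem coe_frobAut_smul (x : FF k N) :
    ((frobAut k N ℓ • x : FF k N) : LaurentSeries k) = Fr ℓ (x : LaurentSeries k) := by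
  rw [frobAut, coe_coeffAut_smul]
  rfl

theorem Fr_frobAut_inv (x : FF k N) :
    Fr ℓ ((((frobAut k N ℓ)⁻¹ • x : FF k N)) : LaurentSeries k) = x := by
  rw [← coe_frobAut_smul, smul_inv_smul]

/-- the reduction of the multiplicative Hecke operator -/
def psiFrob (y : FF k N) : FF k N := ((frobAut k N ℓ)⁻¹ • y) ^ ℓ * (frobAut k N ℓ • y)

theorem coe_psiFrob [NeZero ℓ] (y : FF k N) : ((psiFrob ℓ y : FF k N) : LaurentSeries k) =
    qExpand k ℓ (y : LaurentSeries k) * Fr ℓ (y : LaurentSeries k) := by
  have h1 : ((psiFrob ℓ y : FF k N) : LaurentSeries k) =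
      ((((frobAut k N ℓ)⁻¹ • y : FF k N)) : LaurentSeries k) ^ ℓ *
        ((frobAut k N ℓ • y : FF k N) : LaurentSeries k) := rfl
  rw [h1, pow_eq_qExpand, Fr_frobAut_inv, coe_frobAut_smul]

end Frob

section ValRing

variable {K : Type*} [Field K] {A : ValuationSubring K}

/-- comparison of the two notions of reduction -/
theorem rd_iff_redTo {x : LaurentSeries K} {y : LaurentSeries (IsLocalRing.ResidueField A)} :
    Rd A x y ↔ RedTo (valCtx A) x y := by
  rw [rd_iff]
  exact Iff.rfl

end ValRing

end Fermat.Agent.Spec
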