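import Fermat.Agent.Spec.Beta

/-!
# Reduction models for subfields of the field of Laurent series
-/

set_option autoImplicit false
set_option linter.style.haveILetI false
set_option linter.unusedSectionVars false

noncomputable section

namespace Fermat.Agent.Spec

open ModularCurve Polynomial IntermediateField Fermat.Agent.ModPoly Fermat.Agent.Red AlgebraicCurve
open Fermat.Agent.RR Fermat.Agent.Cusp Fermat.Agent.RedMod

/-- The algebra structure over the valuation ring. -/
@[reducible] def algI (A : Type*) {K : Type*} [CommRing A] [Field K] [Algebra A K]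
    (E : IntermediateField K (LaurentSeries K)) :
    Algebra A E := ((algebraMap K E).comp (algebraMap A K)).toAlgebra

attribute [local instance] algI

theorem isScalarTower_algI (A : Type*) {K : Type*} [CommRing A] [Field K] [Algebra A K]
    (E : IntermediateField K (LaurentSeries K)) :
    IsScalarTower A K E := IsScalarTower.of_algebraMap_eq fun _ => rfl

attribute [local instance] isScalarTower_algI

variable {A K k : Type*} [CommRing A] [IsDomain A] [ValuationRing A]
  [Field K] [IsAlgClosed K] [Algebra A K] [IsFractionRing A K] [Field k] [IsAlgClosed k]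
  [Algebra A k]

/-- A reduction model together with a reduction of divisors. -/
structure LevelRed (hk : Function.Surjective (algebraMap A k))
    (E : IntermediateField K (LaurentSeries K)) (E' : IntermediateField k (LaurentSeries k))
    [FunField K E] [FunField k E'] where
  /-- the reduction of functions -/
  M : RedModel A K E k E'
  mem_W : ∀ x : E, x ∈ M.W ↔ (x : LaurentSeries K) ∈ WL A K k
  coe_π : ∀ x (hx : x ∈ M.W),
    ((M.π ⟨x, hx⟩ : E') : LaurentSeries k) = πL A K k ⟨x, (mem_W x).1 hx⟩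
  /-- the reduction of divisors -/
  D : DivRed A K E k E' M hk

/-- Existence of the reduction. -/
theorem nonempty_levelRed [CharZero K] [Algebra ℚ K] (ι : K →+* ℂ)
    (hk : Function.Surjective (algebraMap A k)) {N : ℕ} [NeZero N] (hN : (N : k) ≠ 0)
    (E : IntermediateField K (LaurentSeries K)) (hE : E = FF K N)
    [FunField K E] [FunField k (FF k N)] : Nonempty (LevelRed hk E (FF k N)) := by
  subst hE
  have H := fibreHyp (K := K) (N := N) hk hN
  rw [rrGenus_eq_level (A := A) (K := K) (k := k) (N := N) ι hk hN] at H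
  exact ⟨{ M := H.M
           mem_W := fun x => Iff.rfl
           coe_π := fun x hx => rfl
           D := FibreHyp.divRed H }⟩

namespace LevelRed

variable {hk : Function.Surjective (algebraMap A k)}
  {E E₁ : IntermediateField K (LaurentSeries K)} {E' E₁' : IntermediateField k (LaurentSeries k)}
  [FunField K E] [FunField k E'] [FunField K E₁] [FunField k E₁']
  (S : LevelRed hk E E') (S₁ : LevelRed hk E₁ E₁')

/-- reduction of Laurent series as a relation -/
def Rd (A : Type*) {K k : Type*} [CommRing A] [IsDomain A] [ValuationRing A] [Field K] [Algebra A K]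
    [IsFractionRing A K] [Field k] [Algebra A k] (x : LaurentSeries K) (y : LaurentSeries k) : Prop :=
  ∃ h : x ∈ WL A K k, πL A K k ⟨x, h⟩ = y

theorem rd_of_mem {x : E} (hx : x ∈ S.M.W) :
    Rd A (x : LaurentSeries K) ((S.M.π ⟨x, hx⟩ : E') : LaurentSeries k) :=
  ⟨(S.mem_W x).1 hx, (S.coe_π x hx).symm⟩

theorem mem_of_rd {x : E} {y : E'} (h : Rd A (x : LaurentSeries K) (y : LaurentSeries k)) :
    ∃ hx : x ∈ S.M.W, S.M.π ⟨x, hx⟩ = y := by
  obtain ⟨h1, h2⟩ := h
  exact ⟨(S.mem_W x).2 h1, Subtype.ext ((S.coe_π _ _).trans h2)⟩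

/-- maps compatible with reduction -/
theorem map_rd {T : LaurentSeries K → LaurentSeries K} {Tk : LaurentSeries k → LaurentSeries k}
    (hT : ∀ x y, Rd A x y → Rd A (T x) (Tk y)) {φ : E → E₁} {φk : E' → E₁'}
    (hφ : ∀ x, ((φ x : E₁) : LaurentSeries K) = T x)
    (hφk : ∀ y, ((φk y : E₁') : LaurentSeries k) = Tk y) (x : E) (hx : x ∈ S.M.W) :
    ∃ h : φ x ∈ S₁.M.W, S₁.M.π ⟨φ x, h⟩ = φk (S.M.π ⟨x, hx⟩) := by
  apply S₁.mem_of_rd
  rw [hφ, hφk]
  exact hT _ _ (S.rd_of_mem hx)

/-- **Compatibility of reduction with pullback.** -/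
theorem r_pullbackAlong {T : LaurentSeries K → LaurentSeries K}
    {Tk : LaurentSeries k → LaurentSeries k}
    (hT : ∀ x y, Rd A x y → Rd A (T x) (Tk y)) (φ : E →ₐ[K] E₁) (φk : E' →ₐ[k] E₁')
    (hφ : ∀ x, ((φ x : E₁) : LaurentSeries K) = T x)
    (hφk : ∀ y, ((φk y : E₁') : LaurentSeries k) = Tk y)
    (hi : φ.toRingHom.IsIntegral) (hik : φk.toRingHom.IsIntegral)
    [HasPrincipalDivisors K E₁] [HasPrincipalDivisors k E₁']
    (hfin : FiniteAlong K φ) (hfink : FiniteAlong k φk)
    (hrank : finrankAlong K φ = finrankAlong k φk) (D : Divisor K E) :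
    S₁.D.r (Divisor.pullbackAlong φ hi D) = Divisor.pullbackAlong φk hik (S.D.r D) := by
  letI := algebraAlong φ
  letI := algebraAlong φk
  haveI := isScalarTower_along φ
  haveI := isScalarTower_along φk
  haveI := isIntegral_along φ hi
  haveI := isIntegral_along φk hik
  haveI : Module.Finite E E₁ := hfin
  haveI : Module.Finite E' E₁' := hfink
  exact S.D.r_pullback S₁.D (S.map_rd S₁ hT hφ hφk) hrank D

/-- **Compatibility of reduction with pushforward.** -/
theorem r_pushforwardAlong {T : LaurentSeries K → LaurentSeries K}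
    {Tk : LaurentSeries k → LaurentSeries k}
    (hT : ∀ x y, Rd A x y → Rd A (T x) (Tk y)) (φ : E →ₐ[K] E₁) (φk : E' →ₐ[k] E₁')
    (hφ : ∀ x, ((φ x : E₁) : LaurentSeries K) = T x)
    (hφk : ∀ y, ((φk y : E₁') : LaurentSeries k) = Tk y)
    (hi : φ.toRingHom.IsIntegral) (hik : φk.toRingHom.IsIntegral)
    [HasPrincipalDivisors K E₁] [HasPrincipalDivisors k E₁']
    (hfin : FiniteAlong K φ) (hfink : FiniteAlong k φk)
    (hsep : SeparableAlong K φ) (hsepk : SeparableAlong k φk)
    (hrank : finrankAlong K φ = finrankAlong k φk) (D : Divisor K E₁) :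
    S.D.r (Divisor.pushforwardAlong φ hi D) = Divisor.pushforwardAlong φk hik (S₁.D.r D) := by
  letI := algebraAlong φ
  letI := algebraAlong φk
  haveI := isScalarTower_along φ
  haveI := isScalarTower_along φk
  haveI := isIntegral_along φ hi
  haveI := isIntegral_along φk hik
  haveI : Module.Finite E E₁ := hfin
  haveI : Module.Finite E' E₁' := hfink
  haveI : Algebra.IsSeparable E E₁ := hsep
  haveI : Algebra.IsSeparable E' E₁' := hsepk
  exact S.D.r_pushforward S₁.D (S.map_rd S₁ hT hφ hφk) hrank D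

/-- **Compatibility of reduction with semilinear automorphisms.** -/
theorem r_smul {T : LaurentSeries K → LaurentSeries K} {Tk : LaurentSeries k → LaurentSeries k}
    (hT : ∀ x y, Rd A x y → Rd A (T x) (Tk y)) (σ : SemilinearAut K E) (Φ : SemilinearAut k E')
    (hσ : ∀ x : E, ((σ • x : E) : LaurentSeries K) = T x)
    (hΦ : ∀ y : E', ((Φ • y : E') : LaurentSeries k) = Tk y) (D : Divisor K E) :
    S.D.r (σ • D) = Φ • S.D.r D :=
  S.D.r_smul σ Φ (S.map_rd S hT hσ hΦ) D

theorem sp_smul {T : LaurentSeries K → LaurentSeries K} {Tk : LaurentSeries k → LaurentSeries k}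
    (hT : ∀ x y, Rd A x y → Rd A (T x) (Tk y)) (σ : SemilinearAut K E) (Φ : SemilinearAut k E')
    (hσ : ∀ x : E, ((σ • x : E) : LaurentSeries K) = T x)
    (hΦ : ∀ y : E', ((Φ • y : E') : LaurentSeries k) = Tk y) (x : Pic0 K E) :
    S.D.sp (σ • x) = Φ • S.D.sp x :=
  S.D.sp_smul σ Φ (S.map_rd S hT hσ hΦ) x

end LevelRed

section QExpand

open LevelRed

omit [IsAlgClosed K] [IsAlgClosed k] in
theorem rd_iff {x : LaurentSeries K} {y : LaurentSeries k} : Rd A x y ↔
    ∃ u v : LaurentSeries A, redL A k v ≠ 0 ∧ incL A K v * x = incL A K u ∧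
      redL A k v * y = redL A k u := by
  constructor
  · rintro ⟨h, h'⟩
    obtain ⟨u, v, hv, h1⟩ := mem_WL.1 h
    refine ⟨u, v, hv, h1, ?_⟩
    rw [← h', πL_eq ⟨x, h⟩ hv h1, mul_div_cancel₀ _ hv]
  · rintro ⟨u, v, hv, h1, h2⟩
    have h : x ∈ WL A K k := mem_WL.2 ⟨u, v, hv, h1⟩
    refine ⟨h, ?_⟩
    rw [πL_eq ⟨x, h⟩ hv h1, ← h2, mul_div_cancel_left₀ _ hv]

omit [IsAlgClosed K] [IsAlgClosed k] in
/-- reduction commutes with the substitution `q ↦ q ^ n` -/
theorem rd_qExpand (n : ℕ) [NeZero n] (x : LaurentSeries K) (y : LaurentSeries k) (h : Rd A x y) :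
    Rd A (qExpand K n x) (qExpand k n y) := by
  rw [rd_iff] at h ⊢
  obtain ⟨u, v, hv, h1, h2⟩ := h
  refine ⟨qExpand A n u, qExpand A n v, ?_, ?_, ?_⟩
  · rw [redL, ModularCurve.coeffMap_qExpand]
    intro h0
    rw [← map_zero (qExpand k n)] at h0
    exact hv (qExpand_injective n h0)
  · rw [incL, ModularCurve.coeffMap_qExpand, ModularCurve.coeffMap_qExpand, ← map_mul, h1]
  · rw [redL, ModularCurve.coeffMap_qExpand, ModularCurve.coeffMap_qExpand, ← map_mul, h2]

omit [IsAlgClosed K] [IsAlgClosed k] in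
theorem rd_id (x : LaurentSeries K) (y : LaurentSeries k) (h : Rd A x y) : Rd A (id x) (id y) := h

end QExpand

end Fermat.Agent.Spec
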