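import Fermat.Agent.Spec.Model

/-!
# Specialization is injective on torsion prime to the residue characteristic
-/

set_option autoImplicit false
set_option linter.style.haveILetI false
set_option linter.unusedSectionVars false

noncomputable section

namespace Fermat.Agent.Spec

open ModularCurve Polynomial IntermediateField Fermat.Agent.ModPoly Fermat.Agent.Red AlgebraicCurve
open Fermat.Agent.RR Fermat.Agent.Cusp Fermat.Agent.RedMod LevelRed

attribute [local instance] algI isScalarTower_algI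

/-- functions with the same divisor differ by a constant -/
theorem exists_const_mul {K F : Type*} [Field K] [IsAlgClosed K] [Field F] [Algebra K F]
    [FunField K F] {f g : F} (hf : f ≠ 0) (hg : g ≠ 0) (h : divisor K f = divisor K g) :
    ∃ c : K, c ≠ 0 ∧ f = algebraMap K F c * g := by
  have h1 : ∀ v : Place K F, v.ord (f * g⁻¹) = 0 := by
    intro v
    have h2 := congrArg (fun D : Divisor K F => D v) h
    simp only [divisor_apply] at h2
    rw [v.ord_mul hf (inv_ne_zero hg), v.ord_inv, h2]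
    ring
  by_cases halg : IsAlgebraic K (f * g⁻¹)
  · obtain ⟨a, ha⟩ := Fermat.Agent.Curve.mem_range_of_isAlgebraic halg
    refine ⟨a, ?_, ?_⟩
    · rintro rfl
      rw [map_zero] at ha
      exact mul_ne_zero hf (inv_ne_zero hg) ha.symm
    · rw [ha, mul_assoc, inv_mul_cancel₀ hg, mul_one]
  · obtain ⟨v, hv⟩ := exists_pole halg
    rw [h1 v] at hv
    exact absurd hv (lt_irrefl _)

theorem nsmul_mk {K F : Type*} [Field K] [Field F] [Algebra K F] (m : ℕ)
    (D : Divisor.degZero (K := K) (F := F)) : m • Pic0.mk D = Pic0.mk (m • D) := rfl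

variable {A K k : Type*} [CommRing A] [IsDomain A] [ValuationRing A]
  [Field K] [IsAlgClosed K] [Algebra A K] [IsFractionRing A K] [Field k] [IsAlgClosed k]
  [Algebra A k]

/-- **Injectivity of specialization on torsion.** -/
theorem sp_injective_torsion [CharZero K] [Algebra ℚ K] (ι : K →+* ℂ)
    {hk : Function.Surjective (algebraMap A k)} {N : ℕ} [NeZero N] (hN : (N : k) ≠ 0)
    (hA : ∃ t : A, t ≠ 0 ∧ ¬ IsUnit t)
    (hrank : ∀ a c : A, algebraMap A k a = 0 → c ≠ 0 → ∃ n : ℕ, c ∣ a ^ n)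
    {E : IntermediateField K (LaurentSeries K)} (hE : E = FF K N)
    [FunField K E] [FunField k (FF k N)] (S : LevelRed hk E (FF k N))
    {m : ℕ} (hm : (m : k) ≠ 0) (x : Pic0 K E) (hx : m • x = 0) (h0 : S.D.sp x = 0) : x = 0 := by
  subst hE
  have hm0 : m ≠ 0 := by rintro rfl; simp at hm
  obtain ⟨D, rfl⟩ := Pic0.mk_surjective x
  rw [nsmul_mk, pic0_mk_eq_zero] at hx
  obtain ⟨f, hf, hfD⟩ := isPrincipal_iff.1 hx
  have hfD' : m • (D : Divisor K (FF K N)) = divisor K f := hfD
  obtain ⟨a, ha, hW, hπ⟩ := exists_scaled S.M hk hf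
  obtain ⟨h, hh, hhD⟩ := isPrincipal_iff.1 (S.D.sp_mk_eq_zero.1 h0)
  have h1 : divisor k (S.M.π ⟨a • f, hW⟩) = divisor k (h ^ m) := by
    rw [← S.D.r_divisor hW hπ, divisor_smul ha, ← hfD', map_nsmul, hhD, divisor_pow]
  obtain ⟨c, hc, hcm⟩ := exists_const_mul hπ (pow_ne_zero m hh) h1
  obtain ⟨c', hc'⟩ := IsAlgClosed.exists_pow_nat_eq c (Nat.pos_of_ne_zero hm0)
  have hc'0 : c' ≠ 0 := by
    rintro rfl
    rw [zero_pow hm0] at hc'
    exact hc hc'.symm
  have hγ : S.M.π ⟨a • f, hW⟩ = (algebraMap k (FF k N) c' * h) ^ m := by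
    rw [mul_pow, ← map_pow, hc', hcm]
  have hDv : ∀ v : Place K (FF K N), (m : ℤ) * (D : Divisor K (FF K N)) v = v.ord (a • f) := by
    intro v
    have h2 := congrArg (fun E : Divisor K (FF K N) => E v) (divisor_smul ha f)
    simp only [divisor_apply] at h2
    rw [h2]
    have h3 := congrArg (fun E : Divisor K (FF K N) => E v) hfD'
    simp only [divisor_apply, Finsupp.smul_apply, nsmul_eq_mul] at h3
    exact h3
  obtain ⟨y, hy⟩ := rigidity_modular' (A := A) (k := k) ι hk hN hA hrank hm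
    (f := a • f) ((S.mem_W _).1 hW) (γ := algebraMap k (FF k N) c' * h)
    (mul_ne_zero (by simpa using hc'0) hh) (by
      rw [← S.coe_π _ hW, hγ]
      rfl) (fun v => ⟨_, (hDv v).symm⟩)
  rw [pic0_mk_eq_zero, isPrincipal_iff]
  have hy0 : y ≠ 0 := by
    rintro rfl
    rw [zero_pow hm0] at hy
    exact smul_ne_zero ha hf hy.symm
  refine ⟨y, hy0, ?_⟩
  ext v
  have h4 := hDv v
  rw [← hy, Fermat.Agent.Curve.ord_pow] at h4
  rw [divisor_apply]
  exact mul_left_cancel₀ (by exact_mod_cast hm0) h4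

end Fermat.Agent.Spec
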