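import Fermat.Agent.RR.Riemann
import Mathlib.Algebra.Module.Submodule.Union

/-!
# Elements of Riemann-Roch spaces with exact pole orders
-/

set_option autoImplicit false
set_option linter.style.haveILetI false
set_option linter.unusedSectionVars false

namespace Fermat.Agent.Spec

open AlgebraicCurve Fermat.Agent.RR Fermat.Agent.Curve

variable {K F : Type*} [Field K] [IsAlgClosed K] [Field F] [Algebra K F] [FunField K F]

theorem single_le_of_nonneg (v : Place K F) : (0 : Divisor K F) ≤ Finsupp.single v 1 := by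
  classical
  intro w
  rw [Finsupp.single_apply]
  split_ifs
  · exact Int.one_nonneg
  · exact le_rfl

theorem ord_eq_of_notMem {D : Divisor K F} {v : Place K F} {x : F}
    (hx : x ∈ riemannRochSpace D) (hx' : x ∉ riemannRochSpace (D - Finsupp.single v 1)) :
    v.ord x = - D v := by
  classical
  rw [mem_L] at hx hx'
  push Not at hx'
  obtain ⟨w, hw⟩ := hx'
  rw [Finsupp.sub_apply, Finsupp.single_apply] at hw
  split_ifs at hw with h
  · subst h
    have h1 := hx v
    have hx0 : x ≠ 0 := by
      rintro rfl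
      exact hw (Ge.zero _ _)
    have h2 := h1.le_ord hx0
    have h3 : ¬ (-(D v - 1) ≤ v.ord x) := fun h3 => hw (Ge.of_le h3)
    omega
  · exact absurd (by simpa using hx w) hw

variable (K F) in
/-- For divisors of large degree there are elements of `L(D)` with exact pole orders at
finitely many given places. -/
theorem exists_tight : ∃ c : ℤ, ∀ D : Divisor K F, c ≤ Divisor.degree D →
    ∀ S : Finset (Place K F), ∃ x ∈ riemannRochSpace D, x ≠ 0 ∧ ∀ v ∈ S, v.ord x = - D v := by
  classical
  obtain ⟨c, hc⟩ := exists_riemann (K := K) (F := F)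
  refine ⟨max c (rrGenus K F) + 1, fun D hD S => ?_⟩
  have h1 : c ≤ Divisor.degree D := by have := le_max_left c (rrGenus K F : ℤ); omega
  have h2 : (rrGenus K F : ℤ) ≤ Divisor.degree D := by
    have := le_max_right c (rrGenus K F : ℤ); omega
  have e1 := hc D h1
  haveI : Infinite K := IsAlgClosed.instInfinite
  let p : Option S → Submodule K (riemannRochSpace D) := fun o => match o with
    | none => ⊥
    | some v => (riemannRochSpace (D - Finsupp.single (v : Place K F) 1)).comap
        (riemannRochSpace D).subtype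
  have hp : ∀ o, p o ≠ ⊤ := by
    rintro (_ | v) h
    · have h3 : Module.finrank K (riemannRochSpace D) = 0 := by
        have h4 : (⊥ : Submodule K (riemannRochSpace D)) = ⊤ := h
        rw [← finrank_top, ← h4, finrank_bot]
      rw [ell, h3] at e1
      push_cast at e1
      omega
    · have h3 : riemannRochSpace D ≤ riemannRochSpace (D - Finsupp.single (v : Place K F) 1) := by
        intro x hx
        have h4 : (⟨x, hx⟩ : riemannRochSpace D) ∈ p (some v) := by rw [h]; trivial
        exact h4
      have h4 : ell D ≤ ell (D - Finsupp.single (v : Place K F) 1) := Submodule.finrank_mono h3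
      have h5 : Divisor.degree (D - Finsupp.single (v : Place K F) 1) = Divisor.degree D - 1 := by
        rw [map_sub, degree_single']
      have h6 := hc (D - Finsupp.single (v : Place K F) 1) (by
        rw [h5]; have := le_max_left c (rrGenus K F : ℤ); omega)
      rw [h5] at h6
      omega
  obtain ⟨x, hx⟩ := Submodule.exists_forall_notMem_of_forall_ne_top p hp
  refine ⟨x, x.2, ?_, ?_⟩
  · intro h0
    exact hx none (by
      change x ∈ (⊥ : Submodule K (riemannRochSpace D))
      rw [Submodule.mem_bot]
      exact Subtype.ext h0)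
  · intro v hv
    exact ord_eq_of_notMem x.2 (fun h => hx (some ⟨v, hv⟩) h)

/-- If `L(D) ≤ L(E)` for a divisor `D` of large degree then `D ≤ E`. -/
theorem exists_le_of_L_le : ∃ c : ℤ, ∀ D E : Divisor K F, c ≤ Divisor.degree D →
    riemannRochSpace D ≤ riemannRochSpace E → D ≤ E := by
  classical
  obtain ⟨c, hc⟩ := exists_tight K F
  refine ⟨c, fun D E hD h v => ?_⟩
  obtain ⟨x, hx, hx0, hxv⟩ := hc D hD {v}
  have h1 := (mem_L.1 (h hx) v).le_ord hx0
  rw [hxv v (Finset.mem_singleton_self v)] at h1
  omega

theorem eq_of_le_of_degree {D E : Divisor K F} (h : D ≤ E)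
    (hd : Divisor.degree E ≤ Divisor.degree D) : D = E := by
  have h0 : (0 : Divisor K F) ≤ E - D := sub_nonneg.2 h
  have h1 : Divisor.degree (E - D) = 0 := by
    have := degree_nonneg h0
    rw [map_sub] at this ⊢
    omega
  rw [degree_eq] at h1
  have h2 := (Finset.sum_eq_zero_iff_of_nonneg (fun v _ => h0 v)).1 h1
  ext v
  by_cases hv : v ∈ (E - D).support
  · have := h2 v hv
    rw [Finsupp.sub_apply] at this
    omega
  · rw [Finsupp.notMem_support_iff, Finsupp.sub_apply] at hv
    omega

/-- A finite dimensional space of functions is contained in a smallest `L(E)`. -/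
theorem exists_hull (V : Submodule K F) [FiniteDimensional K V] (hV : V ≠ ⊥) :
    ∃ E : Divisor K F, V ≤ riemannRochSpace E ∧ ∀ v : Place K F, ∃ x ∈ V, x ≠ 0 ∧ v.ord x = - E v := by
  classical
  -- some divisor bounding `V`
  obtain ⟨E0, hE0⟩ : ∃ E : Divisor K F, V ≤ riemannRochSpace E := by
    let b := Module.finBasis K V
    refine ⟨∑ i, poleDiv K (b i : F), ?_⟩
    intro x hx
    have h1 : x = ∑ i, b.repr ⟨x, hx⟩ i • (b i : F) := by
      have := congrArg V.subtype (b.sum_repr ⟨x, hx⟩)
      rw [map_sum] at this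
      exact this.symm
    rw [h1]
    refine Submodule.sum_mem _ fun i _ => Submodule.smul_mem _ _ ?_
    refine L_mono ?_ (mem_L_poleDiv (b i : F))
    exact Finset.single_le_sum (f := fun i => poleDiv K (b i : F))
      (fun i _ => poleDiv_nonneg (K := K) (b i : F)) (Finset.mem_univ i)
  obtain ⟨x0, hx0V, hx0⟩ := (Submodule.ne_bot_iff V).1 hV
  -- minimum of orders
  have hbdd : ∀ v : Place K F, ∃ n : ℤ, (∃ x ∈ V, x ≠ 0 ∧ v.ord x = n) ∧
      ∀ x ∈ V, x ≠ 0 → n ≤ v.ord x := by
    intro v
    have h := Int.exists_least_of_bdd (P := fun n => ∃ x ∈ V, x ≠ 0 ∧ v.ord x = n)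
      ⟨-E0 v, by
        rintro n ⟨x, hx, hx0, rfl⟩
        exact (mem_L.1 (hE0 hx) v).le_ord hx0⟩ ⟨_, x0, hx0V, hx0, rfl⟩
    obtain ⟨n, hn, hn'⟩ := h
    exact ⟨n, hn, fun x hx hx0 => hn' _ ⟨x, hx, hx0, rfl⟩⟩
  choose n hn hn' using hbdd
  have hfin : {v : Place K F | -n v ≠ 0}.Finite := by
    refine (((finite_ord (K := K) hx0).toFinset ∪ E0.support).finite_toSet).subset ?_
    intro v hv
    rw [Finset.coe_union, Set.mem_union, Finset.mem_coe, Finset.mem_coe, Set.Finite.mem_toFinset,
      Finsupp.mem_support_iff]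
    by_contra hcon
    push Not at hcon
    obtain ⟨h1, h2⟩ := hcon
    have h3 : v.ord x0 = 0 := by
      by_contra h; exact h1 h
    have h4 := hn' v x0 hx0V hx0
    obtain ⟨x, hx, hxx, hxe⟩ := hn v
    have h5 := (mem_L.1 (hE0 hx) v).le_ord hxx
    exact hv (by show -n v = 0; omega)
  refine ⟨Finsupp.onFinset hfin.toFinset (fun v => -n v) (fun v hv => by
    rw [Set.Finite.mem_toFinset]; exact hv), ?_, ?_⟩
  · intro x hx
    rw [mem_L]
    intro v
    rcases eq_or_ne x 0 with rfl | hxx
    · exact Ge.zero _ _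
    · refine Ge.of_le ?_
      have := hn' v x hx hxx
      rw [Finsupp.onFinset_apply]
      omega
  · intro v
    obtain ⟨x, hx, hxx, hxe⟩ := hn v
    exact ⟨x, hx, hxx, by rw [Finsupp.onFinset_apply, hxe]; omega⟩

end Fermat.Agent.Spec
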