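import Fermat.Agent.Spec.Classify
import Fermat.Agent.HeckeProd.Formal

/-!
# The multiplicative Hecke operator is a norm
-/

set_option autoImplicit false
set_option linter.style.haveILetI false
set_option linter.unusedSectionVars false

noncomputable section

namespace Fermat.Agent.Spec

open ModularCurve Polynomial IntermediateField Fermat.Agent.ModPoly AlgebraicCurve
open Fermat.Agent.Cusp Fermat.Agent.HeckeProd

section Factor

variable {k : Type*} [Field k] [IsAlgClosed k] {M : ℕ} [NeZero M]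
  {Ω : Type*} [Field Ω] [Algebra k Ω] (i : LaurentSeries k →ₐ[k] Ω)

/-- embeddings factor through Laurent series -/
theorem exists_factor (hM : (M : k) ≠ 0) (σ : FF k M →ₐ[k] Ω)
    (h : σ (jF' k M) = i (Jc 1 (pn M))) :
    ∃ τ : FF k M →ₐ[k] LaurentSeries k, ∀ x, i (τ x) = σ x := by
  letI := algE (N := M) i
  let σ' : FF k M →ₐ[EE k M] Ω :=
    { σ.toRingHom with
      commutes' := fun x => agree_E σ (tauE i) (h.trans (tauE_jF i).symm) x.1 x.2 }
  obtain ⟨τ, hτ⟩ := toHom_surjective i hM σ'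
  exact ⟨τ.1, fun x => AlgHom.congr_fun hτ x⟩

end Factor

section Norm

variable {k : Type*} [Field k] [IsAlgClosed k] {N : ℕ} [NeZero N] {ℓ : ℕ} [hℓ : Fact ℓ.Prime]
  [NeZero ℓ]

theorem Sb_one_twist (c : kˣ) (e : ℕ+) (x : LaurentSeries k) :
    Sb 1 e (twist c x) = Sb c e x := by
  haveI : NeZero (e : ℕ) := ⟨e.ne_zero⟩
  rw [Sb_apply, Sb_apply, ModPoly.twist_one]

theorem Sb_one_Sb_one (e e' : ℕ+) (x : LaurentSeries k) :
    Sb (1 : kˣ) e (Sb 1 e' x) = Sb 1 (e * e') x := by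
  rw [Sb_Sb, one_pow, one_mul]

/-- the characterisation of `TT` -/
theorem Sb_TT {ζ : kˣ} (hζ : IsPrimitiveRoot ζ ℓ) (x : LaurentSeries k) :
    Sb 1 (pn N * pn ℓ) (TT hζ x) = Sb 1 (pn N * pn ℓ) (Sb 1 (pn ℓ) x) *
      ∏ a : ZMod ℓ, Sb (ζ ^ a.val) (pn N) x := by
  rw [TT_apply, map_mul, Sb_one_eq ℓ (pn ℓ) (coe_pn ℓ)]
  congr 1
  rw [← Sb_one_Sb_one, Sb_one_eq ℓ (pn ℓ) (coe_pn ℓ), qExpand_NN hζ, PP, map_prod]
  exact Finset.prod_congr rfl fun a _ => Sb_one_twist _ _ _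

variable {Ω : Type*} [Field Ω] [IsAlgClosed Ω] [Algebra k Ω] (i : LaurentSeries k →ₐ[k] Ω)

variable (N ℓ) in
/-- the base embedding -/
def baseEmb : FF k N →ₐ[k] Ω := i.comp ((SbA 1 (pn N * pn ℓ)).comp (FF k N).val)

theorem baseEmb_apply (x : FF k N) : baseEmb N ℓ i x = i (Sb 1 (pn N * pn ℓ) x) := rfl

/-- the values of the embeddings -/
def embVal (ζ : kˣ) (x : FF k N) : Option (ZMod ℓ) → LaurentSeries k
  | none => Sb 1 (pn N * pn ℓ) (Sb 1 (pn ℓ) (x : LaurentSeries k))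
  | some a => Sb (ζ ^ a.val) (pn N) (x : LaurentSeries k)

theorem exists_val {ζ : kˣ} (hζ : IsPrimitiveRoot ζ ℓ) (hM : ((N * ℓ : ℕ) : k) ≠ 0)
    (hℓN : ¬ ℓ ∣ N) (σ : FF k (N * ℓ) →ₐ[k] Ω)
    (h : ∀ x, σ (alphaFF k N ℓ x) = baseEmb N ℓ i x) :
    ∃ o : Option (ZMod ℓ), ∀ x, σ (betaFF k N ℓ x) = i (embVal ζ x o) := by
  haveI : NeZero (N * ℓ) := ⟨mul_ne_zero (NeZero.ne N) (NeZero.ne ℓ)⟩
  obtain ⟨τ, hτ⟩ := exists_factor i hM σ (by
    have h1 := h (jF' k N)
    rw [alphaFF, incl_jF] at h1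
    rw [h1, baseEmb_apply]
    congr 1
    have : Sb (1 : kˣ) (pn N * pn ℓ) (Jc 1 1) = Jc 1 (pn (N * ℓ)) := by
      rw [Sb_one_Jc, mul_one]
      congr 1
    exact this)
  have h1 : ∀ x, τ (alphaFF k N ℓ x) = Sb 1 (pn N * pn ℓ) x := by
    intro x
    apply i.injective
    exact (hτ _).trans (h x)
  rcases classify hM hℓN τ h1 with h2 | ⟨c, hc, h2⟩
  · refine ⟨none, fun x => ?_⟩
    rw [← hτ, h2]
    rfl
  · obtain ⟨n, hn, hnc⟩ := (IsPrimitiveRoot.coe_units_iff.2 hζ).eq_pow_of_pow_eq_one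
      (show (c : k) ^ ℓ = 1 by rw [← Units.val_pow_eq_pow_val, hc, Units.val_one])
    obtain rfl : ζ ^ n = c := Units.ext (by rw [Units.val_pow_eq_pow_val]; exact hnc)
    refine ⟨some (n : ZMod ℓ), fun x => ?_⟩
    rw [← hτ, h2]
    change _ = i (Sb (ζ ^ (n : ZMod ℓ).val) (pn N) (x : LaurentSeries k))
    rw [ZMod.val_natCast, Nat.mod_eq_of_lt hn]

include i in
/-- **The norm formula**: the norm from level `N ℓ` to level `N` of `f(q^ℓ)` is the multiplicative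
Hecke operator. -/
theorem norm_betaFF_aux {ζ : kˣ} (hζ : IsPrimitiveRoot ζ ℓ) (hM : ((N * ℓ : ℕ) : k) ≠ 0)
    (hℓN : ¬ ℓ ∣ N) (x : FF k N) :
    letI := algebraAlong (alphaFF k N ℓ)
    ((Algebra.norm (FF k N) (betaFF k N ℓ x) : FF k N) : LaurentSeries k) = TT hζ (x : LaurentSeries k) := by
  classical
  letI := algebraAlong (alphaFF k N ℓ)
  haveI := isScalarTower_along (alphaFF k N ℓ)
  letI := algebraAlong (baseEmb N ℓ i)
  haveI := isScalarTower_along (baseEmb N ℓ i)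
  haveI : FiniteDimensional (FF k N) (FF k (N * ℓ)) := finiteAlong_alphaFF ℓ hM
  haveI : Algebra.IsSeparable (FF k N) (FF k (N * ℓ)) := separableAlong_alphaFF ℓ hM
  have hdeg : Module.finrank (FF k N) (FF k (N * ℓ)) = ℓ + 1 :=
    finrankAlong_alphaFF_prime ℓ hM hℓ.out hℓN
  have h1 : ∀ σ : FF k (N * ℓ) →ₐ[FF k N] Ω, ∃ o : Option (ZMod ℓ), ∀ x,
      σ (betaFF k N ℓ x) = i (embVal ζ x o) := fun σ =>
    exists_val i hζ hM hℓN (σ.restrictScalars k) fun x => σ.commutes x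
  choose g hg using h1
  have hinj : Function.Injective g := by
    intro σ σ' h
    have h2 : σ.restrictScalars k = σ'.restrictScalars k := by
      apply hom_ext_alpha_beta
      · intro x
        exact (σ.commutes x).trans (σ'.commutes x).symm
      · intro x
        exact (hg σ x).trans ((congrArg (fun o => i (embVal ζ x o)) h).trans (hg σ' x).symm)
    apply AlgHom.ext
    intro y
    exact AlgHom.congr_fun h2 y
  have hcard : Fintype.card (FF k (N * ℓ) →ₐ[FF k N] Ω) = Fintype.card (Option (ZMod ℓ)) := by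
    rw [AlgHom.card, hdeg, Fintype.card_option, ZMod.card]
  have hbij : Function.Bijective g := (Fintype.bijective_iff_injective_and_card g).2 ⟨hinj, hcard⟩
  have h2 := Algebra.norm_eq_prod_embeddings (FF k N) Ω (betaFF k N ℓ x)
  have h3 : ∏ σ : FF k (N * ℓ) →ₐ[FF k N] Ω, σ (betaFF k N ℓ x) =
      ∏ o : Option (ZMod ℓ), i (embVal ζ x o) := by
    rw [← (Equiv.ofBijective g hbij).prod_comp]
    exact Finset.prod_congr rfl fun σ _ => hg σ x
  rw [h3, ← map_prod] at h2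
  have h4 := i.injective h2
  rw [Fintype.prod_option] at h4
  apply Sb_injective (1 : kˣ) (pn N * pn ℓ)
  rw [Sb_TT hζ]
  exact h4

/-- **The norm formula**: the norm from level `N ℓ` to level `N` of `f(q^ℓ)` is the multiplicative
Hecke operator. -/
theorem norm_betaFF {ζ : kˣ} (hζ : IsPrimitiveRoot ζ ℓ) (hM : ((N * ℓ : ℕ) : k) ≠ 0)
    (hℓN : ¬ ℓ ∣ N) (x : FF k N) :
    letI := algebraAlong (alphaFF k N ℓ)
    ((Algebra.norm (FF k N) (betaFF k N ℓ x) : FF k N) : LaurentSeries k) = TT hζ (x : LaurentSeries k) :=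
  norm_betaFF_aux
    (IsScalarTower.toAlgHom k (LaurentSeries k) (AlgebraicClosure (LaurentSeries k))) hζ hM hℓN x

end Norm

end Fermat.Agent.Spec
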