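import Fermat.Agent.Spec.CoeffAut
import Fermat.Agent.Spec.NormTT

/-!
# Reduction of the Hecke correspondences
-/

set_option autoImplicit false
set_option linter.style.haveILetI false
set_option linter.unusedSectionVars false

noncomputable section

namespace Fermat.Agent.Spec

open ModularCurve Polynomial IntermediateField Fermat.Agent.ModPoly Fermat.Agent.Red AlgebraicCurve
open Fermat.Agent.RR Fermat.Agent.Cusp Fermat.Agent.RedMod LevelRed Fermat.Agent.HeckeProd

attribute [local instance] algI isScalarTower_algI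

section Along

variable {K F F' : Type*} [Field K] [IsAlgClosed K] [Field F] [Field F'] [Algebra K F]
  [Algebra K F']

theorem isIntegral_of_finiteAlong' (φ : F →ₐ[K] F') (h : FiniteAlong K φ) :
    φ.toRingHom.IsIntegral := by
  letI := algebraAlong φ
  haveI : Module.Finite F F' := h
  have h2 : Algebra.IsIntegral F F' := inferInstance
  intro x
  exact h2.isIntegral x

variable [FunField K F] [FunField K F']

theorem fundamentalIdentityAlong_of (φ : F →ₐ[K] F') (hi : φ.toRingHom.IsIntegral)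
    (hfin : FiniteAlong K φ) [HasPrincipalDivisors K F'] : FundamentalIdentityAlong K φ hi := by
  letI := algebraAlong φ
  haveI := isScalarTower_along φ
  haveI := isIntegral_along φ hi
  haveI : Module.Finite F F' := hfin
  exact fundamentalIdentity'

theorem normFormulaAlong_of (φ : F →ₐ[K] F')
    (hfin : FiniteAlong K φ) (hsep : SeparableAlong K φ) :
    NormFormulaAlong K φ hfin := by
  haveI : HasPrincipalDivisors K F' := hasPrincipalDivisors'
  have hi := isIntegral_of_finiteAlong' φ hfin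
  letI := algebraAlong φ
  haveI := isScalarTower_along φ
  haveI := isIntegral_along φ hi
  haveI : Module.Finite F F' := hfin
  haveI : Algebra.IsSeparable F F' := hsep
  exact pushforwardNormFormula'

omit [IsAlgClosed K] [FunField K F] [FunField K F'] in
/-- the norm along a finite map -/
def normAlong (φ : F →ₐ[K] F') (y : F') : F :=
  letI := algebraAlong φ
  Algebra.norm F y

theorem normAlong_mem_L (φ : F →ₐ[K] F') (hi : φ.toRingHom.IsIntegral)
    (hfin : FiniteAlong K φ) (hsep : SeparableAlong K φ) {D : Divisor K F'} {x : F'}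
    (hx0 : x ≠ 0) (hx : x ∈ riemannRochSpace D) :
    normAlong φ x ∈ riemannRochSpace (Divisor.pushforwardAlong φ hi D) := by
  haveI : HasPrincipalDivisors K F' := hasPrincipalDivisors'
  letI := algebraAlong φ
  haveI := isScalarTower_along φ
  haveI := isIntegral_along φ hi
  haveI : Module.Finite F F' := hfin
  haveI : Algebra.IsSeparable F F' := hsep
  exact norm_mem_L hx0 hx

theorem mapAlong_mem_L (φ : F →ₐ[K] F') (hi : φ.toRingHom.IsIntegral)
    [HasPrincipalDivisors K F'] {D : Divisor K F} {x : F} (hx : x ∈ riemannRochSpace D) :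
    φ x ∈ riemannRochSpace (Divisor.pullbackAlong φ hi D) := by
  letI := algebraAlong φ
  haveI := isScalarTower_along φ
  haveI := isIntegral_along φ hi
  exact map_mem_L hx

end Along

section NormConj

variable {K F F' F₁ F₁' : Type*} [Field K] [Field F] [Field F'] [Field F₁] [Field F₁']
  [Algebra K F] [Algebra K F'] [Algebra K F₁] [Algebra K F₁']
  (e : F₁ ≃ₐ[K] F) (e' : F' ≃ₐ[K] F₁') (φ : F →ₐ[K] F') (ψ : F₁ →ₐ[K] F₁')
  (h : ∀ x, ψ x = e' (φ (e x)))

include h in
theorem normAlong_conj (y : F') : normAlong φ y = e (normAlong ψ (e' y)) := by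
  letI := algebraAlong φ
  letI := algebraAlong ψ
  exact Algebra.norm_eq_of_equiv_equiv e.symm.toRingEquiv e'.toRingEquiv (conj_comm e e' φ ψ h) y

end NormConj

/-- the modular function field over `K` -/
abbrev EB (K : Type*) [Field K] [Algebra ℚ K] (N : ℕ) : IntermediateField K (LaurentSeries K) :=
  laurentBaseChange K (modularFunctionFieldFull N)

section CharZero

variable (K : Type*) [Field K] [IsAlgClosed K] [CharZero K] [Algebra ℚ K] (N : ℕ) [NeZero N]
  (q : ℕ) [NeZero q]

theorem natCast_mul_ne : ((N * q : ℕ) : K) ≠ 0 := by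
  exact_mod_cast mul_ne_zero (NeZero.ne N) (NeZero.ne q)

theorem separableAlong_heckeAlphaBar : SeparableAlong K (heckeAlphaBar K N q) :=
  separableAlong_conj (eqE K N) (eqE K (N * q)).symm (alphaFF K N q) (heckeAlphaBar K N q)
    (heckeAlphaBar_conj K N q) (separableAlong_alphaFF q (natCast_mul_ne K N q))

/-- The norm formula for the Hecke correspondence over a field of characteristic zero. -/
theorem coe_normAlong_heckeBetaBar [Fact q.Prime] (hqN : ¬ q ∣ N) {ζ : Kˣ}
    (hζ : IsPrimitiveRoot ζ q) (x : EB K N) :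
    ((normAlong (heckeAlphaBar K N q) (heckeBetaBar K N q x) : EB K N) : LaurentSeries K) =
      TT hζ (x : LaurentSeries K) := by
  have h1 := normAlong_conj (eqE K N) (eqE K (N * q)).symm (alphaFF K N q) (heckeAlphaBar K N q)
    (heckeAlphaBar_conj K N q) (betaFF K N q (eqE K N x))
  rw [← heckeBetaBar_conj] at h1
  have h2 := norm_betaFF hζ (natCast_mul_ne K N q) hqN (eqE K N x)
  have h3 : ((normAlong (alphaFF K N q) (betaFF K N q (eqE K N x)) : FF K N) : LaurentSeries K) =
      TT hζ ((eqE K N x : FF K N) : LaurentSeries K) := h2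
  rw [h1, coe_eqE, coe_eqE] at h3
  exact h3

end CharZero

section Hecke

variable {A K k : Type*} [CommRing A] [IsDomain A] [ValuationRing A]
  [Field K] [IsAlgClosed K] [CharZero K] [Algebra ℚ K] [Algebra A K] [IsFractionRing A K]
  [Field k] [IsAlgClosed k] [Algebra A k]
  {hk : Function.Surjective (algebraMap A k)} {N : ℕ} [NeZero N]

section Good

variable (q : ℕ) [NeZero q] (hM : ((N * q : ℕ) : k) ≠ 0)
  [FunField k (FF k N)] [FunField k (FF k (N * q))]
  (S : LevelRed hk (EB K N) (FF k N)) (S₁ : LevelRed hk (EB K (N * q)) (FF k (N * q)))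
  (hα : HeckeAlphaBarIntegral K N q) (hβ : HeckeBetaBarIntegral K N q)
  (hαk : (alphaFF k N q).toRingHom.IsIntegral) (hβk : (betaFF k N q).toRingHom.IsIntegral)
  [HasPrincipalDivisors k (FF k (N * q))]

include hM S₁ in
/-- **Reduction of the Hecke correspondence** `T_q` for `q` invertible in the residue field. -/
theorem r_heckeDivBar (D : Divisor K (EB K N)) : S.D.r (heckeDivBar hα hβ D) =
    Divisor.correspondence (betaFF k N q) (alphaFF k N q) hβk hαk (S.D.r D) := by
  have hMK := natCast_mul_ne K N q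
  rw [heckeDivBar, Divisor.correspondence_apply, Divisor.correspondence_apply,
    S.r_pushforwardAlong S₁ rd_id (heckeAlphaBar K N q) (alphaFF k N q)
      (fun x => coe_heckeAlphaBar N q x) (fun y => coe_alphaFF q y) hα hαk
      (finiteAlong_heckeAlphaBar K N q) (finiteAlong_alphaFF q hM)
      (separableAlong_heckeAlphaBar K N q) (separableAlong_alphaFF q hM)
      ((finrankAlong_heckeAlphaBar K N q).trans (finrankAlong_alphaFF_eq q hMK hM)),
    S.r_pullbackAlong S₁ (rd_qExpand q) (heckeBetaBar K N q) (betaFF k N q)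
      (fun x => coe_heckeBetaBar N q x) (fun y => coe_betaFF q y) hβ hβk
      (finiteAlong_heckeBetaBar K N q) (finiteAlong_betaFF q hM)
      ((finrankAlong_heckeBetaBar K N q).trans (finrankAlong_betaFF_eq q hMK hM))]

include hM S₁ in
/-- The kernel of specialization is stable under `T_q`, `q` invertible in the residue field. -/
theorem sp_hecke_zero (x : Pic0 K (EB K N)) (hx : S.D.sp x = 0) :
    S.D.sp (heckeOperatorAlong K N q x) = 0 := by
  obtain ⟨D, rfl⟩ := Pic0.mk_surjective x
  rw [DivRed.sp_mk_eq_zero] at hx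
  rw [heckeOperatorAlong_eq', heckePic0Bar, Pic0.correspondence_mk, DivRed.sp_mk_eq_zero,
    Pic0.coe_degZeroCorrespondence]
  haveI : HasPrincipalDivisors k (FF k (N * q)) := hasPrincipalDivisors'
  have hfα := finiteAlong_alphaFF (N := N) q hM
  have hfβ := finiteAlong_betaFF (N := N) q hM
  have hαk := isIntegral_of_finiteAlong' _ hfα
  have hβk := isIntegral_of_finiteAlong' _ hfβ
  have h1 := r_heckeDivBar q hM S S₁ (heckeAlphaBarIntegral K N q) (heckeBetaBarIntegral K N q)
    hαk hβk D
  rw [heckeDivBar] at h1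
  rw [h1]
  exact Divisor.correspondence_mem_principal _ _ hβk hαk hfα
    (normFormulaAlong_of _ hfα (separableAlong_alphaFF q hM)) hx

end Good

section Ell

variable {ℓ : ℕ} [hℓ : Fact ℓ.Prime] [NeZero ℓ] [CharP k ℓ] [PerfectRing k ℓ]
  [FunField k (FF k N)] (S : LevelRed hk (EB K N) (FF k N)) (hℓN : ¬ ℓ ∣ N)
  (hα : HeckeAlphaBarIntegral K N ℓ) (hβ : HeckeBetaBarIntegral K N ℓ)
  {ζ : Kˣ} (hζ : IsPrimitiveRoot ζ ℓ)
  (hTT : ∀ (x : LaurentSeries K) (y : LaurentSeries k), Rd A x y →
    Rd A (TT hζ x) (qExpand k ℓ y * Fr ℓ y))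

variable (k N ℓ) in
/-- the Eichler–Shimura correspondence on the special fibre -/
def esDiv : Divisor k (FF k N) →+ Divisor k (FF k N) :=
  DistribSMul.toAddMonoidHom (Divisor k (FF k N)) (frobAut k N ℓ) +
    ℓ • DistribSMul.toAddMonoidHom (Divisor k (FF k N)) (frobAut k N ℓ)⁻¹

omit [IsAlgClosed k] [NeZero ℓ] [FunField k (FF k N)] in
theorem esDiv_apply (D : Divisor k (FF k N)) :
    esDiv k N ℓ D = frobAut k N ℓ • D + ℓ • ((frobAut k N ℓ)⁻¹ • D) := rfl

include hTT hℓN in
/-- **The Eichler–Shimura relation on divisors.** -/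
theorem r_heckeDivBar_ell (D : Divisor K (EB K N)) :
    S.D.r (heckeDivBar hα hβ D) =
      frobAut k N ℓ • S.D.r D + ℓ • ((frobAut k N ℓ)⁻¹ • S.D.r D) := by
  classical
  rw [← esDiv_apply]
  have hdeg : finrankAlong K (heckeBetaBar K N ℓ) = ℓ + 1 := by
    rw [finrankAlong_heckeBetaBar, finrankAlong_betaFF ℓ (natCast_mul_ne K N ℓ),
      finrankAlong_alphaFF_prime ℓ (natCast_mul_ne K N ℓ) hℓ.out hℓN]
  refine S.D.transport S.D (heckeDivBar hα hβ) (esDiv k N ℓ)
    (fun x => normAlong (heckeAlphaBar K N ℓ) (heckeBetaBar K N ℓ x)) (psiFrob ℓ) (ℓ + 1 : ℕ)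
    ?_ ?_ ?_ ?_ ?_ D
  · intro D
    rw [heckeDivBar, Divisor.degree_correspondence _ _ _ _ (fundamentalIdentityAlong_beta K N ℓ),
      hdeg]
  · intro D
    rw [esDiv_apply, map_add, map_nsmul, SemilinearAut.degree_smul, SemilinearAut.degree_smul,
      nsmul_eq_mul]
    push_cast
    ring
  · intro x hx
    apply S.mem_of_rd
    rw [coe_normAlong_heckeBetaBar K N ℓ hℓN hζ, coe_psiFrob]
    exact hTT _ _ (S.rd_of_mem hx)
  · intro D x hx0 hx
    apply normAlong_mem_L _ hα (finiteAlong_heckeAlphaBar K N ℓ)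
      (separableAlong_heckeAlphaBar K N ℓ)
    · intro h0
      exact hx0 ((heckeBetaBar K N ℓ).injective (h0.trans (map_zero _).symm))
    · exact mapAlong_mem_L _ _ hx
  · intro w
    refine ⟨{frobAut k N ℓ • w, (frobAut k N ℓ)⁻¹ • w}, fun E y hy hE => ?_⟩
    have h1 : frobAut k N ℓ • y ≠ 0 := by
      intro h0
      apply hy
      have := congrArg (fun z => (frobAut k N ℓ)⁻¹ • z) h0
      simp only [inv_smul_smul, smul_zero] at this
      exact this
    have h2 : (frobAut k N ℓ)⁻¹ • y ≠ 0 := by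
      intro h0
      apply hy
      have := congrArg (fun z => frobAut k N ℓ • z) h0
      simp only [smul_inv_smul, smul_zero] at this
      exact this
    have h3 : ((frobAut k N ℓ)⁻¹ • y) ^ ℓ ≠ 0 := pow_ne_zero _ h2
    refine ⟨mul_ne_zero h3 h1, ?_⟩
    have h4 : w.ord (((frobAut k N ℓ)⁻¹ • y) ^ ℓ) = ℓ * w.ord ((frobAut k N ℓ)⁻¹ • y) := by
      have := w.ord_zpow ((frobAut k N ℓ)⁻¹ • y) ℓ
      rwa [zpow_natCast] at this
    rw [psiFrob, w.ord_mul h3 h1, h4, esDiv_apply]
    have e1 := SemilinearAut.ord_smul (frobAut k N ℓ) ((frobAut k N ℓ)⁻¹ • w) y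
    rw [smul_inv_smul] at e1
    have e2 := SemilinearAut.ord_smul (frobAut k N ℓ)⁻¹ (frobAut k N ℓ • w) y
    rw [inv_smul_smul] at e2
    rw [e1, e2, hE _ (by simp), hE _ (by simp), Finsupp.add_apply, Finsupp.smul_apply,
      SemilinearAut.divisor_smul_apply, SemilinearAut.divisor_smul_apply, inv_inv, nsmul_eq_mul]
    ring

include hTT hℓN in
/-- **The Eichler–Shimura relation.** -/
theorem sp_hecke_ell (x : Pic0 K (EB K N)) :
    S.D.sp (heckeOperatorAlong K N ℓ x) =
      frobAut k N ℓ • S.D.sp x + ℓ • ((frobAut k N ℓ)⁻¹ • S.D.sp x) := by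
  obtain ⟨D, rfl⟩ := Pic0.mk_surjective x
  rw [heckeOperatorAlong_eq', heckePic0Bar, Pic0.correspondence_mk, DivRed.sp_mk, DivRed.sp_mk,
    SemilinearAut.pic0_smul_mk, SemilinearAut.pic0_smul_mk]
  have h1 := r_heckeDivBar_ell S hℓN (heckeAlphaBarIntegral K N ℓ) (heckeBetaBarIntegral K N ℓ)
    hζ hTT D
  have h2 : S.D.degZeroHom (Pic0.degZeroCorrespondence (heckeBetaBar K N ℓ) (heckeAlphaBar K N ℓ)
      (heckeBetaBarIntegral K N ℓ) (heckeAlphaBarIntegral K N ℓ)
      (fundamentalIdentityAlong_beta K N ℓ) D) =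
      SemilinearAut.degZeroSMulHom (frobAut k N ℓ) (S.D.degZeroHom D) +
        ℓ • SemilinearAut.degZeroSMulHom (frobAut k N ℓ)⁻¹ (S.D.degZeroHom D) := Subtype.ext h1
  exact congrArg Pic0.mk h2

end Ell

end Hecke

end Fermat.Agent.Spec
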