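import Fermat.Prelude.Def_ModularCurve_HeckeModule
import Fermat.Agent.Spec.HeckeRed
import Fermat.Agent.Spec.TorsInj
import Fermat.Agent.RedMod.Bar

/-!
# Specialization of the Jacobian of the modular curve
-/

set_option autoImplicit false
set_option linter.style.haveILetI false
set_option linter.unusedSectionVars false
set_option synthInstance.maxHeartbeats 400000

noncomputable section

namespace Fermat.Agent.Spec

open ModularCurve Polynomial IntermediateField Fermat.Agent.ModPoly AlgebraicCurve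
open Fermat.Agent.RR Fermat.Agent.Cusp Fermat.Agent.RedMod LevelRed Fermat.Agent.HeckeProd

attribute [local instance] algI isScalarTower_algI

section Abstract

variable {H J P : Type*} [CommRing H] [AddCommGroup J] [Module H J] [AddCommGroup P]

/-- A quotient of a module by a stable kernel is a module. -/
theorem exists_module (f : J →+ P) (hs : Function.Surjective f)
    (hker : ∀ (T : H) (x : J), f x = 0 → f (T • x) = 0) :
    ∃ _ : Module H P, ∀ (T : H) (x : J), f (T • x) = T • f x := by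
  letI : SMul H P := ⟨fun T y => f (T • Function.surjInv hs y)⟩
  have h : ∀ (T : H) (x : J), f (T • x) = T • f x := by
    intro T x
    change f (T • x) = f (T • Function.surjInv hs (f x))
    have h1 := hker T (x - Function.surjInv hs (f x)) (by
      rw [map_sub, Function.surjInv_eq hs, sub_self])
    rw [smul_sub, map_sub, sub_eq_zero] at h1
    exact h1
  exact ⟨Function.Surjective.module H f hs h, h⟩

end Abstract

section Stable

variable {N : ℕ} [NeZero N]

/-- Stability under the Hecke algebra follows from stability under the generators. -/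
theorem ker_stable (hcomm : HeckeOperatorsCommuteBar N) {P : Type*} [AddCommGroup P]
    (f : JZero N →+ P)
    (h : ∀ (q : Nat.Primes) (x : JZero N), f x = 0 → f (heckeOperatorBar N q x) = 0) :
    letI := heckeModuleBar N
    ∀ (T : HeckeAlg) (x : JZero N), f x = 0 → f (T • x) = 0 := by
  letI := heckeModuleBar N
  intro T
  induction T using MvPolynomial.induction_on with
  | C a =>
    intro x hx
    have h1 := heckeModuleBar_C_smul (N := N) a x
    rw [h1, map_zsmul, hx, smul_zero]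
  | add p q hp hq =>
    intro x hx
    rw [add_smul, map_add, hp x hx, hq x hx, add_zero]
  | mul_X p q hp =>
    intro x hx
    rw [mul_smul]
    apply hp
    have h1 := heckeModuleBar_heckeGen_smul hcomm q x
    exact (congrArg f h1).trans (h q x hx)

end Stable

section Generic

variable {K : Type*} [Field K] [IsAlgClosed K] [CharZero K] [Algebra ℚ K] (ι : K →+* ℂ)
  {A : ValuationSubring K} {ℓ : ℕ} [hℓ : Fact ℓ.Prime] {N : ℕ} [NeZero N]

theorem redTo_id_of_inertia {σ : K ≃ₐ[ℚ] K} (hσ : σ ∈ A.inertiaSubgroupIn ℚ)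
    (x : LaurentSeries K) (y : LaurentSeries (IsLocalRing.ResidueField A))
    (h : Rd A x y) : Rd A (coeffMap (σ : K →+* K) x) (id y) := by
  rw [rd_iff_redTo] at h ⊢
  have h1 := h.act (act_of_mem_inertia hσ)
  rwa [coeffMap_id] at h1

theorem redTo_Fr_of_isFrobeniusAt [CharP (IsLocalRing.ResidueField A) ℓ] {σ : K ≃ₐ[ℚ] K}
    (hσ : A.IsFrobeniusAt σ ℓ)
    (x : LaurentSeries K) (y : LaurentSeries (IsLocalRing.ResidueField A))
    (h : Rd A x y) : Rd A (coeffMap (σ : K →+* K) x) (Fr ℓ y) := by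
  rw [rd_iff_redTo] at h ⊢
  exact h.act (act_of_isFrobeniusAt hσ)

theorem exists_zeta_ell (K : Type*) [Field K] [IsAlgClosed K] [CharZero K] (ℓ : ℕ) [Fact ℓ.Prime] :
    ∃ ζ : Kˣ, IsPrimitiveRoot ζ ℓ :=
  haveI : NeZero ℓ := ⟨(Fact.out : ℓ.Prime).ne_zero⟩
  exists_zeta (k := K) (N := ℓ) (by exact_mod_cast (Fact.out : ℓ.Prime).ne_zero)

include ι in
/-- **The specialization map**, with all its properties. -/
theorem specialization_generic [IsAlgClosed (IsLocalRing.ResidueField A)]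
    [CharP (IsLocalRing.ResidueField A) ℓ]
    (hdvd : ∀ n : ℕ, ¬ ℓ ∣ n → (n : IsLocalRing.ResidueField A) ≠ 0) (hN : ¬ ℓ ∣ N)
    (hA : ∃ t : A, t ≠ 0 ∧ ¬ IsUnit t)
    (hrank : ∀ a c : A, algebraMap A (IsLocalRing.ResidueField A) a = 0 → c ≠ 0 →
      ∃ n : ℕ, c ∣ a ^ n) :
    ∃ (f : Pic0 K (EB K N) →+
        Pic0 (IsLocalRing.ResidueField A) (FF (IsLocalRing.ResidueField A) N))
      (Φ Φi : Pic0 (IsLocalRing.ResidueField A) (FF (IsLocalRing.ResidueField A) N) →+
        Pic0 (IsLocalRing.ResidueField A) (FF (IsLocalRing.ResidueField A) N)),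
      Function.Surjective f ∧ (∀ y, Φi (Φ y) = y) ∧
      (∀ (q : ℕ) [NeZero q], ¬ ℓ ∣ q → ∀ x, f x = 0 → f (heckeOperatorAlong K N q x) = 0) ∧
      (∀ [NeZero ℓ], ∀ x, f (heckeOperatorAlong K N ℓ x) = Φ (f x) + ℓ • Φi (f x)) ∧
      (∀ σ ∈ A.inertiaSubgroupIn ℚ, ∀ x, f (σ • x) = f x) ∧
      (∀ σ : K ≃ₐ[ℚ] K, A.IsFrobeniusAt σ ℓ → ∀ x, f (σ • x) = Φ (f x)) ∧
      (∀ m : ℕ, ¬ ℓ ∣ m → ∀ x, m • x = 0 → f x = 0 → x = 0) := by
  have hk : Function.Surjective (algebraMap A (IsLocalRing.ResidueField A)) :=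
    IsLocalRing.residue_surjective
  have hNk := hdvd N hN
  haveI := funField_FF (k := IsLocalRing.ResidueField A) (M := N) hNk
  obtain ⟨S⟩ := nonempty_levelRed (A := A) (K := K) (k := IsLocalRing.ResidueField A) ι hk
    (N := N) hNk (EB K N) (X0Genus.baseChange_eq K N)
  haveI : PerfectRing (IsLocalRing.ResidueField A) ℓ := inferInstance
  refine ⟨S.D.sp, DistribSMul.toAddMonoidHom _ (frobAut (IsLocalRing.ResidueField A) N ℓ),
    DistribSMul.toAddMonoidHom _ (frobAut (IsLocalRing.ResidueField A) N ℓ)⁻¹,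
    S.D.sp_surjective, ?_, ?_, ?_, ?_, ?_, ?_⟩
  · intro y
    exact inv_smul_smul _ y
  · intro q _ hq x hx
    have hM : ((N * q : ℕ) : IsLocalRing.ResidueField A) ≠ 0 :=
      hdvd _ (fun h => by rcases (Nat.Prime.dvd_mul hℓ.out).1 h with h | h <;> contradiction)
    haveI : NeZero (N * q) := ⟨mul_ne_zero (NeZero.ne N) (NeZero.ne q)⟩
    haveI := funField_FF (k := IsLocalRing.ResidueField A) (M := N * q) hM
    obtain ⟨S₁⟩ := nonempty_levelRed (A := A) (K := K) (k := IsLocalRing.ResidueField A) ι hk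
      (N := N * q) hM (EB K (N * q)) (X0Genus.baseChange_eq K (N * q))
    haveI : HasPrincipalDivisors (IsLocalRing.ResidueField A)
      (FF (IsLocalRing.ResidueField A) (N * q)) := hasPrincipalDivisors'
    exact sp_hecke_zero q hM S S₁ x hx
  · intro _ x
    obtain ⟨ζ, hζ⟩ := exists_zeta_ell K ℓ
    refine sp_hecke_ell S hN hζ ?_ x
    intro x y h
    rw [rd_iff_redTo] at h ⊢
    exact h.TT hζ
  · intro σ hσ x
    have h1 := S.sp_smul (redTo_id_of_inertia hσ) (arithmeticGalois (modularFunctionFieldFull N) σ)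
      (1 : SemilinearAut (IsLocalRing.ResidueField A) (FF (IsLocalRing.ResidueField A) N))
      (fun x => rfl) (fun y => rfl) x
    rw [one_smul] at h1
    exact h1
  · intro σ hσ x
    exact S.sp_smul (redTo_Fr_of_isFrobeniusAt hσ)
      (arithmeticGalois (modularFunctionFieldFull N) σ)
      (frobAut (IsLocalRing.ResidueField A) N ℓ)
      (fun x => rfl) (fun y => coe_frobAut_smul ℓ y) x
  · intro m hm x hx h0
    exact sp_injective_torsion ι hNk hA hrank (X0Genus.baseChange_eq K N) S (hdvd m hm) x hx h0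

end Generic

section Qbar

variable {A : ValuationSubring (AlgebraicClosure ℚ)} {ℓ : ℕ} [hℓ : Fact ℓ.Prime] {N : ℕ} [NeZero N]

/-- **The specialization map of `J₀(N)`** at a prime not dividing the level. -/
theorem specialization_JZero (hA : A.LiesOverPrime ℓ) (hN : ¬ ℓ ∣ N) :
    ∃ (P : Type) (_ : AddCommGroup P) (f : JZero N →+ P) (Φ Φi : P →+ P),
      Function.Surjective f ∧ (∀ y, Φi (Φ y) = y) ∧
      (∀ q : Nat.Primes, (q : ℕ) ≠ ℓ → ∀ x, f x = 0 → f (heckeOperatorBar N q x) = 0) ∧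
      (∀ x, f (heckeOperatorBar N ⟨ℓ, hℓ.out⟩ x) = Φ (f x) + ℓ • Φi (f x)) ∧
      (∀ σ ∈ A.inertiaSubgroupIn ℚ, ∀ x, f (σ • x) = f x) ∧
      (∀ σ : AlgebraicClosure ℚ ≃ₐ[ℚ] AlgebraicClosure ℚ, A.IsFrobeniusAt σ ℓ →
        ∀ x, f (σ • x) = Φ (f x)) ∧
      (∀ m : ℕ, ¬ ℓ ∣ m → ∀ x, m • x = 0 → f x = 0 → x = 0) := by
  haveI : CharP (IsLocalRing.ResidueField A) ℓ := RedMod.charP_residue hA
  haveI : IsAlgClosed (IsLocalRing.ResidueField A) := isAlgClosed_residueField A
  obtain ⟨f, Φ, Φi, h1, h2, h3, h4, h5, h6, h7⟩ := specialization_generic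
    (K := AlgebraicClosure ℚ) exists_ιC.some (A := A) (ℓ := ℓ) (N := N)
    (fun n hn => natCast_residue_ne_zero hA hn) hN (exists_nonunit hA)
    (fun a c ha hc => rank_one hA a c ha hc)
  refine ⟨_, inferInstance, f, Φ, Φi, h1, h2, ?_, ?_, h5, h6, h7⟩
  · intro q hq x hx
    haveI : NeZero (q : ℕ) := ⟨q.2.ne_zero⟩
    exact h3 q (fun h => hq ((Nat.prime_dvd_prime_iff_eq hℓ.out q.2).1 h).symm) x hx
  · intro x
    haveI : NeZero ℓ := ⟨hℓ.out.ne_zero⟩
    exact h4 x

end Qbar

end Fermat.Agent.Spec
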