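import Fermat.Agent.RR.Riemann
import Fermat.Agent.Red.PlaceInt
import Mathlib.RingTheory.SimpleModule.Basic

/-!
# Subrings separating points and tangent vectors
-/

set_option autoImplicit false
set_option linter.style.haveILetI false
set_option linter.unusedSectionVars false

namespace Fermat.Agent.Spec

open AlgebraicCurve Polynomial IntermediateField IsDedekindDomain Fermat.Agent.Curve Fermat.Agent.RR

/-- A finite extension of rings `C → B` with `B` Dedekind is surjective as soon as it separates
points and tangent vectors. -/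
theorem surjective_of_separates {C B : Type*} [CommRing C] [CommRing B] [IsDedekindDomain B]
    [Algebra C B] [Module.Finite C B]
    (h1 : ∀ P : Ideal B, P.IsMaximal → ∃ c : C, algebraMap C B c ∈ P ∧ algebraMap C B c ∉ P * P)
    (h2 : ∀ P Q : Ideal B, P.IsMaximal → Q.IsMaximal → P ≠ Q →
      ∃ c : C, algebraMap C B c ∈ P ∧ algebraMap C B c ∉ Q)
    (h3 : ∀ P : Ideal B, P.IsMaximal → ∀ b : B, ∃ c : C, b - algebraMap C B c ∈ P) :
    Function.Surjective (algebraMap C B) := by
  by_contra hcon
  let N : Submodule C B := LinearMap.range (Algebra.linearMap C B)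
  have hN : N ≠ ⊤ := by
    intro h
    apply hcon
    intro b
    have hb : b ∈ N := by rw [h]; trivial
    obtain ⟨c, hc⟩ := hb
    exact ⟨c, hc⟩
  obtain ⟨X, hX, hNX⟩ := (eq_top_or_exists_le_coatom N).resolve_left hN
  haveI : IsSimpleModule C (B ⧸ X) := isSimpleModule_iff_isCoatom.2 hX
  let I : Ideal C := Module.annihilator C (B ⧸ X)
  have hI : I.IsMaximal := IsSimpleModule.annihilator_isMaximal
  have hIX : ∀ i ∈ I, ∀ b : B, algebraMap C B i * b ∈ X := by
    intro i hi b
    have h4 := (Module.mem_annihilator.1 hi) (Submodule.Quotient.mk b)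
    rw [← Submodule.Quotient.mk_smul, Submodule.Quotient.mk_eq_zero, Algebra.smul_def] at h4
    exact h4
  let X' : Ideal B :=
    { carrier := {b | ∀ b', b * b' ∈ X}
      add_mem' := by
        intro a b ha hb b'
        rw [add_mul]
        exact X.add_mem (ha b') (hb b')
      zero_mem' := by
        intro b'
        rw [zero_mul]
        exact X.zero_mem
      smul_mem' := by
        intro c b hb b'
        rw [smul_eq_mul, mul_comm c b, mul_assoc]
        exact hb (c * b') }
  have hJX : I.map (algebraMap C B) ≤ X' := by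
    rw [Ideal.map_le_iff_le_comap]
    intro i hi b'
    exact hIX i hi b'
  have hX' : X' ≠ ⊤ := by
    intro h
    apply hX.1
    rw [eq_top_iff]
    intro b _
    have h4 : (1 : B) ∈ X' := by rw [h]; trivial
    have h5 := h4 b
    rwa [one_mul] at h5
  obtain ⟨P, hP, hXP⟩ := Ideal.exists_le_maximal X' hX'
  have hIP : I = P.comap (algebraMap C B) := by
    apply hI.eq_of_le
    · intro h
      apply hP.ne_top
      rw [Ideal.eq_top_iff_one]
      have h4 : (1 : C) ∈ P.comap (algebraMap C B) := by rw [h]; trivial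
      rw [Ideal.mem_comap, map_one] at h4
      exact h4
    · rw [← Ideal.map_le_iff_le_comap]
      exact hJX.trans hXP
  have hmemJ : ∀ c : C, algebraMap C B c ∈ P → algebraMap C B c ∈ I.map (algebraMap C B) := by
    intro c hc
    exact Ideal.mem_map_of_mem _ (by rw [hIP]; exact hc)
  have hJP : I.map (algebraMap C B) = P := by
    obtain ⟨J', hJ'⟩ := Ideal.dvd_iff_le.2 (hJX.trans hXP)
    by_cases hJ'T : J' = ⊤
    · rw [hJ', hJ'T, Ideal.mul_top]
    · exfalso
      obtain ⟨Q, hQ, hJQ⟩ := Ideal.exists_le_maximal J' hJ'T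
      by_cases hQP : Q = P
      · subst hQP
        obtain ⟨c, hc1, hc2⟩ := h1 Q hP
        apply hc2
        have h4 := hmemJ c hc1
        rw [hJ'] at h4
        have h5 : Q * J' ≤ Q * Q := Ideal.mul_mono_right hJQ
        exact h5 h4
      · obtain ⟨c, hc1, hc2⟩ := h2 P Q hP hQ (Ne.symm hQP)
        apply hc2
        have h4 := hmemJ c hc1
        rw [hJ'] at h4
        have h5 : P * J' ≤ J' := Ideal.mul_le_right
        exact hJQ (h5 h4)
  apply hX.1
  rw [eq_top_iff]
  intro b _
  obtain ⟨c, hc⟩ := h3 P hP b
  rw [← hJP] at hc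
  have h4 := hJX hc 1
  rw [mul_one] at h4
  have h5 : algebraMap C B c ∈ X := hNX ⟨c, rfl⟩
  have h6 := X.add_mem h4 h5
  rwa [sub_add_cancel] at h6

variable {k R : Type*} [Field k] [IsAlgClosed k] [Field R] [Algebra k R] [FunField k R]

/-- A ring of functions regular outside the poles of `t` which separates places and tangent
vectors contains all functions regular outside the poles of `t`. -/
theorem mem_of_separates (t : R) (htr : Transcendental k t) [FiniteDimensional k⟮t⟯ R]
    [Algebra.IsSeparable k⟮t⟯ R] (C : Subalgebra k R) (ht : t ∈ C)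
    (hC : ∀ c ∈ C, ∀ v : Place k R, 0 ≤ v.ord t → 0 ≤ v.ord c)
    (hone : ∀ v : Place k R, 0 ≤ v.ord t → ∃ c ∈ C, c ≠ 0 ∧ v.ord c = 1)
    (hsep : ∀ v v' : Place k R, 0 ≤ v.ord t → 0 ≤ v'.ord t → v ≠ v' →
      ∃ c ∈ C, c ≠ 0 ∧ 0 < v.ord c ∧ v'.ord c = 0)
    (b : R) (hb : ∀ v : Place k R, 0 ≤ v.ord t → 0 ≤ v.ord b) : b ∈ C := by
  let g : k⟮t⟯ := AdjoinSimple.gen k t
  letI : Algebra k[X] k⟮t⟯ := (aeval g).toRingHom.toAlgebra
  letI : Algebra k[X] R := (aeval t).toRingHom.toAlgebra
  haveI : IsScalarTower k[X] k⟮t⟯ R := by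
    refine IsScalarTower.of_algebraMap_eq fun p => ?_
    change aeval t p = algebraMap k⟮t⟯ R (aeval g p)
    rw [← aeval_algebraMap_apply]
    rfl
  haveI : IsScalarTower k k[X] R := by
    refine IsScalarTower.of_algebraMap_eq fun a => ?_
    change algebraMap k R a = aeval t (algebraMap k k[X] a)
    simp
  haveI : IsFractionRing k[X] k⟮t⟯ := by
    let e : RatFunc k ≃ₐ[k[X]] k⟮t⟯ :=
      AlgEquiv.ofRingEquiv (f := (RatFunc.algEquivOfTranscendental t htr).toRingEquiv)
        (fun p => RatFunc.algEquivOfTranscendental_algebraMap t htr p)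
    exact IsLocalization.isLocalization_of_algEquiv (nonZeroDivisors k[X]) e
  let B := integralClosure k[X] R
  haveI : IsFractionRing B R := integralClosure.isFractionRing_of_finite_extension k⟮t⟯ R
  haveI : IsDedekindDomain B := integralClosure.isDedekindDomain k[X] k⟮t⟯ R
  haveI : Module.Finite k[X] B := IsIntegralClosure.finite k[X] k⟮t⟯ R B
  letI : Algebra k B := ((algebraMap k[X] B).comp (algebraMap k k[X])).toAlgebra
  haveI : IsScalarTower k B R := by
    refine IsScalarTower.of_algebraMap_eq fun a => ?_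
    change _ = algebraMap B R (algebraMap k[X] B (algebraMap k k[X] a))
    rw [← IsScalarTower.algebraMap_apply k[X] B R, ← IsScalarTower.algebraMap_apply k k[X] R]
  have hmemB : ∀ x : R, (∀ v : Place k R, 0 ≤ v.ord t → 0 ≤ v.ord x) → x ∈ B := by
    intro x hx
    exact (Red.isIntegralElem_iff t htr x).2 hx
  -- the algebra structures over `C`
  let j : C →+* B := (C.val : C →+* R).codRestrict B.toSubring (fun c => hmemB c (hC c c.2))
  letI : Algebra C B := j.toAlgebra
  letI : Algebra k[X] C := (aeval (⟨t, ht⟩ : C)).toRingHom.toAlgebra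
  haveI : IsScalarTower k[X] C B := by
    refine IsScalarTower.of_algebraMap_eq fun p => ?_
    apply Subtype.ext
    change aeval t p = C.val (aeval (⟨t, ht⟩ : C) p)
    rw [← aeval_algHom_apply]
    rfl
  haveI : Module.Finite C B := Module.Finite.of_restrictScalars_finite k[X] C B
  -- a maximal ideal of `B` is not zero
  have hfield : ∀ P : Ideal B, P.IsMaximal → P ≠ ⊥ := by
    rintro P hP rfl
    have hF : IsField B := by
      by_contra h
      exact Ring.ne_bot_of_isMaximal_of_not_isField hP h rfl
    have htB : (⟨t, hmemB t fun v hv => hv⟩ : B) ≠ 0 := by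
      intro h
      apply htr
      have : t = 0 := congrArg Subtype.val h
      rw [this]
      exact isAlgebraic_zero
    obtain ⟨y, hy⟩ := hF.mul_inv_cancel htB
    have hy' : t * (y : R) = 1 := congrArg Subtype.val hy
    have ht0 : t ≠ 0 := by
      rintro rfl
      rw [zero_mul] at hy'
      exact zero_ne_one hy'
    have hy0 : (y : R) ≠ 0 := by
      intro h
      rw [h, mul_zero] at hy'
      exact zero_ne_one hy'
    obtain ⟨v, hv⟩ := exists_zero' (K := k) (f := t) htr
    have h1 := v.ord_mul ht0 hy0
    rw [hy', v.ord_one] at h1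
    have h2 : 0 ≤ v.ord (y : R) := (Red.isIntegralElem_iff t htr (y : R)).1 y.2 v hv.le
    omega
  -- the place attached to a maximal ideal
  have hpl : ∀ P : Ideal B, P.IsMaximal → ∃ v : Place k R, 0 ≤ v.ord t ∧
      ∀ b : B, b ∈ P ↔ Ge v 1 (b : R) := by
    intro P hP
    let w : HeightOneSpectrum B := ⟨P, hP.isPrime, hfield P hP⟩
    let v := Place.ofHeightOneSpectrum (K := k) (F := R) w
    have hv : v.toValuationSubring = (w.valuation R).valuationSubring :=
      Place.ofHeightOneSpectrum_toValuationSubring w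
    refine ⟨v, ?_, ?_⟩
    · apply ord_nonneg_of_mem
      rw [hv, Valuation.mem_valuationSubring_iff]
      have : t = algebraMap B R (algebraMap k[X] B X) := by
        rw [← IsScalarTower.algebraMap_apply]
        change t = aeval t X
        simp
      rw [this]
      exact w.valuation_le_one _
    · intro b
      rcases eq_or_ne b 0 with rfl | hb
      · exact ⟨fun _ => Or.inl rfl, fun _ => P.zero_mem⟩
      have hb' : algebraMap B R b ≠ 0 := by
        rw [ne_eq, map_eq_zero_iff _ (IsFractionRing.injective B R)]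
        exact hb
      have h1 : v.ord (algebraMap B R b) = -WithZero.log (w.intValuation b) := by
        rw [ord_ofHeightOneSpectrum _ hb', HeightOneSpectrum.valuation_of_algebraMap]
      have h2 := HeightOneSpectrum.intValuation_lt_one_iff_mem w b
      have h3 : b ∈ P ↔ 0 < v.ord (algebraMap B R b) := by
        rw [h1]
        change b ∈ w.asIdeal ↔ _
        rw [← h2, neg_pos, ← WithZero.log_one,
          WithZero.log_lt_log (HeightOneSpectrum.intValuation_ne_zero _ b hb) one_ne_zero]
      rw [h3]
      change 0 < v.ord (b : R) ↔ (b : R) = 0 ∨ 1 ≤ v.ord (b : R)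
      constructor
      · intro h; right; omega
      · intro h
        rcases h with h | h
        · exact absurd h hb'
        · omega
  have hsurj : Function.Surjective (algebraMap C B) := by
    refine surjective_of_separates ?_ ?_ ?_
    · intro P hP
      obtain ⟨v, hvt, hv⟩ := hpl P hP
      obtain ⟨c, hc, hc0, hc1⟩ := hone v hvt
      refine ⟨⟨c, hc⟩, (hv _).2 (Or.inr hc1.ge), ?_⟩
      intro h
      have h2 : ∀ b : B, b ∈ P * P → Ge v 2 (b : R) := by
        intro b hb
        refine Submodule.mul_induction_on hb ?_ ?_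
        · intro m hm n hn
          have := ((hv m).1 hm).mul ((hv n).1 hn)
          exact this
        · intro x y hx hy
          exact hx.add hy
      have h3 := (h2 _ h).le_ord hc0
      change 2 ≤ v.ord c at h3
      omega
    · intro P Q hP hQ hPQ
      obtain ⟨v, hvt, hv⟩ := hpl P hP
      obtain ⟨v', hvt', hv'⟩ := hpl Q hQ
      have hvv : v ≠ v' := by
        rintro rfl
        apply hPQ
        ext b
        rw [hv, hv']
      obtain ⟨c, hc, hc0, hc1, hc2⟩ := hsep v v' hvt hvt' hvv
      refine ⟨⟨c, hc⟩, (hv _).2 (Or.inr (by change (1 : ℤ) ≤ v.ord c; omega)), ?_⟩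
      intro h
      have h3 := ((hv' _).1 h).le_ord hc0
      change 1 ≤ v'.ord c at h3
      omega
    · intro P hP b
      obtain ⟨v, hvt, hv⟩ := hpl P hP
      have hbv : (b : R) ∈ v.toValuationSubring :=
        mem_of_ord_nonneg v ((Red.isIntegralElem_iff t htr (b : R)).1 b.2 v hvt)
      obtain ⟨a, ha⟩ := exists_const' v hbv
      refine ⟨⟨algebraMap k R a, C.algebraMap_mem a⟩, ?_⟩
      rw [hv]
      exact ha
  obtain ⟨c, hc⟩ := hsurj ⟨b, hmemB b hb⟩
  have : (c : R) = b := congrArg Subtype.val hc
  rw [← this]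
  exact c.2

end Fermat.Agent.Spec
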