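import Fermat.Agent.Spec.Functor
import Fermat.Agent.Spec.Sep

/-!
# Descent of good reduction: equality of genera
-/

set_option autoImplicit false
set_option linter.style.haveILetI false
set_option linter.unusedSectionVars false

namespace Fermat.Agent.Spec

open AlgebraicCurve Fermat.Agent.RR Fermat.Agent.Curve Fermat.Agent.Red Module IntermediateField

section LL

variable {K F : Type*} [Field K] [Field F] [Algebra K F] {t : F} {P Z : Divisor K F} {d : ℕ}

theorem pz_ne_zero (h : PoleZero t P Z d) (htr : Transcendental K t) : t ≠ 0 := by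
  rintro rfl
  exact htr isAlgebraic_zero

theorem degree_LL (h : PoleZero t P Z d) (a b : ℕ) :
    Divisor.degree (a • P + b • Z + 0) = (a + b) * d := by
  rw [h.degree, map_zero, add_zero]

theorem LL_inf' (h : PoleZero t P Z d) {a b a' b' : ℕ} (ha : a ≤ a') (hb : b ≤ b') :
    LL P Z 0 a b' ⊓ LL P Z 0 a' b = LL P Z 0 a b := by
  apply le_antisymm
  · rintro x ⟨h1, h2⟩
    change x ∈ LL P Z 0 a b' at h1
    change x ∈ LL P Z 0 a' b at h2
    rw [mem_LL] at h1 h2 ⊢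
    intro v
    rcases h1 v with h3 | h3
    · exact Or.inl h3
    rcases h2 v with h4 | h4
    · exact Or.inl h4
    right
    rcases h.or v with ⟨h5, h6⟩ | ⟨h5, h6⟩
    · rw [h5] at h4 ⊢
      linarith
    · rw [h5] at h3 ⊢
      linarith
  · exact le_inf (LL_mono h 0 le_rfl hb) (LL_mono h 0 ha le_rfl)

theorem pz_ord (h : PoleZero t P Z d) (v : Place K F) : v.ord t = Z v - P v := by
  rw [h.hP, h.hZ]; omega

/-- multiplication by `t` -/
theorem t_mul_mem (h : PoleZero t P Z d) (ht : t ≠ 0) {a b : ℕ} {x : F} :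
    t * x ∈ LL P Z 0 (a + 1) b ↔ x ∈ LL P Z 0 a (b + 1) := by
  rw [mem_LL, mem_LL]
  refine forall_congr' fun v => ?_
  rcases eq_or_ne x 0 with rfl | hx
  · simp
  have h1 := pz_ord h v
  rw [v.ord_mul ht hx, h1]
  have h2 : t * x ≠ 0 := mul_ne_zero ht hx
  simp only [h2, hx, false_or, Finsupp.coe_zero, Pi.zero_apply, add_zero]
  push_cast
  constructor <;> intro h3 <;> linarith

theorem t_pow_mul_mem (h : PoleZero t P Z d) (ht : t ≠ 0) {a b : ℕ} (j : ℕ) {x : F} :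
    t ^ j * x ∈ LL P Z 0 (a + j) b ↔ x ∈ LL P Z 0 a (b + j) := by
  induction j generalizing a b x with
  | zero => simp
  | succ j ih =>
    rw [pow_succ', mul_assoc, ← add_assoc, t_mul_mem h ht, ih]
    rw [show b + 1 + j = b + (j + 1) by ring]

theorem LL_succ (h : PoleZero t P Z d) (ht : t ≠ 0) (g : ℤ) (c : ℤ)
    (hc : ∀ D : Divisor K F, c ≤ Divisor.degree D →
    Module.Finite K (riemannRochSpace D) ∧
      (Module.finrank K (riemannRochSpace D) : ℤ) = Divisor.degree D + 1 - g)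
    {a b : ℕ} (hn : c ≤ (a + b) * d) :
    LL P Z 0 (a + 1) (b + 1) ≤ LL P Z 0 a (b + 1) ⊔ LL P Z 0 (a + 1) b := by
  have h1d : (1 : ℤ) ≤ d := by exact_mod_cast h.pos
  have key : ∀ x y : ℕ, a ≤ x → b ≤ y → FiniteDimensional K (LL P Z 0 x y) ∧
      (finrank K (LL P Z 0 x y) : ℤ) = (x + y) * d + 1 - g := by
    intro x y hx hy
    have hx' : (a : ℤ) ≤ x := by exact_mod_cast hx
    have hy' : (b : ℤ) ≤ y := by exact_mod_cast hy
    have e1 := degree_LL h x y
    obtain ⟨h1, h2⟩ := hc (x • P + y • Z + 0) (by rw [e1]; nlinarith)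
    exact ⟨h1, by rw [← e1]; exact h2⟩
  obtain ⟨i1, e1⟩ := key a (b + 1) le_rfl (Nat.le_succ b)
  obtain ⟨i2, e2⟩ := key (a + 1) b (Nat.le_succ a) le_rfl
  obtain ⟨i3, e3⟩ := key a b le_rfl le_rfl
  obtain ⟨i4, e4⟩ := key (a + 1) (b + 1) (Nat.le_succ a) (Nat.le_succ b)
  apply le_of_eq
  symm
  apply Submodule.eq_of_le_of_finrank_eq
  · exact sup_le (LL_mono h 0 (Nat.le_succ a) le_rfl) (LL_mono h 0 le_rfl (Nat.le_succ b))
  · have := Submodule.finrank_sup_add_finrank_inf_eq (LL P Z 0 a (b + 1)) (LL P Z 0 (a + 1) b)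
    rw [LL_inf' h (Nat.le_succ a) (Nat.le_succ b)] at this
    have h5 : ((finrank K ↥(LL P Z 0 a (b + 1) ⊔ LL P Z 0 (a + 1) b) : ℕ) : ℤ) +
      finrank K (LL P Z 0 a b) =
      finrank K (LL P Z 0 a (b + 1)) + finrank K (LL P Z 0 (a + 1) b) := by exact_mod_cast this
    rw [e1, e2, e3] at h5
    have h6 : ((finrank K ↥(LL P Z 0 a (b + 1) ⊔ LL P Z 0 (a + 1) b) : ℕ) : ℤ) =
        finrank K (LL P Z 0 (a + 1) (b + 1)) := by
      rw [e4]; push_cast at h5 ⊢; linarith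
    exact_mod_cast h6

theorem LL_le_of_mul (h : PoleZero t P Z d) (ht : t ≠ 0) (g : ℤ) (c : ℤ)
    (hc : ∀ D : Divisor K F, c ≤ Divisor.degree D →
    Module.Finite K (riemannRochSpace D) ∧
      (Module.finrank K (riemannRochSpace D) : ℤ) = Divisor.degree D + 1 - g)
    {n : ℕ} (hn : c ≤ (n + n) * d) (i : ℕ) (U : Submodule K F)
    (hU : ∀ j ≤ i, ∀ x ∈ LL P Z 0 n (n + 1), t ^ j * x ∈ U) : LL P Z 0 (n + i) (n + 1) ≤ U := by
  induction i generalizing U with
  | zero =>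
    intro x hx
    have := hU 0 le_rfl x hx
    rwa [pow_zero, one_mul] at this
  | succ i ih =>
    intro x hx
    rw [← add_assoc] at hx
    have h1d : (1 : ℤ) ≤ d := by exact_mod_cast h.pos
    have h1 := LL_succ h ht g c hc (a := n + i) (b := n) (by
      push_cast
      have : (0 : ℤ) ≤ i := Int.natCast_nonneg i
      nlinarith) hx
    obtain ⟨y, hy, z, hz, rfl⟩ := Submodule.mem_sup.1 h1
    refine U.add_mem (ih U (fun j hj => hU j (hj.trans (Nat.le_succ i))) hy) ?_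
    have hz' : t⁻¹ * z ∈ LL P Z 0 (n + i) (n + 1) := by
      rw [← t_mul_mem h ht, mul_inv_cancel_left₀ ht]
      exact hz
    have h2 := ih (U.comap (LinearMap.mulLeft K t)) (by
      intro j hj x hx
      change t * (t ^ j * x) ∈ U
      rw [← mul_assoc, ← pow_succ']
      exact hU (j + 1) (Nat.succ_le_succ hj) x hx) hz'
    change t * (t⁻¹ * z) ∈ U at h2
    rwa [mul_inv_cancel_left₀ ht] at h2

end LL

variable {A K F k R : Type*} [CommRing A] [IsDomain A] [ValuationRing A]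
  [Field K] [Algebra A K] [IsFractionRing A K] [Field F] [Algebra K F] [Algebra A F]
  [IsScalarTower A K F] [Field k] [Algebra A k] [Field R] [Algebra k R] [Algebra A R]
  [IsScalarTower A k R]

section Inv

variable {ι : Type*} [Fintype ι] {G : GaussData A K F k R ι}
    {P Z : Divisor K F} {Pk Zk : Divisor k R} {d : ℕ} {g gk : ℤ}

theorem pz_inv {K F : Type*} [Field K] [Field F] [Algebra K F] {t : F} {P Z : Divisor K F} {d : ℕ}
    (h : PoleZero t P Z d) : PoleZero t⁻¹ Z P d where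
  hP v := by rw [v.ord_inv, neg_neg]; exact h.hZ v
  hZ v := by rw [v.ord_inv]; exact h.hP v
  dP := h.dZ
  dZ := h.dP
  pos := h.pos

/-- the fibre hypotheses for `t⁻¹` -/
theorem FibreHyp.inv (H : FibreHyp G P Z Pk Zk d g gk) : FibreHyp G.inv Z P Zk Pk d g gk where
  hk := H.hk
  hspan := G.inv_hspan H.hspan
  tr := Red.transcendental_inv H.tr
  trk := by
    have : G.inv.π ⟨G.inv.t, G.inv.ht⟩ = (G.π ⟨G.t, G.ht⟩)⁻¹ := FibreHyp.π_inv_t_eq G
    rw [this]
    exact Red.transcendental_inv H.trk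
  fin := by
    change FiniteDimensional K⟮G.t⁻¹⟯ F
    rw [Red.adjoin_inv]; exact H.fin
  sep := by
    change Algebra.IsSeparable K⟮G.t⁻¹⟯ F
    rw [Red.adjoin_inv]; exact H.sep
  fink := by
    have : G.inv.π ⟨G.inv.t, G.inv.ht⟩ = (G.π ⟨G.t, G.ht⟩)⁻¹ := FibreHyp.π_inv_t_eq G
    rw [this, Red.adjoin_inv]; exact H.fink
  sepk := by
    have : G.inv.π ⟨G.inv.t, G.inv.ht⟩ = (G.π ⟨G.t, G.ht⟩)⁻¹ := FibreHyp.π_inv_t_eq G
    rw [this, Red.adjoin_inv]; exact H.sepk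
  pz := pz_inv H.pz
  pzk := by
    have : G.inv.π ⟨G.inv.t, G.inv.ht⟩ = (G.π ⟨G.t, G.ht⟩)⁻¹ := FibreHyp.π_inv_t_eq G
    rw [this]
    exact pz_inv H.pzk
  rr := H.rr
  rrk := H.rrk

end Inv

section Chart

variable {ι : Type*} [Fintype ι] {G : GaussData A K F k R ι}
    {P Z : Divisor K F} {Pk Zk : Divisor k R} {d : ℕ} {g gk : ℤ}

/-- the reduction of the ring of functions regular outside the poles of `t` -/
noncomputable def chart (H : FibreHyp G P Z Pk Zk d g gk) : Subalgebra k R where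
  carrier := {y | ∃ a : ℕ, y ∈ H.M.rd H.hk (LL P Z 0 a 0)}
  mul_mem' := by
    rintro x y ⟨a, x, hx, rfl⟩ ⟨b, y, hy, rfl⟩
    refine ⟨a + b, x * y, ⟨H.M.W.mul_mem hx.1 hy.1, ?_⟩, map_mul H.M.π ⟨x, hx.1⟩ ⟨y, hy.1⟩⟩
    have := LL_mul hx.2 hy.2
    rwa [add_zero, add_zero] at this
  add_mem' := by
    rintro x y ⟨a, hx⟩ ⟨b, hy⟩
    exact ⟨a + b, Submodule.add_mem _
      (H.M.rd_mono H.hk (LL_mono H.pz 0 (Nat.le_add_right a b) le_rfl) hx)
      (H.M.rd_mono H.hk (LL_mono H.pz 0 (Nat.le_add_left b a) le_rfl) hy)⟩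
  algebraMap_mem' := by
    intro c
    refine ⟨0, ?_⟩
    rw [Algebra.algebraMap_eq_smul_one]
    refine Submodule.smul_mem _ _ ⟨1, ⟨H.M.W.one_mem, ?_⟩, map_one H.M.π⟩
    change (1 : F) ∈ LL P Z 0 0 0
    rw [mem_LL]
    intro v
    right
    simp [v.ord_one]

theorem mem_chart (H : FibreHyp G P Z Pk Zk d g gk) {y : R} : y ∈ chart H ↔
    ∃ a : ℕ, y ∈ H.M.rd H.hk (LL P Z 0 a 0) := Iff.rfl

theorem Pk_eq_zero (H : FibreHyp G P Z Pk Zk d g gk) {v : Place k R}
    (hv : 0 ≤ v.ord (G.π ⟨G.t, G.ht⟩)) : Pk v = 0 := by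
  rw [H.pzk.hP]
  exact max_eq_right (by omega)

theorem chart_regular (H : FibreHyp G P Z Pk Zk d g gk) {y : R} (hy : y ∈ chart H) {v : Place k R}
    (hv : 0 ≤ v.ord (G.π ⟨G.t, G.ht⟩)) : 0 ≤ v.ord y := by
  obtain ⟨a, hy⟩ := hy
  have h1 := H.rd_le a 0 hy
  rw [mem_LL] at h1
  rcases h1 v with h2 | h2
  · rw [h2, v.ord_zero]
  · rw [Pk_eq_zero H hv] at h2
    simpa using h2

theorem t_mem_chart (H : FibreHyp G P Z Pk Zk d g gk) : G.π ⟨G.t, G.ht⟩ ∈ chart H := by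
  refine ⟨1, G.t, ⟨G.ht, ?_⟩, rfl⟩
  change G.t ∈ LL P Z 0 1 0
  rw [mem_LL]
  intro v
  right
  rw [pz_ord H.pz]
  have h1 : 0 ≤ Z v := by rw [H.pz.hZ]; exact le_max_right _ _
  simp only [Nat.cast_one, one_mul, Nat.cast_zero, zero_mul, add_zero, Finsupp.coe_zero,
    Pi.zero_apply]
  omega

/-- reductions of Riemann-Roch spaces of multiples of the poles and zeros -/
theorem rd_eq_LL (H : FibreHyp G P Z Pk Zk d g g) : ∃ n0 : ℕ, ∀ a b, n0 ≤ a + b →
    H.M.rd H.hk (LL P Z 0 a b) = LL Pk Zk 0 a b := by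
  obtain ⟨c, hc⟩ := H.rr
  obtain ⟨ck, hck⟩ := H.rrk
  have hd : (1 : ℤ) ≤ d := by exact_mod_cast H.pz.pos
  refine ⟨(max c ck).toNat, fun a b hab => ?_⟩
  have h1 : max c ck ≤ ((a + b : ℕ) : ℤ) := Int.toNat_le.1 hab
  push_cast at h1
  have h2 : (0 : ℤ) ≤ a + b := by positivity
  have h3 : (a : ℤ) + b ≤ (a + b) * d := by nlinarith
  have e0 := degree_LL H.pz a b
  have e0' := degree_LL H.pzk a b
  have e1 := hc (a • P + b • Z + 0) (by rw [e0]; exact (le_max_left c ck).trans (h1.trans h3))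
  have e1' := hck (a • Pk + b • Zk + 0) (by
    rw [e0']; exact (le_max_right c ck).trans (h1.trans h3))
  haveI : FiniteDimensional k (LL Pk Zk 0 a b) := e1'.1
  haveI : FiniteDimensional K (LL P Z 0 a b) := e1.1
  apply Submodule.eq_of_le_of_finrank_eq (H.rd_le a b)
  rw [H.M.finrank_rd H.hk]
  have h4 := e1.2
  have h5 := e1'.2
  rw [e0] at h4
  rw [e0'] at h5
  have : (finrank K (LL P Z 0 a b) : ℤ) = finrank k (LL Pk Zk 0 a b) := by
    rw [h4, h5]
  exact_mod_cast this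

/-- functions regular outside the poles of `t` lie in some `L(aP)` -/
theorem exists_mem_LL [IsAlgClosed k] [FunField k R] (H : FibreHyp G P Z Pk Zk d g gk) {y : R}
    (hy : ∀ v : Place k R, 0 ≤ v.ord (G.π ⟨G.t, G.ht⟩) → 0 ≤ v.ord y) :
    ∃ a : ℕ, y ∈ LL Pk Zk 0 a 0 := by
  classical
  let a : ℕ := (Divisor.degree (poleDiv k y)).toNat
  have ha : Divisor.degree (poleDiv k y) ≤ a := Int.self_le_toNat _
  refine ⟨a, ?_⟩
  rw [mem_LL]
  intro v
  right
  simp only [Nat.cast_zero, zero_mul, add_zero, Finsupp.coe_zero, Pi.zero_apply]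
  rcases le_or_gt 0 (v.ord (G.π ⟨G.t, G.ht⟩)) with hv | hv
  · rw [Pk_eq_zero H hv, mul_zero, neg_zero]
    exact hy v hv
  · have h1 : 1 ≤ Pk v := by
      rw [H.pzk.hP]
      have := le_max_left (-v.ord (G.π ⟨G.t, G.ht⟩)) 0
      omega
    have h2 : poleDiv k y v ≤ Divisor.degree (poleDiv k y) := by
      have h3 : Finsupp.single v (poleDiv k y v) ≤ poleDiv k y := by
        intro w
        rw [Finsupp.single_apply]
        split_ifs with h
        · rw [h]
        · exact poleDiv_nonneg y w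
      have := degree_mono h3
      rwa [degree_single'] at this
    have h3 : -v.ord y ≤ poleDiv k y v := by rw [poleDiv_apply]; exact le_max_left _ _
    have h4 : (0 : ℤ) ≤ a := Int.natCast_nonneg a
    nlinarith

end Chart

section Descent

variable {F' R' : Type*} [Field F'] [Algebra K F'] [Algebra A F'] [IsScalarTower A K F']
  [Field R'] [Algebra k R'] [Algebra A R'] [IsScalarTower A k R']
  [IsAlgClosed K] [IsAlgClosed k] [FunField K F] [FunField k R] [FunField K F'] [FunField k R']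
  {ι ι' : Type*} [Fintype ι] [Fintype ι'] {G : GaussData A K F k R ι} {G' : GaussData A K F' k R' ι'}
  {P Z : Divisor K F} {Pk Zk : Divisor k R} {d : ℕ} {g gk : ℤ}
  {P' Z' : Divisor K F'} {Pk' Zk' : Divisor k R'} {d' : ℕ} {g' : ℤ}
  (H : FibreHyp G P Z Pk Zk d g gk) (H' : FibreHyp G' P' Z' Pk' Zk' d' g' g')
  [Algebra F F'] [IsScalarTower K F F'] [Algebra R R'] [IsScalarTower k R R']
  [FiniteDimensional F F'] [FiniteDimensional R R']
  [Algebra.IsSeparable F F'] [Algebra.IsSeparable R R']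
  (hc : Compat H.M H'.M) (hrank : finrank F F' = finrank R R')
  (ht : algebraMap F F' G.t = G'.t)
  (htk : algebraMap R R' (G.π ⟨G.t, G.ht⟩) = G'.π ⟨G'.t, G'.ht⟩)

include hc hrank ht in
/-- norms of regular functions are reductions -/
theorem norm_mem_chart {u : R'} (hu0 : u ≠ 0)
    (hu : ∀ w : Place k R', 0 ≤ w.ord (G'.π ⟨G'.t, G'.ht⟩) → 0 ≤ w.ord u) :
    Algebra.norm R u ∈ chart H := by
  haveI : HasPrincipalDivisors K F' := hasPrincipalDivisors'
  haveI : Algebra.IsIntegral F F' := inferInstance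
  obtain ⟨a, ha⟩ := exists_mem_LL H' hu
  obtain ⟨n0, hn0⟩ := rd_eq_LL H'
  have h1 : u ∈ H'.M.rd H'.hk (LL P' Z' 0 (max a n0) 0) := by
    rw [hn0 _ _ (by omega)]
    exact LL_mono H'.pzk 0 (le_max_left _ _) le_rfl ha
  obtain ⟨x, hx, hxu⟩ := h1
  obtain ⟨h2, h3⟩ := norm_red H.M H'.M H.hk hc (FibreHyp.divRed H').π_surjective hrank hx.1
  rw [hxu] at h3
  refine ⟨max a n0 * finrank F F', Algebra.norm F x, ⟨h2, ?_⟩, h3⟩
  have hx0 : x ≠ 0 := by
    rintro rfl
    apply hu0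
    rw [← hxu]
    have : (⟨0, hx.1⟩ : H'.M.W) = 0 := rfl
    rw [this, map_zero]
  have hxL : x ∈ LL P' Z' 0 (max a n0) 0 := hx.2
  change Algebra.norm F x ∈ LL P Z 0 _ 0
  rw [mem_LL] at hxL ⊢
  intro v
  right
  rw [ord_norm v hx0, Nat.cast_mul, ← sum_ramificationIndex v]
  simp only [Nat.cast_zero, zero_mul, add_zero, Finsupp.coe_zero, Pi.zero_apply]
  rw [Finset.mul_sum, Finset.sum_mul, ← Finset.sum_neg_distrib]
  refine Finset.sum_le_sum fun w hw => ?_
  have h4 := (hxL w).resolve_left hx0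
  simp only [Nat.cast_zero, zero_mul, add_zero, Finsupp.coe_zero, Pi.zero_apply] at h4
  have h5 : P' w = w.ramificationIndex F * P v := by
    rw [H'.pz.hP, H.pz.hP, ← ht, w.ord_restrict, Place.mem_fiber.1 hw,
      mul_max_of_nonneg _ _ (Int.natCast_nonneg _), mul_zero, mul_neg]
  rw [h5] at h4
  linarith

include H' hc hrank ht htk in
/-- separation of places by reductions -/
theorem exists_chart_sep (v v' : Place k R) (hv : 0 ≤ v.ord (G.π ⟨G.t, G.ht⟩))
    (hv' : 0 ≤ v'.ord (G.π ⟨G.t, G.ht⟩)) :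
    ∃ c ∈ chart H, c ≠ 0 ∧ v.ord c = 1 ∧ (v ≠ v' → v'.ord c = 0) := by
  classical
  haveI : HasPrincipalDivisors k R' := hasPrincipalDivisors'
  haveI : Algebra.IsIntegral R R' := inferInstance
  obtain ⟨w0, hw0⟩ : (v.fiber R').Nonempty := by
    rw [Finset.nonempty_iff_ne_empty]
    intro h
    have h1 := sum_ramificationIndex (F' := R') v
    rw [h, Finset.sum_empty] at h1
    have h2 : 0 < finrank R R' := finrank_pos
    omega
  have hfin : ∀ (v : Place k R), 0 ≤ v.ord (G.π ⟨G.t, G.ht⟩) → ∀ w ∈ v.fiber R', Pk' w = 0 := by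
    intro v hv w hw
    apply Pk_eq_zero H'
    rw [← htk, w.ord_restrict, Place.mem_fiber.1 hw]
    exact mul_nonneg (Int.natCast_nonneg _) hv
  obtain ⟨c, hct⟩ := exists_tight k R'
  let m : ℕ := (c + 1).toNat
  let E : Divisor k R' := m • Pk' - Finsupp.single w0 1
  have hE : c ≤ Divisor.degree E := by
    rw [map_sub, map_nsmul, H'.pzk.dP, degree_single', nsmul_eq_mul]
    have h1 : c + 1 ≤ m := Int.self_le_toNat _
    have h2 : (1 : ℤ) ≤ d' := by exact_mod_cast H'.pz.pos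
    have h3 : (0 : ℤ) ≤ m := Int.natCast_nonneg _
    nlinarith
  obtain ⟨y, hy, hy0, hyS⟩ := hct E hE (v.fiber R' ∪ v'.fiber R')
  have hEw : ∀ w, Pk' w = 0 → -E w = Finsupp.single w0 1 w := by
    intro w hw
    rw [Finsupp.sub_apply, Finsupp.smul_apply, hw, smul_zero]
    ring
  refine ⟨Algebra.norm R y, norm_mem_chart H H' hc hrank ht hy0 ?_,
    Algebra.norm_ne_zero_iff.2 hy0, ?_, ?_⟩
  · intro w hw
    have h1 := (mem_L.1 hy w).le_ord hy0
    rw [hEw w (Pk_eq_zero H' hw)] at h1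
    refine le_trans ?_ h1
    exact single_le_of_nonneg w0 w
  · rw [ord_norm v hy0, Finset.sum_eq_single_of_mem w0 hw0]
    · rw [hyS w0 (Finset.mem_union_left _ hw0), hEw w0 (hfin v hv w0 hw0), Finsupp.single_eq_same]
    · intro w hw hww
      rw [hyS w (Finset.mem_union_left _ hw), hEw w (hfin v hv w hw),
        Finsupp.single_eq_of_ne hww]
  · intro hvv
    rw [ord_norm v' hy0]
    refine Finset.sum_eq_zero fun w hw => ?_
    rw [hyS w (Finset.mem_union_right _ hw), hEw w (hfin v' hv' w hw), Finsupp.single_eq_of_ne]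
    rintro rfl
    exact hvv ((Place.mem_fiber.1 hw0).symm.trans (Place.mem_fiber.1 hw))

include H' hc hrank ht htk in
theorem mem_chart_of_regular {y : R}
    (hy : ∀ v : Place k R, 0 ≤ v.ord (G.π ⟨G.t, G.ht⟩) → 0 ≤ v.ord y) : y ∈ chart H := by
  haveI := H.fink
  haveI := H.sepk
  refine mem_of_separates (G.π ⟨G.t, G.ht⟩) H.trk (chart H) (t_mem_chart H)
    (fun c hc v hv => chart_regular H hc hv) ?_ ?_ y hy
  · intro v hv
    obtain ⟨c, hcc, hc0, hc1, -⟩ := exists_chart_sep H H' hc hrank ht htk v v hv hv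
    exact ⟨c, hcc, hc0, hc1⟩
  · intro v v' hv hv' hvv
    obtain ⟨c, hcc, hc0, hc1, hc2⟩ := exists_chart_sep H H' hc hrank ht htk v v' hv hv'
    exact ⟨c, hcc, hc0, by omega, hc2 hvv⟩

/-- a finite dimensional space in an increasing union -/
theorem exists_le_of_union {k R : Type*} [Field k] [Field R] [Algebra k R] (L : Submodule k R)
    [FiniteDimensional k L] (U : ℕ → Submodule k R) (hU : Monotone U)
    (h : ∀ y ∈ L, ∃ a, y ∈ U a) : ∃ a, ∀ b, a ≤ b → L ≤ U b := by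
  let b := Module.finBasis k L
  choose a ha using fun i => h (b i : R) (b i).2
  refine ⟨Finset.univ.sup a, fun m hm x hx => ?_⟩
  have h1 : x = ∑ i, b.repr ⟨x, hx⟩ i • (b i : R) := by
    have := congrArg L.subtype (b.sum_repr ⟨x, hx⟩)
    rw [map_sum] at this
    exact this.symm
  rw [h1]
  refine Submodule.sum_mem _ fun i _ => Submodule.smul_mem _ _ ?_
  exact hU ((Finset.le_sup (Finset.mem_univ i)).trans hm) (ha i)

include H' hc hrank ht htk in
/-- **Descent of good reduction**: the genera agree. -/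
theorem genus_eq_of_descent : gk = g := by
  have hMinv : Compat (FibreHyp.inv H).M (FibreHyp.inv H').M := hc
  have htinv : algebraMap F F' G.inv.t = G'.inv.t := by
    change algebraMap F F' G.t⁻¹ = G'.t⁻¹
    rw [map_inv₀, ht]
  have hti : G.inv.π ⟨G.inv.t, G.inv.ht⟩ = (G.π ⟨G.t, G.ht⟩)⁻¹ := FibreHyp.π_inv_t_eq G
  have hti' : G'.inv.π ⟨G'.inv.t, G'.inv.ht⟩ = (G'.π ⟨G'.t, G'.ht⟩)⁻¹ := FibreHyp.π_inv_t_eq G'
  have htkinv : algebraMap R R' (G.inv.π ⟨G.inv.t, G.inv.ht⟩) = G'.inv.π ⟨G'.inv.t, G'.inv.ht⟩ := by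
    rw [hti, hti', map_inv₀, htk]
  have ht0 : G.t ≠ 0 := pz_ne_zero H.pz H.tr
  have htk0 : G.π ⟨G.t, G.ht⟩ ≠ 0 := pz_ne_zero H.pzk H.trk
  obtain ⟨c, hcK⟩ := H.rr
  obtain ⟨ck, hck⟩ := H.rrk
  have hd : (1 : ℤ) ≤ d := by exact_mod_cast H.pz.pos
  let n : ℕ := (max c ck).toNat
  have hn : max c ck ≤ n := Int.self_le_toNat _
  have hnn : (0 : ℤ) ≤ n := Int.natCast_nonneg n
  have hnd : (n : ℤ) ≤ (n + n) * d := by nlinarith
  let V : ℕ → ℕ → Submodule k R := fun a b => H.M.rd H.hk (LL P Z 0 a b)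
  have hVmono : ∀ {a b a' b' : ℕ}, a ≤ a' → b ≤ b' → V a b ≤ V a' b' := fun h1 h2 =>
    H.M.rd_mono H.hk (LL_mono H.pz 0 h1 h2)
  have hVt : ∀ {a b : ℕ} (j : ℕ) {y : R}, y ∈ V a (b + j) →
      (G.π ⟨G.t, G.ht⟩) ^ j * y ∈ V (a + j) b := by
    rintro a b j _ ⟨x, hx, rfl⟩
    exact ⟨G.t ^ j * x, ⟨H.M.W.mul_mem (pow_mem G.ht j) hx.1,
      (t_pow_mul_mem H.pz ht0 j).2 hx.2⟩, by
        have : (⟨G.t ^ j * x, H.M.W.mul_mem (pow_mem G.ht j) hx.1⟩ : G.W) =
          ⟨G.t, G.ht⟩ ^ j * ⟨x, hx.1⟩ := rfl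
        change G.π ⟨G.t ^ j * x, H.M.W.mul_mem (pow_mem G.ht j) hx.1⟩ = _
        rw [this, map_mul, map_pow]
        rfl⟩
  have hVt' : ∀ {a b : ℕ} (j : ℕ) {y : R}, y ∈ V (a + j) b →
      (G.π ⟨G.t, G.ht⟩)⁻¹ ^ j * y ∈ V a (b + j) := by
    rintro a b j _ ⟨x, hx, rfl⟩
    refine ⟨G.t⁻¹ ^ j * x, ⟨H.M.W.mul_mem (pow_mem G.inv_t_mem j) hx.1, ?_⟩, ?_⟩
    · have h1 := hx.2
      change x ∈ LL P Z 0 (a + j) b at h1
      change G.t⁻¹ ^ j * x ∈ LL P Z 0 a (b + j)
      rw [← t_pow_mul_mem H.pz ht0 j, ← mul_assoc, ← mul_pow, mul_inv_cancel₀ ht0, one_pow, one_mul]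
      exact h1
    · have : (⟨G.t⁻¹ ^ j * x, H.M.W.mul_mem (pow_mem G.inv_t_mem j) hx.1⟩ : G.W) =
          ⟨G.t⁻¹, G.inv_t_mem⟩ ^ j * ⟨x, hx.1⟩ := rfl
      change G.π ⟨G.t⁻¹ ^ j * x, H.M.W.mul_mem (pow_mem G.inv_t_mem j) hx.1⟩ = _
      rw [this, map_mul, map_pow, FibreHyp.π_inv_t_eq]
      rfl
  haveI : FiniteDimensional k (LL Pk Zk 0 n (n + 1)) := H.finiteDimensional_LLk 0 n (n + 1)
  -- first chart
  obtain ⟨m1, hm1⟩ := exists_le_of_union (LL Pk Zk 0 n (n + 1)) (fun a => V a (n + 1))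
    (fun a b hab => hVmono hab le_rfl) (by
      intro y hy
      have h1 : (G.π ⟨G.t, G.ht⟩) ^ (n + 1) * y ∈ LL Pk Zk 0 (n + (n + 1)) 0 :=
        (t_pow_mul_mem H.pzk htk0 (n + 1)).2 (by rwa [Nat.zero_add])
      obtain ⟨a, ha⟩ := mem_chart_of_regular H H' hc hrank ht htk
        (y := (G.π ⟨G.t, G.ht⟩) ^ (n + 1) * y) (by
          intro v hv
          rw [mem_LL] at h1
          rcases h1 v with h2 | h2
          · rw [h2, v.ord_zero]
          · rw [Pk_eq_zero H hv] at h2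
            simpa using h2)
      refine ⟨a, ?_⟩
      have h2 := hVt' (a := a) (b := 0) (n + 1) (hVmono (Nat.le_add_right a (n + 1)) le_rfl ha)
      rwa [← mul_assoc, ← mul_pow, inv_mul_cancel₀ htk0, one_pow, one_mul, Nat.zero_add] at h2)
  -- second chart
  obtain ⟨m2, hm2⟩ := exists_le_of_union (LL Pk Zk 0 n (n + 1)) (fun b => V n b)
    (fun a b hab => hVmono le_rfl hab) (by
      intro y hy
      have h1 : (G.π ⟨G.t, G.ht⟩)⁻¹ ^ n * y ∈ LL Pk Zk 0 0 (n + 1 + n) := by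
        rw [← t_pow_mul_mem H.pzk htk0 n, ← mul_assoc, ← mul_pow, mul_inv_cancel₀ htk0, one_pow,
          one_mul, Nat.zero_add]
        exact hy
      obtain ⟨b, hb⟩ := mem_chart_of_regular (FibreHyp.inv H) (FibreHyp.inv H') hMinv hrank htinv
        htkinv (y := (G.π ⟨G.t, G.ht⟩)⁻¹ ^ n * y) (by
          intro v hv
          rw [hti] at hv
          rw [mem_LL] at h1
          rcases h1 v with h2 | h2
          · rw [h2, v.ord_zero]
          · have h3 : Zk v = 0 := by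
              rw [H.pzk.hZ]
              rw [v.ord_inv] at hv
              exact max_eq_right (by omega)
            rw [h3] at h2
            simpa using h2)
      have hb' : (G.π ⟨G.t, G.ht⟩)⁻¹ ^ n * y ∈ V 0 b := by
        obtain ⟨x, hx, hxy⟩ := hb
        refine ⟨x, ⟨hx.1, ?_⟩, hxy⟩
        have h2 : x ∈ LL Z P 0 b 0 := hx.2
        change x ∈ LL P Z 0 0 b
        rw [LL] at h2 ⊢
        rwa [add_comm (0 • P) (b • Z)]
      refine ⟨b, ?_⟩
      have h2 := hVt (a := 0) (b := b) n (hVmono le_rfl (Nat.le_add_right b n) hb')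
      rwa [← mul_assoc, ← mul_pow, mul_inv_cancel₀ htk0, one_pow, one_mul, Nat.zero_add] at h2)
  let m : ℕ := max m1 m2
  have hA : LL Pk Zk 0 n (n + 1) ≤ V (n + m) (n + 1) := hm1 _ (by omega)
  have hB : LL Pk Zk 0 n (n + 1) ≤ V n (n + 1 + m) := hm2 _ (by omega)
  have hle : LL Pk Zk 0 (n + 2 * m) (n + 1) ≤ V (n + 2 * m) (n + 1) := by
    apply LL_le_of_mul H.pzk htk0 gk ck hck (by linarith [le_max_right c ck])
    intro j hj x hx
    rcases le_total j m with h | h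
    · have h1 := hVt (a := n + m) (b := n + 1) j (hVmono le_rfl (Nat.le_add_right _ _) (hA hx))
      exact hVmono (by omega) le_rfl h1
    · have h1 := hVt (a := n) (b := n + 1) j (hVmono le_rfl (by omega) (hB hx))
      exact hVmono (by omega) le_rfl h1
  have heq : V (n + 2 * m) (n + 1) = LL Pk Zk 0 (n + 2 * m) (n + 1) :=
    le_antisymm (H.rd_le _ _) hle
  have e0 := degree_LL H.pz (n + 2 * m) (n + 1)
  have e0' := degree_LL H.pzk (n + 2 * m) (n + 1)
  have hbig : max c ck ≤ (((n + 2 * m : ℕ) : ℤ) + ((n + 1 : ℕ) : ℤ)) * d := by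
    push_cast
    have : (0 : ℤ) ≤ m := Int.natCast_nonneg m
    nlinarith
  have e1 := (hcK _ (by rw [e0]; exact (le_max_left c ck).trans hbig)).2
  have e2 := (hck _ (by rw [e0']; exact (le_max_right c ck).trans hbig)).2
  haveI : FiniteDimensional K (LL P Z 0 (n + 2 * m) (n + 1)) := H.finiteDimensional_LL 0 _ _
  have e3 : finrank k (LL Pk Zk 0 (n + 2 * m) (n + 1)) = finrank K (LL P Z 0 (n + 2 * m) (n + 1)) := by
    rw [← heq]
    exact H.M.finrank_rd H.hk _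
  rw [e0] at e1
  rw [e0'] at e2
  have e4 : (finrank k (LL Pk Zk 0 (n + 2 * m) (n + 1)) : ℤ) =
      finrank K (LL P Z 0 (n + 2 * m) (n + 1)) := by exact_mod_cast e3
  change (finrank k (LL Pk Zk 0 (n + 2 * m) (n + 1)) : ℤ) = _ at e2
  change (finrank K (LL P Z 0 (n + 2 * m) (n + 1)) : ℤ) = _ at e1
  rw [e1, e2] at e4
  linarith

end Descent

end Fermat.Agent.Spec
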