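import Fermat.Agent.Spec.Level
import Fermat.Agent.RR.HeckeInputs

/-!
# The degeneracy maps at the level of modular function fields in any characteristic
-/

set_option autoImplicit false
set_option linter.style.haveILetI false
set_option linter.unusedSectionVars false

noncomputable section

namespace Fermat.Agent.Spec

open ModularCurve Polynomial IntermediateField Fermat.Agent.ModPoly Fermat.Agent.Red AlgebraicCurve
open Fermat.Agent.RR Fermat.Agent.Cusp Fermat.Agent.RedMod

section Conj

variable {K F F' F₁ F₁' : Type*} [Field K] [Field F] [Field F'] [Field F₁] [Field F₁']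
  [Algebra K F] [Algebra K F'] [Algebra K F₁] [Algebra K F₁']
  (e : F₁ ≃ₐ[K] F) (e' : F' ≃ₐ[K] F₁') (φ : F →ₐ[K] F') (ψ : F₁ →ₐ[K] F₁')
  (h : ∀ x, ψ x = e' (φ (e x)))

include h in
theorem conj_comm : letI := algebraAlong φ; letI := algebraAlong ψ;
    RingHom.comp (algebraMap F₁ F₁') (e.symm.toRingEquiv : F →+* F₁) =
      RingHom.comp (e'.toRingEquiv : F' →+* F₁') (algebraMap F F') := by
  letI := algebraAlong φ
  letI := algebraAlong ψ
  ext x
  change ψ (e.symm x) = e' (φ x)
  rw [h, AlgEquiv.apply_symm_apply]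

include h in
theorem finrankAlong_conj : finrankAlong K ψ = finrankAlong K φ := by
  letI := algebraAlong φ
  letI := algebraAlong ψ
  exact (Algebra.finrank_eq_of_equiv_equiv e.symm.toRingEquiv e'.toRingEquiv
    (conj_comm e e' φ ψ h)).symm

include h in
theorem finiteAlong_conj (hφ : FiniteAlong K φ) : FiniteAlong K ψ := by
  letI := algebraAlong φ
  letI := algebraAlong ψ
  haveI : Module.Finite F F' := hφ
  exact Module.Finite.of_equiv_equiv e.symm.toRingEquiv e'.toRingEquiv (conj_comm e e' φ ψ h)

include h in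
theorem separableAlong_conj (hφ : SeparableAlong K φ) : SeparableAlong K ψ := by
  letI := algebraAlong φ
  letI := algebraAlong ψ
  haveI : Algebra.IsSeparable F F' := hφ
  exact Algebra.IsSeparable.of_equiv_equiv e.symm.toRingEquiv e'.toRingEquiv
    (conj_comm e e' φ ψ h)

end Conj

section Beta

variable {k : Type*} [Field k] {N : ℕ} [NeZero N] (q : ℕ) [NeZero q]

theorem qExpand_Jc (m : ℕ+) : qExpand k q (Jc 1 m) = Jc 1 (pn q * m) := by
  rw [← Sb_one_eq q (pn q) (coe_pn q), Sb_Jc, one_pow, one_mul]

theorem qExpand_mem_FF (x : FF k N) : qExpand k q (x : LaurentSeries k) ∈ FF k (N * q) := by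
  have h4 : x ∈ IntermediateField.adjoin k
      {x : FF k N | ∃ (m : ℕ+) (hm : (m : ℕ) ∣ N), x = jm k m hm} := by
    rw [adjoin_jm_eq_top]; exact IntermediateField.mem_top
  induction h4 using IntermediateField.adjoin_induction with
  | mem x hx =>
    obtain ⟨m, hm, rfl⟩ := hx
    change qExpand k q (Jc 1 m) ∈ _
    rw [qExpand_Jc]
    apply Jc_one_mem
    rw [PNat.mul_coe, coe_pn, mul_comm]
    exact Nat.mul_dvd_mul_right hm q
  | algebraMap x =>
    have : qExpand k q ((algebraMap k (FF k N) x : FF k N) : LaurentSeries k) =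
        algebraMap k (LaurentSeries k) x := by
      change qExpand k q (algebraMap k (LaurentSeries k) x) = _
      rw [algebraMap_laurentSeries_eq_single, qExpand_single, mul_zero]
    rw [this]
    exact (FF k (N * q)).algebraMap_mem x
  | add x y _ _ hx hy =>
    have : qExpand k q ((x + y : FF k N) : LaurentSeries k) =
      qExpand k q (x : LaurentSeries k) + qExpand k q (y : LaurentSeries k) := map_add _ _ _
    rw [this]
    exact add_mem hx hy
  | inv x _ hx =>
    have : qExpand k q ((x⁻¹ : FF k N) : LaurentSeries k) =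
      (qExpand k q (x : LaurentSeries k))⁻¹ := map_inv₀ _ _
    rw [this]
    exact inv_mem hx
  | mul x y _ _ hx hy =>
    have : qExpand k q ((x * y : FF k N) : LaurentSeries k) =
      qExpand k q (x : LaurentSeries k) * qExpand k q (y : LaurentSeries k) := map_mul _ _ _
    rw [this]
    exact mul_mem hx hy

variable (k N) in
/-- the second degeneracy map `f(q) ↦ f(q^q')` -/
def betaFF : FF k N →ₐ[k] FF k (N * q) where
  toFun x := ⟨qExpand k q (x : LaurentSeries k), qExpand_mem_FF q x⟩
  map_one' := Subtype.ext (map_one (qExpand k q))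
  map_zero' := Subtype.ext (map_zero (qExpand k q))
  map_mul' x y := Subtype.ext (map_mul (qExpand k q) _ _)
  map_add' x y := Subtype.ext (map_add (qExpand k q) _ _)
  commutes' a := Subtype.ext (by
    change qExpand k q (algebraMap k (LaurentSeries k) a) = algebraMap k (LaurentSeries k) a
    rw [algebraMap_laurentSeries_eq_single, qExpand_single, mul_zero])

theorem coe_betaFF (x : FF k N) : (betaFF k N q x : LaurentSeries k) = qExpand k q x := rfl

variable (k N) in
/-- the first degeneracy map, the inclusion -/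
def alphaFF : FF k N →ₐ[k] FF k (N * q) := incl k (dvd_mul_right N q)

theorem coe_alphaFF (x : FF k N) : (alphaFF k N q x : LaurentSeries k) = x := coe_incl _ _

theorem betaFF_jm {m : ℕ+} (hm : (m : ℕ) ∣ N) (h : ((pn q * m : ℕ+) : ℕ) ∣ N * q) :
    betaFF k N q (jm k m hm) = jm k (pn q * m) h := Subtype.ext (qExpand_Jc q m)

/-- the field at level `N q` is generated by the images of the two degeneracy maps -/
theorem hom_ext_alpha_beta {Ω : Type*} [Semiring Ω] [Algebra k Ω] {q : ℕ} [Fact q.Prime]
    {σ τ : FF k (N * q) →ₐ[k] Ω} (h1 : ∀ x, σ (alphaFF k N q x) = τ (alphaFF k N q x))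
    (h2 : ∀ x, σ (betaFF k N q x) = τ (betaFF k N q x)) : σ = τ := by
  have hq : q.Prime := Fact.out
  apply hom_ext
  intro m hm
  by_cases h : (m : ℕ) ∣ N
  · exact h1 (jm k m h)
  · have hqm : q ∣ m := by
      by_contra hcon
      exact h (((Nat.Prime.coprime_iff_not_dvd hq).2 hcon).symm.dvd_of_dvd_mul_right hm)
    obtain ⟨t, ht⟩ := hqm
    have ht0 : 0 < t := Nat.pos_of_ne_zero (by rintro rfl; simp at ht)
    have htN : t ∣ N := by
      rw [ht, mul_comm] at hm
      exact Nat.dvd_of_mul_dvd_mul_right hq.pos hm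
    have hmt : m = pn q * ⟨t, ht0⟩ := PNat.eq (by rw [ht]; rfl)
    subst hmt
    rw [← betaFF_jm q (m := ⟨t, ht0⟩) htN hm]
    exact h2 _

variable [IsAlgClosed k]

/-- the second degeneracy map in terms of the first one and the Fricke involutions -/
theorem betaFF_eq (hM : ((N * q : ℕ) : k) ≠ 0) (hN : (N : k) ≠ 0) (x : FF k N) :
    betaFF k N q x = fricke hM (alphaFF k N q (fricke hN x)) := by
  apply Subtype.ext
  rw [coe_fricke, alphaFF, frickeL_incl (dvd_mul_right N q) hM (pn q) (by rw [coe_pn, mul_comm]),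
    ← coe_fricke, fricke_fricke, coe_betaFF]
  exact (SbA_eq_qExpand (pn q) q (coe_pn q) _).symm

omit [NeZero N] [IsAlgClosed k] in
theorem ne_zero_left {q : ℕ} (hM : ((N * q : ℕ) : k) ≠ 0) : (N : k) ≠ 0 :=
  ne_zero_of_dvd hM (dvd_mul_right N q)

theorem finiteAlong_alphaFF (hM : ((N * q : ℕ) : k) ≠ 0) : FiniteAlong k (alphaFF k N q) :=
  haveI : NeZero (N * q) := ⟨mul_ne_zero (NeZero.ne N) (NeZero.ne q)⟩
  finiteDimensional_incl (dvd_mul_right N q) hM

theorem separableAlong_alphaFF (hM : ((N * q : ℕ) : k) ≠ 0) : SeparableAlong k (alphaFF k N q) :=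
  haveI : NeZero (N * q) := ⟨mul_ne_zero (NeZero.ne N) (NeZero.ne q)⟩
  isSeparable_incl (dvd_mul_right N q) hM

theorem finrankAlong_alphaFF (hM : ((N * q : ℕ) : k) ≠ 0) :
    dedekindPsi N * finrankAlong k (alphaFF k N q) = dedekindPsi (N * q) :=
  haveI : NeZero (N * q) := ⟨mul_ne_zero (NeZero.ne N) (NeZero.ne q)⟩
  finrank_incl (dvd_mul_right N q) hM

theorem finiteAlong_betaFF (hM : ((N * q : ℕ) : k) ≠ 0) : FiniteAlong k (betaFF k N q) :=
  haveI : NeZero (N * q) := ⟨mul_ne_zero (NeZero.ne N) (NeZero.ne q)⟩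
  finiteAlong_conj (fricke (ne_zero_left hM)) (fricke hM) (alphaFF k N q) (betaFF k N q)
    (betaFF_eq q hM (ne_zero_left hM)) (finiteAlong_alphaFF q hM)

theorem separableAlong_betaFF (hM : ((N * q : ℕ) : k) ≠ 0) : SeparableAlong k (betaFF k N q) :=
  haveI : NeZero (N * q) := ⟨mul_ne_zero (NeZero.ne N) (NeZero.ne q)⟩
  separableAlong_conj (fricke (ne_zero_left hM)) (fricke hM) (alphaFF k N q) (betaFF k N q)
    (betaFF_eq q hM (ne_zero_left hM)) (separableAlong_alphaFF q hM)

theorem finrankAlong_betaFF (hM : ((N * q : ℕ) : k) ≠ 0) :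
    finrankAlong k (betaFF k N q) = finrankAlong k (alphaFF k N q) :=
  haveI : NeZero (N * q) := ⟨mul_ne_zero (NeZero.ne N) (NeZero.ne q)⟩
  finrankAlong_conj (fricke (ne_zero_left hM)) (fricke hM) (alphaFF k N q) (betaFF k N q)
    (betaFF_eq q hM (ne_zero_left hM))

/-- the degrees of the degeneracy maps do not depend on the field -/
theorem finrankAlong_alphaFF_eq {k' : Type*} [Field k'] [IsAlgClosed k']
    (hM : ((N * q : ℕ) : k) ≠ 0) (hM' : ((N * q : ℕ) : k') ≠ 0) :
    finrankAlong k (alphaFF k N q) = finrankAlong k' (alphaFF k' N q) :=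
  Nat.eq_of_mul_eq_mul_left (psi_pos N)
    ((finrankAlong_alphaFF q hM).trans (finrankAlong_alphaFF q hM').symm)

theorem finrankAlong_betaFF_eq {k' : Type*} [Field k'] [IsAlgClosed k']
    (hM : ((N * q : ℕ) : k) ≠ 0) (hM' : ((N * q : ℕ) : k') ≠ 0) :
    finrankAlong k (betaFF k N q) = finrankAlong k' (betaFF k' N q) := by
  rw [finrankAlong_betaFF q hM, finrankAlong_betaFF q hM', finrankAlong_alphaFF_eq q hM hM']

/-- the degree of the degeneracy map for a prime not dividing the level -/
theorem finrankAlong_alphaFF_prime (hM : ((N * q : ℕ) : k) ≠ 0) (hq : q.Prime) (hqN : ¬ q ∣ N) :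
    finrankAlong k (alphaFF k N q) = q + 1 := by
  haveI : NeZero (N * q) := ⟨mul_ne_zero (NeZero.ne N) (NeZero.ne q)⟩
  have h1 := finrankAlong_alphaFF q hM
  rw [Cosets.dedekindPsi_mul_of_not_dvd hq hqN, mul_comm] at h1
  exact Nat.eq_of_mul_eq_mul_right (psi_pos N) h1

end Beta

section Transfer

variable (K : Type*) [Field K] [Algebra ℚ K] (N : ℕ)

/-- the base change of the rational modular function field, as the field `FF K N` -/
def eqE : laurentBaseChange K (modularFunctionFieldFull N) ≃ₐ[K] FF K N :=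
  IntermediateField.equivOfEq (X0Genus.baseChange_eq K N)

theorem coe_equivOfEq {K L : Type*} [Field K] [Field L] [Algebra K L]
    {E E' : IntermediateField K L} (h : E = E') (x : E) :
    ((IntermediateField.equivOfEq h x : E') : L) = x := by
  subst h; rfl

theorem coe_equivOfEq_symm {K L : Type*} [Field K] [Field L] [Algebra K L]
    {E E' : IntermediateField K L} (h : E = E') (x : E') :
    (((IntermediateField.equivOfEq h).symm x : E) : L) = x := by
  subst h; rfl

theorem coe_eqE (x : laurentBaseChange K (modularFunctionFieldFull N)) :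
    ((eqE K N x : FF K N) : LaurentSeries K) = x := coe_equivOfEq (X0Genus.baseChange_eq K N) x

theorem coe_eqE_symm (x : FF K N) :
    (((eqE K N).symm x : laurentBaseChange K (modularFunctionFieldFull N)) : LaurentSeries K) =
      x := coe_equivOfEq_symm (X0Genus.baseChange_eq K N) x

variable [NeZero N] (q : ℕ) [NeZero q]

theorem heckeAlphaBar_conj (x : laurentBaseChange K (modularFunctionFieldFull N)) :
    heckeAlphaBar K N q x = (eqE K (N * q)).symm (alphaFF K N q (eqE K N x)) := by
  apply Subtype.ext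
  rw [coe_heckeAlphaBar, coe_eqE_symm, coe_alphaFF, coe_eqE]

theorem heckeBetaBar_conj (x : laurentBaseChange K (modularFunctionFieldFull N)) :
    heckeBetaBar K N q x = (eqE K (N * q)).symm (betaFF K N q (eqE K N x)) := by
  apply Subtype.ext
  rw [coe_heckeBetaBar, coe_eqE_symm, coe_betaFF, coe_eqE]

theorem finrankAlong_heckeAlphaBar :
    finrankAlong K (heckeAlphaBar K N q) = finrankAlong K (alphaFF K N q) :=
  finrankAlong_conj (eqE K N) (eqE K (N * q)).symm (alphaFF K N q) (heckeAlphaBar K N q)
    (heckeAlphaBar_conj K N q)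

theorem finrankAlong_heckeBetaBar :
    finrankAlong K (heckeBetaBar K N q) = finrankAlong K (betaFF K N q) :=
  finrankAlong_conj (eqE K N) (eqE K (N * q)).symm (betaFF K N q) (heckeBetaBar K N q)
    (heckeBetaBar_conj K N q)

end Transfer

end Fermat.Agent.Spec
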