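import Fermat.Agent.Spec.Beta

/-!
# Embeddings of the field of level `N ℓ` over the field of level `N`
-/

set_option autoImplicit false
set_option linter.style.haveILetI false
set_option linter.unusedSectionVars false

noncomputable section

namespace Fermat.Agent.Spec

open ModularCurve Polynomial IntermediateField Fermat.Agent.ModPoly AlgebraicCurve
open Fermat.Agent.Cusp

section Classify

variable {k : Type*} [Field k] [IsAlgClosed k] {N : ℕ} [NeZero N] {ℓ : ℕ} [hℓ : Fact ℓ.Prime]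
  [NeZero ℓ]

theorem Sb_one_Jc (e m : ℕ+) : Sb (1 : kˣ) e (Jc 1 m) = Jc 1 (e * m) := by
  rw [Sb_Jc, one_pow, one_mul]

theorem dvd_of_sq_eq {m s : ℕ} (h : m * m = (Nat.gcd m s) ^ 2) : m ∣ s := by
  have h1 : m = Nat.gcd m s := by
    rw [sq] at h
    exact Nat.mul_self_inj.1 h
  rw [h1]
  exact Nat.gcd_dvd_right m s

/-- The classification of the embeddings `τ` of the field of level `N ℓ` whose restriction to level
`N` is `f(q) ↦ f(q^(Nℓ))`. -/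
theorem classify (hM : ((N * ℓ : ℕ) : k) ≠ 0) (hℓN : ¬ ℓ ∣ N)
    (τ : FF k (N * ℓ) →ₐ[k] LaurentSeries k)
    (hτ : ∀ x : FF k N, τ (alphaFF k N ℓ x) = Sb 1 (pn N * pn ℓ) x) :
    (∀ x : FF k N, τ (betaFF k N ℓ x) = Sb 1 (pn N * pn ℓ) (Sb 1 (pn ℓ) x)) ∨
    ∃ c : kˣ, c ^ ℓ = 1 ∧ ∀ x : FF k N, τ (betaFF k N ℓ x) = Sb c (pn N) x := by
  haveI : NeZero (N * ℓ) := ⟨mul_ne_zero (NeZero.ne N) (NeZero.ne ℓ)⟩
  have hprime : ℓ.Prime := hℓ.out
  have hP : pn (N * ℓ) = pn N * pn ℓ := PNat.eq rfl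
  have hpp : pp ℓ = pn ℓ := rfl
  have hmN : ∀ {m : ℕ+}, (m : ℕ) ∣ N → (m : ℕ) ∣ N * ℓ := fun h => h.mul_right ℓ
  have hmℓ : ∀ {m : ℕ+}, (m : ℕ) ∣ N → ((pp ℓ * m : ℕ+) : ℕ) ∣ N * ℓ := fun h => by
    rw [PNat.mul_coe, coe_pp, mul_comm]
    exact Nat.mul_dvd_mul_right h ℓ
  have h1 : ∀ (m : ℕ+) (hm : (m : ℕ) ∣ N), τ (jm k m (hmN hm)) = Jc 1 (pn N * pn ℓ * m) := by
    intro m hm
    rw [← Sb_one_Jc]
    exact hτ (jm k m hm)
  let τ' : Emb k (N * ℓ) := ⟨τ, by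
    rw [hP]
    have := h1 1 (one_dvd N)
    rw [mul_one] at this
    exact this⟩
  obtain ⟨c, e, κ, h⟩ := τ'.exists_data' hM
  obtain ⟨s, hs⟩ : ∃ s, s = τ'.s := ⟨_, rfl⟩
  rw [← hs] at h
  have hsM : s ∣ N * ℓ := by rw [hs]; exact τ'.s_dvd hM
  have h2 : ∀ (m : ℕ+), (m : ℕ) ∣ N → e m = pn N * pn ℓ * m ∧ c m = 1 := by
    intro m hm
    have h3 : Jc (c m) (e m) = Jc 1 (pn N * pn ℓ * m) := ((h m (hmN hm)).map_j).symm.trans (h1 m hm)
    have h4 := Jc_inj_e h3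
    rw [h4] at h3
    exact ⟨h4, Jc_inj_c h3⟩
  have h3 : ∀ (m : ℕ+), (m : ℕ) ∣ N → (m : ℕ) ∣ s := by
    intro m hm
    have h4 := (h m (hmN hm)).mul_eq
    rw [(h2 m hm).1] at h4
    apply dvd_of_sq_eq
    have h5 : (N * ℓ) * ((m : ℕ) * m) = (N * ℓ) * (Nat.gcd m s) ^ 2 := by
      rw [← h4]
      simp only [PNat.mul_coe, coe_pn]
      ring
    exact Nat.eq_of_mul_eq_mul_left (NeZero.pos (N * ℓ)) h5
  obtain ⟨d, hd⟩ := h3 (pn N) dvd_rfl
  rw [coe_pn] at hd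
  have hdℓ : d ∣ ℓ := by
    rw [hd] at hsM
    exact Nat.dvd_of_mul_dvd_mul_left (NeZero.pos N) hsM
  have hgm : ∀ (m : ℕ+), (m : ℕ) ∣ N → Nat.gcd m s = m := fun m hm =>
    Nat.gcd_eq_left (h3 m hm)
  rcases (Nat.dvd_prime hprime).1 hdℓ with hd1 | hd1
  · -- `s = N`
    right
    rw [hd1, mul_one] at hd
    have hg : ∀ (m : ℕ+), (m : ℕ) ∣ N → Nat.gcd ((pp ℓ * m : ℕ+) : ℕ) s = m := by
      intro m hm
      rw [hd, PNat.mul_coe, coe_pp,
        Nat.Coprime.gcd_mul_left_cancel _ ((Nat.Prime.coprime_iff_not_dvd hprime).2 hℓN)]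
      exact Nat.gcd_eq_left hm
    have he : ∀ (m : ℕ+), (m : ℕ) ∣ N → e ((pp ℓ * m : ℕ+) : ℕ) = pn N * m := by
      intro m hm
      have h4 := (h (pp ℓ * m) (hmℓ hm)).mul_eq
      rw [hg m hm] at h4
      apply PNat.eq
      have h5 : (e ((pp ℓ * m : ℕ+) : ℕ) : ℕ) * (ℓ * m) = (N * m) * (ℓ * m) := by
        rw [PNat.mul_coe, coe_pp] at h4 ⊢
        rw [h4]; ring
      exact Nat.eq_of_mul_eq_mul_right (Nat.mul_pos hprime.pos m.pos) h5
    have hcℓ : c ((pp ℓ * 1 : ℕ+) : ℕ) ^ ℓ = 1 := by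
      have h4 := h (pp ℓ * 1) (hmℓ (one_dvd N))
      rcases (h 1 (hmN (one_dvd N))).next (p := ℓ) (hmℓ (one_dvd N)) with
        ⟨κ', h'⟩ | ⟨c', e', κ', hc', -, h'⟩
      · exfalso
        have h5 := h4.unique_s h'
        rw [hg 1 (one_dvd N), hgm 1 (one_dvd N), PNat.one_coe, mul_one] at h5
        exact hprime.one_lt.ne h5
      · rw [(h4.unique h').2, hc', (h2 1 (one_dvd N)).2]
    refine ⟨c ((pp ℓ * 1 : ℕ+) : ℕ), hcℓ, ?_⟩
    have hc : ∀ (m : ℕ+), (m : ℕ) ∣ N →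
        c ((pp ℓ * m : ℕ+) : ℕ) = c ((pp ℓ * 1 : ℕ+) : ℕ) ^ (m : ℕ) := by
      intro m
      induction m using pnat_prime_induction with
      | h1 => intro _; rw [PNat.one_coe, pow_one]
      | h2 p m ih =>
        intro hpm
        have hm : (m : ℕ) ∣ N := ppm_dvd hpm
        have hcm : (pp p * (pp ℓ * m) : ℕ+) = pp ℓ * (pp p * m) := mul_left_comm _ _ _
        have hd' : ((pp p * (pp ℓ * m) : ℕ+) : ℕ) ∣ N * ℓ := by
          rw [hcm]; exact hmℓ hpm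
        have h4 := h (pp p * (pp ℓ * m)) hd'
        rcases (h (pp ℓ * m) (hmℓ hm)).next (p := p) hd' with
          ⟨κ', h'⟩ | ⟨c', e', κ', -, -, h'⟩
        · have h5 := (h4.unique h').2
          rw [hcm] at h5
          rw [h5, ih hm, ← pow_mul, show ((pp p * m : ℕ+) : ℕ) = m * p by
            rw [PNat.mul_coe, coe_pp, mul_comm]]
        · exfalso
          have h5 := h4.unique_s h'
          rw [hcm, hg _ hpm, hg _ hm, PNat.mul_coe, coe_pp] at h5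
          have h6 : p * (m : ℕ) = 1 * m := by rw [one_mul]; exact h5
          exact (Fact.out : p.Prime).one_lt.ne' (Nat.eq_of_mul_eq_mul_right m.pos h6)
    have h5 : τ.comp (betaFF k N ℓ) =
        (SbA (c ((pp ℓ * 1 : ℕ+) : ℕ)) (pn N)).comp (FF k N).val := by
      apply hom_ext
      intro m hm
      rw [AlgHom.comp_apply, AlgHom.comp_apply, betaFF_jm ℓ hm (hmℓ hm)]
      have h6 : τ (jm k (pn ℓ * m) (hmℓ hm)) = Jc _ _ := (h (pp ℓ * m) (hmℓ hm)).map_j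
      rw [h6, hc m hm, he m hm]
      change _ = Sb _ _ (Jc 1 m)
      rw [Sb_Jc]
      simp only [mul_one]
    intro x
    exact AlgHom.congr_fun h5 x
  · -- `s = N ℓ`
    left
    rw [hd1] at hd
    have hg : ∀ (m : ℕ+), (m : ℕ) ∣ N → Nat.gcd ((pp ℓ * m : ℕ+) : ℕ) s = ℓ * m := by
      intro m hm
      rw [hd, Nat.gcd_eq_left (hmℓ hm), PNat.mul_coe, coe_pp]
    have h5 : τ.comp (betaFF k N ℓ) =
        (SbA 1 (pn N * pn ℓ)).comp ((SbA 1 (pn ℓ)).comp (FF k N).val) := by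
      apply hom_ext
      intro m hm
      rw [AlgHom.comp_apply, AlgHom.comp_apply, AlgHom.comp_apply, betaFF_jm ℓ hm (hmℓ hm)]
      have h6 : τ (jm k (pn ℓ * m) (hmℓ hm)) = Jc _ _ := (h (pp ℓ * m) (hmℓ hm)).map_j
      rw [h6]
      change _ = Sb _ _ (Sb _ _ (Jc 1 m))
      rw [Sb_one_Jc, Sb_one_Jc]
      have h4 := h (pp ℓ * m) (hmℓ hm)
      rcases (h m (hmN hm)).next (p := ℓ) (hmℓ hm) with ⟨κ', h'⟩ | ⟨c', e', κ', hc', -, h'⟩
      · obtain ⟨h7, h8⟩ := h4.unique h'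
        rw [h7, h8, (h2 m hm).1, (h2 m hm).2, one_pow, hpp, mul_left_comm]
      · exfalso
        have h5 := h4.unique_s h'
        rw [hg m hm, hgm m hm] at h5
        have h6 : ℓ * (m : ℕ) = 1 * m := by rw [one_mul]; exact h5
        exact hprime.one_lt.ne' (Nat.eq_of_mul_eq_mul_right m.pos h6)
    intro x
    exact AlgHom.congr_fun h5 x

end Classify

end Fermat.Agent.Spec
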