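import Fermat.Agent.Spec.Tight
import Fermat.Agent.Red.Genus

/-!
# Reduction of divisors
-/

set_option autoImplicit false
set_option linter.style.haveILetI false
set_option linter.unusedSectionVars false

namespace Fermat.Agent.Spec

open AlgebraicCurve Fermat.Agent.RR Fermat.Agent.Curve Fermat.Agent.Red

variable {A K F k R : Type*} [CommRing A] [IsDomain A] [ValuationRing A]
  [Field K] [Algebra A K] [IsFractionRing A K] [Field F] [Algebra K F] [Algebra A F]
  [IsScalarTower A K F] [Field k] [Algebra A k] [Field R] [Algebra k R] [Algebra A R]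
  [IsScalarTower A k R]

namespace Constr

variable [IsAlgClosed k] [FunField k R]
variable {ι : Type*} [Fintype ι] {G : GaussData A K F k R ι}
    {P Z : Divisor K F} {Pk Zk : Divisor k R} {d : ℕ} {g : ℤ}
    (H : FibreHyp G P Z Pk Zk d g g)

/-- the reduction of `L(nP + nZ + D)` -/
noncomputable def V (H : FibreHyp G P Z Pk Zk d g g) (n : ℕ) (D : Divisor K F) : Submodule k R :=
  H.M.rd H.hk (LL P Z D n n)

theorem mem_V {n : ℕ} {D : Divisor K F} {y : R} : y ∈ V H n D ↔
    ∃ x : F, ∃ hx : x ∈ G.W, x ∈ LL P Z D n n ∧ G.π ⟨x, hx⟩ = y := by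
  constructor
  · rintro ⟨x, hx, rfl⟩
    exact ⟨x, hx.1, hx.2, rfl⟩
  · rintro ⟨x, hx, hx', rfl⟩
    exact ⟨x, ⟨hx, hx'⟩, rfl⟩

theorem mul_mem_V {n m : ℕ} {D D' : Divisor K F} {y y' : R} (hy : y ∈ V H n D)
    (hy' : y' ∈ V H m D') : y * y' ∈ V H (n + m) (D + D') := by
  rw [mem_V] at hy hy' ⊢
  obtain ⟨x, hx, hxL, rfl⟩ := hy
  obtain ⟨x', hx', hxL', rfl⟩ := hy'
  exact ⟨x * x', mul_mem hx hx', LL_mul hxL hxL', map_mul G.π ⟨x, hx⟩ ⟨x', hx'⟩⟩

theorem V_zero_le (n : ℕ) : V H n 0 ≤ LL Pk Zk 0 n n := H.rd_le n n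

noncomputable instance finite_V (n : ℕ) (D : Divisor K F) : FiniteDimensional k (V H n D) := by
  haveI := H.finiteDimensional_LL D n n
  exact H.M.finiteDimensional_rd H.hk (LL P Z D n n)

theorem finrank_V (n : ℕ) (D : Divisor K F) : Module.finrank k (V H n D) =
    Module.finrank K (LL P Z D n n) := by
  haveI := H.finiteDimensional_LL D n n
  exact H.M.finrank_rd H.hk (LL P Z D n n)

theorem mem_LL_pow {K F : Type*} [Field K] [Field F] [Algebra K F] {t : F} {P Z : Divisor K F}
    {d : ℕ} (h : PoleZero t P Z d) (N : ℕ) : t ^ N ∈ LL P Z 0 N N := by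
  rw [mem_LL]
  intro v
  right
  rw [ord_pow, h.hP, h.hZ]
  simp only [Finsupp.coe_zero, Pi.zero_apply, add_zero]
  have h1 : -(v.ord t) ≤ max (-(v.ord t)) 0 := le_max_left _ _
  have h2 : 0 ≤ max (v.ord t) 0 := le_max_right _ _
  have h3 : (0 : ℤ) ≤ N := Int.natCast_nonneg N
  nlinarith

theorem mem_LL_inv_pow {K F : Type*} [Field K] [Field F] [Algebra K F] {t : F} {P Z : Divisor K F}
    {d : ℕ} (h : PoleZero t P Z d) (N : ℕ) : t⁻¹ ^ N ∈ LL P Z 0 N N := by
  rw [mem_LL]
  intro v
  right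
  rw [ord_pow, v.ord_inv, h.hP, h.hZ]
  simp only [Finsupp.coe_zero, Pi.zero_apply, add_zero]
  have h1 : v.ord t ≤ max (v.ord t) 0 := le_max_left _ _
  have h2 : 0 ≤ max (-(v.ord t)) 0 := le_max_right _ _
  have h3 : (0 : ℤ) ≤ N := Int.natCast_nonneg N
  nlinarith

theorem t_pow_mem_V (N : ℕ) : (G.π ⟨G.t, G.ht⟩) ^ N ∈ V H N 0 := by
  rw [mem_V]
  exact ⟨G.t ^ N, pow_mem G.ht N, mem_LL_pow H.pz N, map_pow G.π ⟨G.t, G.ht⟩ N⟩

theorem t_inv_pow_mem_V (N : ℕ) : (G.π ⟨G.t, G.ht⟩)⁻¹ ^ N ∈ V H N 0 := by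
  rw [mem_V]
  refine ⟨G.t⁻¹ ^ N, pow_mem G.inv_t_mem N, mem_LL_inv_pow H.pz N, ?_⟩
  rw [← FibreHyp.π_inv_t_eq G]
  exact map_pow G.π ⟨G.t⁻¹, G.inv_t_mem⟩ N

include H in
theorem tk_ne_zero : G.π ⟨G.t, G.ht⟩ ≠ 0 := by
  intro h0
  apply H.trk
  rw [h0]
  exact isAlgebraic_zero

theorem one_le_d (H : FibreHyp G P Z Pk Zk d g g) : (1 : ℤ) ≤ d := by exact_mod_cast H.pz.pos

include H in
/-- the reduction is a full Riemann-Roch space -/
theorem exists_aux (D : Divisor K F) : ∃ n0 : ℕ, ∀ n : ℕ, n0 ≤ n → ∃ r : Divisor k R,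
    Divisor.degree r = Divisor.degree D ∧ V H n D = LL Pk Zk r n n := by
  obtain ⟨c, hc⟩ := H.rr
  obtain ⟨ck, hck⟩ := H.rrk
  have hd := one_le_d H
  refine ⟨(max (max c ck) g + |Divisor.degree D| + 1).toNat, fun n hn => ?_⟩
  have hn' : max (max c ck) g + |Divisor.degree D| + 1 ≤ n := Int.toNat_le.1 hn
  have hcn := (le_max_left c ck).trans (le_max_left (max c ck) g)
  have hckn := (le_max_right c ck).trans (le_max_left (max c ck) g)
  have hgn := le_max_right (max c ck) g
  have ha := le_abs_self (Divisor.degree D)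
  have ha' := neg_abs_le (Divisor.degree D)
  have hnn : (0 : ℤ) ≤ n := Int.natCast_nonneg n
  have hnd : (n : ℤ) ≤ (n + n) * d := by nlinarith
  -- the general statement about the hull
  have key : ∀ D' : Divisor K F, |Divisor.degree D'| = |Divisor.degree D| →
      ∃ E : Divisor k R, V H n D' ≤ riemannRochSpace E ∧
        (∀ v : Place k R, ∃ x ∈ V H n D', x ≠ 0 ∧ v.ord x = - E v) ∧
        (n + n) * d + Divisor.degree D' ≤ Divisor.degree E ∧
        (Module.finrank k (V H n D') : ℤ) = (n + n) * d + Divisor.degree D' + 1 - g := by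
    intro D' hD'
    have hb := le_abs_self (Divisor.degree D')
    have hb' := neg_abs_le (Divisor.degree D')
    rw [hD'] at hb hb'
    have e0 := H.pz.degree n n D'
    have e1 := (hc (n • P + n • Z + D') (by rw [e0]; linarith)).2
    rw [e0] at e1
    have e2 : (Module.finrank k (V H n D') : ℤ) = (n + n) * d + Divisor.degree D' + 1 - g := by
      rw [finrank_V]; exact e1
    have hV : V H n D' ≠ ⊥ := by
      intro h0
      rw [h0, finrank_bot] at e2
      push_cast at e2
      linarith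
    obtain ⟨E, hE1, hE2⟩ := exists_hull (V H n D') hV
    refine ⟨E, hE1, hE2, ?_, e2⟩
    by_contra hlt
    push Not at hlt
    have h1 : Module.finrank k (V H n D') ≤ ell E := Submodule.finrank_mono hE1
    -- enlarge `E` to degree at least `ck`
    obtain ⟨t, ht, _⟩ := (inferInstance : FunField k R).out
    obtain ⟨v, -⟩ := exists_pole ht
    let m : ℕ := (ck - Divisor.degree E).toNat
    let E' : Divisor k R := E + Finsupp.single v (m : ℤ)
    have hEE' : E ≤ E' := by
      refine le_add_of_nonneg_right ?_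
      exact Finsupp.single_nonneg.2 (Int.natCast_nonneg m)
    have h2 : ell E ≤ ell E' := ell_mono hEE'
    have h3 : Divisor.degree E' = Divisor.degree E + m := by
      rw [map_add, degree_single']
    have h4 : ck - Divisor.degree E ≤ m := Int.self_le_toNat _
    have h5 := (hck E' (by rw [h3]; linarith)).2
    have h6 : (ell E' : ℤ) = Divisor.degree E' + 1 - g := h5
    have h7 : Divisor.degree E' = max (Divisor.degree E) ck := by
      rw [h3]
      simp only [m, Int.toNat_eq_max]
      rcases le_total (Divisor.degree E) ck with h | h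
      · rw [max_eq_left (by linarith), max_eq_right h]; ring
      · rw [max_eq_right (by linarith), max_eq_left h]; ring
    have h8 : (Module.finrank k (V H n D') : ℤ) ≤ ell E' := by exact_mod_cast h1.trans h2
    rw [e2, h6, h7] at h8
    rcases le_total (Divisor.degree E) ck with h | h
    · rw [max_eq_right h] at h8; linarith
    · rw [max_eq_left h] at h8; linarith
  obtain ⟨E, hE1, hE2, hE3, hE4⟩ := key D rfl
  obtain ⟨E', hE1', hE2', hE3', -⟩ := key (-D) (by rw [map_neg, abs_neg])
  rw [map_neg] at hE3'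
  have hsum : E + E' ≤ (n + n) • Pk + (n + n) • Zk := by
    intro v
    obtain ⟨x, hx, hx0, hxe⟩ := hE2 v
    obtain ⟨x', hx', hx0', hxe'⟩ := hE2' v
    have h1 := mul_mem_V H hx hx'
    rw [add_neg_cancel] at h1
    have h2 := V_zero_le H _ h1
    rw [mem_LL] at h2
    have h3 := (h2 v).resolve_left (mul_ne_zero hx0 hx0')
    rw [v.ord_mul hx0 hx0', hxe, hxe'] at h3
    have e1 : (E + E') v = E v + E' v := rfl
    have e2 : ((n + n) • Pk + (n + n) • Zk) v = (n + n : ℕ) * Pk v + (n + n : ℕ) * Zk v := by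
      rw [Finsupp.add_apply, Finsupp.smul_apply, Finsupp.smul_apply, nsmul_eq_mul, nsmul_eq_mul]
    rw [e1, e2]
    simp only [Finsupp.coe_zero, Pi.zero_apply, add_zero] at h3
    linarith
  have hdeg := degree_mono hsum
  have e5 : Divisor.degree ((n + n) • Pk + (n + n) • Zk) = (n + n + (n + n)) * d := by
    have := H.pzk.degree (n + n) (n + n) 0
    rw [add_zero, map_zero, add_zero] at this
    rw [this]; push_cast; ring
  rw [map_add, e5] at hdeg
  have hdegE : Divisor.degree E = (n + n) * d + Divisor.degree D := by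
    have : ((n : ℤ) + n + (n + n)) * d = (n + n) * d + (n + n) * d := by ring
    linarith
  have e6 := hck E (by rw [hdegE]; linarith)
  haveI : FiniteDimensional k (riemannRochSpace E) := e6.1
  have hVE : V H n D = riemannRochSpace E := by
    apply Submodule.eq_of_le_of_finrank_eq hE1
    have h7 := e6.2
    rw [hdegE] at h7
    have : (Module.finrank k (V H n D) : ℤ) = Module.finrank k (riemannRochSpace E) := by
      rw [hE4, h7]
    exact_mod_cast this
  refine ⟨E - (n • Pk + n • Zk), ?_, ?_⟩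
  · have e7 : Divisor.degree (n • Pk + n • Zk) = (n + n) * d := by
      have := H.pzk.degree n n 0
      rw [add_zero, map_zero, add_zero] at this
      exact this
    rw [map_sub, hdegE, e7]; ring
  · rw [hVE, LL]
    congr 1
    abel

/-- `r` is the reduction of `D` -/
def IsRed (H : FibreHyp G P Z Pk Zk d g g) (D : Divisor K F) (r : Divisor k R) : Prop :=
  Divisor.degree r = Divisor.degree D ∧ ∀ n, V H n D ≤ LL Pk Zk r n n

include H in
theorem IsRed.eventually {D : Divisor K F} {r : Divisor k R} (h : IsRed H D r) :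
    ∃ n0 : ℕ, ∀ n : ℕ, n0 ≤ n → V H n D = LL Pk Zk r n n := by
  obtain ⟨c, hc⟩ := H.rr
  obtain ⟨ck, hck⟩ := H.rrk
  have hd := one_le_d H
  refine ⟨(max c ck - Divisor.degree D).toNat, fun n hn => ?_⟩
  have hn' : max c ck - Divisor.degree D ≤ n := Int.toNat_le.1 hn
  have hcn := le_max_left c ck
  have hckn := le_max_right c ck
  have hnn : (0 : ℤ) ≤ n := Int.natCast_nonneg n
  have hnd : (n : ℤ) ≤ (n + n) * d := by nlinarith
  have e0 := H.pz.degree n n D
  have e0' := H.pzk.degree n n r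
  have e1 := hc (n • P + n • Z + D) (by rw [e0]; linarith)
  have e1' := hck (n • Pk + n • Zk + r) (by rw [e0', h.1]; linarith)
  haveI : FiniteDimensional k (LL Pk Zk r n n) := e1'.1
  apply Submodule.eq_of_le_of_finrank_eq (h.2 n)
  rw [finrank_V]
  have h1 := e1.2
  have h2 := e1'.2
  rw [e0] at h1
  rw [e0', h.1] at h2
  have : (Module.finrank K (LL P Z D n n) : ℤ) = Module.finrank k (LL Pk Zk r n n) := by
    rw [h1, h2]
  exact_mod_cast this

theorem exists_tight_LL (H : FibreHyp G P Z Pk Zk d g g) (e : ℤ) :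
    ∃ n0 : ℕ, ∀ n : ℕ, n0 ≤ n → ∀ r : Divisor k R, Divisor.degree r = e → ∀ v : Place k R,
    ∃ x ∈ LL Pk Zk r n n, x ≠ 0 ∧ v.ord x = -(n * Pk v + n * Zk v + r v) := by
  classical
  obtain ⟨c, hc⟩ := exists_tight k R
  have hd := one_le_d H
  refine ⟨(c - e).toNat, fun n hn r hr v => ?_⟩
  have hn' : c - e ≤ n := Int.toNat_le.1 hn
  have hnn : (0 : ℤ) ≤ n := Int.natCast_nonneg n
  have hnd : (n : ℤ) ≤ (n + n) * d := by nlinarith
  have e0' := H.pzk.degree n n r
  obtain ⟨x, hx, hx0, hxe⟩ := hc (n • Pk + n • Zk + r) (by rw [e0', hr]; linarith) {v}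
  refine ⟨x, hx, hx0, ?_⟩
  rw [hxe v (Finset.mem_singleton_self v)]
  simp

include H in
theorem exists_isRed (D : Divisor K F) : ∃ r : Divisor k R, IsRed H D r := by
  obtain ⟨n0, hn0⟩ := exists_aux H D
  obtain ⟨n1, hn1⟩ := exists_tight_LL H (Divisor.degree D)
  have h0 := tk_ne_zero H
  -- multiplication by powers of `t`
  have hmul : ∀ (n N : ℕ) (x : R) (r' : Divisor k R), x ∈ V H n D → x ≠ 0 →
      V H (n + N) D = LL Pk Zk r' (n + N) (n + N) →
      ∀ v : Place k R, -(n * Pk v + n * Zk v + r' v) ≤ v.ord x := by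
    intro n N x r' hx hx0 hr' v
    rcases H.pzk.or v with ⟨h1, h2⟩ | ⟨h1, h2⟩
    · have h3 := mul_mem_V H hx (t_inv_pow_mem_V H N)
      rw [add_zero, hr', mem_LL] at h3
      have h4 := (h3 v).resolve_left (mul_ne_zero hx0 (pow_ne_zero _ (inv_ne_zero h0)))
      rw [v.ord_mul hx0 (pow_ne_zero _ (inv_ne_zero h0)), ord_pow, v.ord_inv, h1] at h4
      have h5 := H.pzk.hZ v
      have h6 := H.pzk.hP v
      rw [h1] at h6
      have h7 : 0 ≤ v.ord (G.π ⟨G.t, G.ht⟩) := by
        have := le_max_left (-v.ord (G.π ⟨G.t, G.ht⟩)) 0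
        rw [← h6] at this; linarith
      rw [max_eq_left h7] at h5
      rw [h1, h5]
      rw [h5] at h4
      push_cast at h4
      linarith
    · have h3 := mul_mem_V H hx (t_pow_mem_V H N)
      rw [add_zero, hr', mem_LL] at h3
      have h4 := (h3 v).resolve_left (mul_ne_zero hx0 (pow_ne_zero _ h0))
      rw [v.ord_mul hx0 (pow_ne_zero _ h0), ord_pow, h1] at h4
      have h5 := H.pzk.hP v
      have h6 := H.pzk.hZ v
      rw [h1] at h6
      have h7 : v.ord (G.π ⟨G.t, G.ht⟩) ≤ 0 := by
        have := le_max_left (v.ord (G.π ⟨G.t, G.ht⟩)) 0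
        rw [← h6] at this; linarith
      rw [max_eq_left (by linarith)] at h5
      rw [h1, h5]
      rw [h5] at h4
      push_cast at h4
      linarith
  obtain ⟨r, hr1, hr2⟩ := hn0 (max n0 n1) (le_max_left _ _)
  have hlarge : ∀ N, V H (max n0 n1 + N) D = LL Pk Zk r (max n0 n1 + N) (max n0 n1 + N) := by
    intro N
    obtain ⟨r', hr1', hr2'⟩ := hn0 (max n0 n1 + N) ((le_max_left _ _).trans (Nat.le_add_right _ _))
    have hle : r ≤ r' := by
      intro v
      obtain ⟨x, hx, hx0, hxe⟩ := hn1 (max n0 n1) (le_max_right _ _) r hr1 v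
      rw [← hr2] at hx
      have := hmul _ N x r' hx hx0 hr2' v
      rw [hxe] at this
      linarith
    rw [eq_of_le_of_degree hle (by rw [hr1, hr1'])]
    exact hr2'
  refine ⟨r, hr1, fun n x hx => ?_⟩
  rw [mem_LL]
  intro v
  rcases eq_or_ne x 0 with hx0 | hx0
  · exact Or.inl hx0
  · right
    have h1 := hlarge n
    rw [Nat.add_comm] at h1
    exact hmul n _ x r hx hx0 h1 v

theorem mul_ineq (H : FibreHyp G P Z Pk Zk d g g) {D D' D'' : Divisor K F} {r r' r'' : Divisor k R}
    (h : IsRed H D r) (h' : IsRed H D' r') (h'' : IsRed H D'' r'') (hD : D + D' = D'') :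
    r + r' = r'' := by
  obtain ⟨n0, hn0⟩ := h.eventually
  obtain ⟨n0', hn0'⟩ := h'.eventually
  obtain ⟨n1, hn1⟩ := exists_tight_LL H (Divisor.degree D)
  obtain ⟨n1', hn1'⟩ := exists_tight_LL H (Divisor.degree D')
  let n := max (max n0 n0') (max n1 n1')
  have i1 : n0 ≤ n := (le_max_left _ _).trans (le_max_left _ _)
  have i2 : n0' ≤ n := (le_max_right _ _).trans (le_max_left _ _)
  have i3 : n1 ≤ n := (le_max_left _ _).trans (le_max_right _ _)
  have i4 : n1' ≤ n := (le_max_right _ _).trans (le_max_right _ _)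
  apply eq_of_le_of_degree
  · intro v
    obtain ⟨x, hx, hx0, hxe⟩ := hn1 n i3 r h.1 v
    obtain ⟨x', hx', hx0', hxe'⟩ := hn1' n i4 r' h'.1 v
    rw [← hn0 n i1] at hx
    rw [← hn0' n i2] at hx'
    have h3 := mul_mem_V H hx hx'
    rw [hD] at h3
    have h4 := h''.2 _ h3
    rw [mem_LL] at h4
    have h5 := (h4 v).resolve_left (mul_ne_zero hx0 hx0')
    rw [v.ord_mul hx0 hx0', hxe, hxe'] at h5
    rw [Finsupp.add_apply]
    push_cast at h5
    linarith
  · rw [h''.1, map_add, h.1, h'.1, ← hD, map_add]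

theorem isRed_zero (H : FibreHyp G P Z Pk Zk d g g) : IsRed H 0 0 :=
  ⟨by rw [map_zero, map_zero], fun n => V_zero_le H n⟩

theorem IsRed.unique {D : Divisor K F} {r r' : Divisor k R} (h : IsRed H D r)
    (h' : IsRed H D r') : r = r' := by
  have := mul_ineq H (isRed_zero H) h h' (zero_add D)
  rwa [zero_add] at this

/-- the reduction of divisors, as a function -/
noncomputable def redFun (H : FibreHyp G P Z Pk Zk d g g) (D : Divisor K F) : Divisor k R :=
  (exists_isRed H D).choose

theorem isRed_redFun (D : Divisor K F) : IsRed H D (redFun H D) := (exists_isRed H D).choose_spec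

end Constr

section

variable (A K F k R)

/-- Reduction of divisors. -/
structure DivRed [IsAlgClosed K] [IsAlgClosed k] [FunField K F] [FunField k R]
    (M : RedModel A K F k R) (hk : Function.Surjective (algebraMap A k)) where
  /-- the reduction map on divisors -/
  r : Divisor K F →+ Divisor k R
  degree_r : ∀ D, Divisor.degree (r D) = Divisor.degree D
  rd_le : ∀ D, M.rd hk (riemannRochSpace D) ≤ riemannRochSpace (r D)
  genus_eq : (rrGenus K F : ℤ) = rrGenus k R

end

/-- The reduction of divisors of a curve with good reduction. -/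
noncomputable def FibreHyp.divRed [IsAlgClosed K] [IsAlgClosed k] [FunField K F] [FunField k R]
    {ι : Type*} [Fintype ι] {G : GaussData A K F k R ι}
    {P Z : Divisor K F} {Pk Zk : Divisor k R} {d : ℕ} {g : ℤ}
    (H : FibreHyp G P Z Pk Zk d g g) : DivRed A K F k R H.M H.hk where
  r :=
    { toFun := Constr.redFun H
      map_zero' := (Constr.isRed_redFun H 0).unique H (Constr.isRed_zero H)
      map_add' := fun D D' => (Constr.mul_ineq H (Constr.isRed_redFun H D)
        (Constr.isRed_redFun H D') (Constr.isRed_redFun H (D + D')) rfl).symm }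
  degree_r := fun D => (Constr.isRed_redFun H D).1
  rd_le := fun D => by
    have := (Constr.isRed_redFun H D).2 0
    have e1 : (0 • P + 0 • Z + D) = D := by simp
    have e2 : (0 • Pk + 0 • Zk + Constr.redFun H D) = Constr.redFun H D := by simp
    rw [Constr.V, LL, LL, e1, e2] at this
    exact this
  genus_eq := by
    have h1 : g = rrGenus K F := rrGenus_unique (by
      obtain ⟨c, hc⟩ := H.rr
      exact ⟨c, fun D hD => (hc D hD).2⟩)
    have h2 : g = rrGenus k R := rrGenus_unique (by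
      obtain ⟨c, hc⟩ := H.rrk
      exact ⟨c, fun D hD => (hc D hD).2⟩)
    rw [← h1, ← h2]

end Fermat.Agent.Spec
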